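import Fermat.Agent.Lowering.P6.Interface
import Fermat.Agent.FlatLocal.Tame
import Fermat.Agent.Mazur.AtP

/-!
# Decomposition groups away from `p`, seen by images in which inertia is a `p`-group

Inertia is generated by any element moving a `p`-th root of the residue characteristic, a
Frobenius element and inertia generate everything, and conjugation by Frobenius raises to the
power of the residue characteristic.
-/

set_option autoImplicit false
set_option linter.style.haveILetI false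

noncomputable section

open IsLocalRing
open scoped Pointwise

namespace FLTAgent.Lowering.P6

local notation "LL" => AlgebraicClosure ℚ
local notation "GG" => (AlgebraicClosure ℚ ≃ₐ[ℚ] AlgebraicClosure ℚ)

open FLTAgent.FlatLocal (Dec res)
open FLTAgent.Mazur (kum expChar IsExp)

variable {t : ℕ} (V : ValuationSubring LL)

/-- Modulo an open normal subgroup the decomposition group is generated by inertia and a Frobenius
element. -/
theorem exists_pow_mul_inertia_mul (ht : t.Prime) (hV : V.LiesOverPrime t) {φ : GG}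
    (hφ : V.IsFrobeniusAt φ t) (F : IntermediateField ℚ LL) [FiniteDimensional ℚ F] [Normal ℚ F]
    {τ : GG} (hτ : τ ∈ V.decompositionSubgroup ℚ) :
    ∃ (i : ℕ) (ν σ : GG), σ ∈ V.inertiaSubgroupIn ℚ ∧ ν ∈ F.fixingSubgroup ∧
      τ = φ ^ i * ν * σ := by
  haveI : Fact t.Prime := ⟨ht⟩
  haveI := Mazur.isGalois_QQb
  haveI := FrobTrace.charP_residueField hV
  obtain ⟨hφD, hφx⟩ := (Frobenius.isFrobeniusAt_iff V φ t).1 hφ
  let φD : Dec V := ⟨φ, hφD⟩
  let τD : Dec V := ⟨τ, hτ⟩
  -- the residues of the integers of `F`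
  let ι : integralClosure ℤ F →+* V :=
    ((F.val.toRingHom.comp (integralClosure ℤ F).val.toRingHom)).codRestrict V.toSubring fun b =>
      Frobenius.integralClosure_le V ⟨_, map_isIntegral_int F.val.toRingHom b.2⟩
  let κ : Subring (ResidueField V) := ((residue V).comp ι).range
  letI := ZMod.algebra (ResidueField V) t
  have hfin : (κ : Set (ResidueField V)).Finite := by
    haveI : Module.Finite ℤ (integralClosure ℤ F) :=
      IsIntegralClosure.finite ℤ ℚ F (integralClosure ℤ F)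
    obtain ⟨s, hs⟩ := (inferInstance : Module.Finite ℤ (integralClosure ℤ F)).fg_top
    let M := Submodule.span (ZMod t) ((residue V).comp ι '' (s : Set (integralClosure ℤ F)))
    haveI : Module.Finite (ZMod t) M := Module.Finite.span_of_finite _ (s.finite_toSet.image _)
    have : Finite M := Module.finite_of_finite (ZMod t)
    refine (Set.toFinite (M : Set (ResidueField V))).subset ?_
    rintro _ ⟨b, rfl⟩
    have hb : b ∈ Submodule.span ℤ (s : Set (integralClosure ℤ F)) := hs ▸ Submodule.mem_top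
    induction hb using Submodule.span_induction with
    | mem x hx => exact Submodule.subset_span ⟨x, hx, rfl⟩
    | zero => rw [map_zero]; exact M.zero_mem
    | add x y _ _ hx hy => rw [map_add]; exact M.add_mem hx hy
    | smul a x _ hx => rw [map_zsmul]; exact zsmul_mem hx a
  haveI : Finite κ := hfin.to_subtype
  haveI : IsDomain κ := inferInstance
  letI : Field κ := (Finite.isDomain_to_isField κ).toField
  haveI : CharP κ t := CharP.subring _ t κ
  letI : Algebra (ZMod t) κ := ZMod.algebra _ t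
  -- the action on this finite field
  have hcard : ∀ x : ResidueField V, x ∈ κ → x ^ Nat.card κ = x := fun x hx => by
    letI := Fintype.ofFinite κ
    have := FiniteField.pow_card (⟨x, hx⟩ : κ)
    rw [← Nat.card_eq_fintype_card] at this
    simpa using congrArg Subtype.val this
  have hst : ∀ x ∈ κ, τD • x ∈ κ := by
    classical
    intro x hx
    by_contra hne
    have hq : 1 < Nat.card κ := Finite.one_lt_card
    set P : Polynomial (ResidueField V) := Polynomial.X ^ Nat.card κ - Polynomial.X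
    have hdeg : P.natDegree = Nat.card κ := FiniteField.X_pow_card_sub_X_natDegree_eq _ hq
    have hP : P ≠ 0 := fun h => by rw [h] at hdeg; simp at hdeg; omega
    have hsub : insert (τD • x) hfin.toFinset ⊆ P.roots.toFinset := by
      intro y hy
      rw [Multiset.mem_toFinset, Polynomial.mem_roots hP]
      rcases Finset.mem_insert.1 hy with rfl | hy
      · simp [P, sub_eq_zero, ← smul_pow', hcard x hx]
      · simp [P, sub_eq_zero, hcard y (hfin.mem_toFinset.1 hy)]
    have h1 := (Finset.card_le_card hsub).trans ((Multiset.toFinset_card_le _).trans P.card_roots')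
    rw [Finset.card_insert_of_notMem (by simpa using hne), hdeg, ← Set.ncard_eq_toFinset_card _ hfin,
      ← Nat.card_coe_set_eq] at h1
    exact absurd h1 (by simp)
  let gbar : κ →ₐ[ZMod t] κ :=
    { toRingHom :=
        ((MulSemiringAction.toRingHom (Dec V) (ResidueField V) τD).comp κ.subtype).codRestrict κ
          fun x => hst _ x.2
      commutes' := fun z => DFunLike.congr_fun (Subsingleton.elim
        ((((MulSemiringAction.toRingHom (Dec V) (ResidueField V) τD).comp κ.subtype).codRestrict κ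
          fun x => hst _ x.2).comp (algebraMap (ZMod t) κ)) (algebraMap (ZMod t) κ)) z }
  obtain ⟨⟨i, _hlt⟩, hi⟩ := (FiniteField.bijective_frobeniusAlgHom_pow (ZMod t) κ).2 gbar
  have hres : ∀ x : ResidueField V, x ∈ κ → τD • x = x ^ t ^ i := fun x hx => by
    have h := congrArg Subtype.val (DFunLike.congr_fun hi (⟨x, hx⟩ : κ))
    simp only [AlgHom.coe_pow, FiniteField.coe_frobeniusAlgHom, pow_iterate, ZMod.card] at h
    exact (show (gbar ⟨x, hx⟩ : ResidueField V) = _ from h.symm).trans rfl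
  have hφres : ∀ (j : ℕ) (x : ResidueField V), (φD ^ j) • x = x ^ t ^ j := by
    intro j
    induction j with
    | zero => simp
    | succ j ih =>
      intro x
      obtain ⟨y, hy, rfl⟩ := FlatLocal.exists_res_eq x
      have h1 : φD • res V y = res V y ^ t := by
        rw [FlatLocal.smul_res φD hy, ← FlatLocal.res_pow hy]
        exact (FlatLocal.res_eq_iff (FlatLocal.map_mem φD hy) (pow_mem hy t)).2
          (V.mem_nonunits_iff.1 (hφx y hy))
      rw [pow_succ, mul_smul, h1, ih, ← pow_mul, mul_comm, ← pow_succ]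
  -- lift to inertia
  haveI : IsGalois ℚ F := isGalois_iff.2 ⟨inferInstance, inferInstance⟩
  have hnorm : F.fixingSubgroup.Normal := (InfiniteGalois.normal_iff_isGalois F).2 this
  have hclosed : IsClosed (F.fixingSubgroup : Set GG) := F.fixingSubgroup_isClosed
  set g : GG := (φ ^ i)⁻¹ * τ with hg
  let gD : Dec V := (φD ^ i)⁻¹ * τD
  obtain ⟨h, hh, hin⟩ := Places.exists_mul_mem_inertia V F.fixingSubgroup hclosed g fun b => by
    have hbF : ((b : integralClosure ℤ LL) : LL) ∈ F := by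
      refine (InfiniteGalois.fixedField_fixingSubgroup F).le ?_
      intro k
      exact congrArg Subtype.val (b.2 k)
    let b' : integralClosure ℤ F := ⟨⟨_, hbF⟩, (isIntegral_algHom_iff
      (F.val.restrictScalars ℤ) F.val.injective).1 (b : integralClosure ℤ LL).2⟩
    have hbV : ((b : integralClosure ℤ LL) : LL) ∈ V := Frobenius.integralClosure_le V _
    have hx : res V ((b : integralClosure ℤ LL) : LL) ∈ κ := ⟨b', by
      rw [FlatLocal.res_of_mem hbV]; rfl⟩
    rw [Frobenius.mem_centre_iff, V.mem_nonunits_iff]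
    show V.valuation ((gD : GG) _ - _) < 1
    refine (FlatLocal.res_eq_iff (FlatLocal.map_mem gD hbV) hbV).1 ?_
    rw [← FlatLocal.smul_res gD hbV, mul_smul, inv_smul_eq_iff, hres _ hx, hφres]
  exact ⟨i, h⁻¹, h * g, hin, inv_mem hh, by rw [hg]; group⟩

variable {p : ℕ}

theorem expChar_frobenius (ht : t.Prime) (hV : V.LiesOverPrime t) {m : ℕ} [NeZero m] (htm : ¬ t ∣ m)
    {ζ : LL} (hζ : IsPrimitiveRoot ζ m) {φ : GG} (hφ : V.IsFrobeniusAt φ t) :
    expChar m ζ φ = (t : ZMod m) := by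
  haveI : Fact t.Prime := ⟨ht⟩
  obtain ⟨hφD, hφx⟩ := (Frobenius.isFrobeniusAt_iff V φ t).1 hφ
  have hm0 : m ≠ 0 := NeZero.ne m
  have hζV : ζ ∈ V := FlatLocal.mem_of_val_le_one (FlatLocal.val_root hm0 hζ.pow_eq_one).le
  have h1 := Mazur.isExp_expChar hζ φ
  have hζ0 : ζ ≠ 0 := hζ.ne_zero hm0
  set e := (expChar m ζ φ).val
  have hμ : (φ ζ / ζ ^ t) ^ m = 1 := by
    rw [div_pow, ← map_pow, hζ.pow_eq_one, map_one, ← pow_mul, mul_comm, pow_mul, hζ.pow_eq_one,
      one_pow, div_one]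
  have hres : res V (φ ζ / ζ ^ t) = 1 := by
    have hV' : φ ζ / ζ ^ t ∈ V := FlatLocal.mem_of_val_le_one (FlatLocal.val_root hm0 hμ).le
    have h2 : res V (φ ζ / ζ ^ t) * res V (ζ ^ t) = res V (ζ ^ t) := by
      rw [← FlatLocal.res_mul hV' (pow_mem hζV t), div_mul_cancel₀ _ (pow_ne_zero _ hζ0)]
      exact (FlatLocal.res_eq_iff (FlatLocal.map_mem ⟨φ, hφD⟩ hζV) (pow_mem hζV t)).2
        (V.mem_nonunits_iff.1 (hφx ζ hζV))
    exact (mul_eq_right₀ (FlatLocal.res_ne_zero (by
      rw [map_pow, FlatLocal.val_root hm0 hζ.pow_eq_one, one_pow]))).1 h2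
  have h3 : φ ζ = ζ ^ t := by
    have := FlatLocal.root_eq_one_of_res (P := V) hV htm hμ hres
    rwa [div_eq_one_iff_eq (pow_ne_zero _ hζ0)] at this
  refine Mazur.zpowZMod_injective hζ ?_
  rw [← h1, h3, ZMod.val_natCast]
  exact pow_eq_pow_mod t hζ.pow_eq_one

theorem expChar_eq_one_of_fix {m : ℕ} [NeZero m] {ζ : LL} (hζ : IsPrimitiveRoot ζ m) {σ : GG}
    (h : σ ζ = ζ) : expChar m ζ σ = 1 := by
  refine Mazur.zpowZMod_injective hζ ?_
  rw [← Mazur.isExp_expChar hζ σ, h, ZMod.val_one_eq_one_mod, ← pow_eq_pow_mod 1 hζ.pow_eq_one,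
    pow_one]

variable {G : Type} [Group G] (f : V.decompositionSubgroup ℚ →* G)

/-- On inertia every homomorphism to a group with an additive invariant is a multiple of the
Kummer cocycle. -/
theorem exists_mul_kum (ht : t.Prime) (hV : V.LiesOverPrime t) {m : ℕ} [NeZero m] (htm : ¬ t ∣ m)
    {ζ π : LL} (hζ : IsPrimitiveRoot ζ m) (hπ : π ^ m = t)
    (hf : P1.LevC (V.decompositionSubgroup ℚ).subtype f) (ψ : G → ZMod m)
    (hψ : ∀ σ τ : V.decompositionSubgroup ℚ, (σ : GG) ∈ V.inertiaSubgroupIn ℚ →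
      (τ : GG) ∈ V.inertiaSubgroupIn ℚ → ψ (f (σ * τ)) = ψ (f σ) + ψ (f τ)) :
    ∃ i : ZMod m, ∀ σ : V.decompositionSubgroup ℚ, (σ : GG) ∈ V.inertiaSubgroupIn ℚ →
      ψ (f σ) = i * kum m ζ π σ := by
  classical
  obtain ⟨F₀, hF₀, hlev⟩ := hf
  haveI := hF₀
  haveI := Mazur.isGalois_QQb
  haveI : FiniteDimensional ℚ (IntermediateField.adjoin ℚ ({ζ} : Set LL)) :=
    IntermediateField.adjoin.finiteDimensional (Algebra.IsIntegral.isIntegral ζ)
  set F := IntermediateField.normalClosure ℚ ↥(F₀ ⊔ IntermediateField.adjoin ℚ ({ζ} : Set LL)) LL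
  have hle : F₀ ⊔ IntermediateField.adjoin ℚ ({ζ} : Set LL) ≤ F := IntermediateField.le_normalClosure _
  haveI : FiniteDimensional ℚ F := normalClosure.is_finiteDimensional ℚ _ _
  haveI := Mazur.isGalois_QQb
  haveI : IsGalois ℚ F := IsGalois.normalClosure ℚ _ _
  set Vn := F.fixingSubgroup with hVn
  haveI hn : Vn.Normal := (InfiniteGalois.normal_iff_isGalois F).2 inferInstance
  have hopen : IsOpen (Vn : Set GG) := F.fixingSubgroup_isOpen
  set I := V.inertiaSubgroupIn ℚ
  set U := I ⊔ Vn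
  have hID : I ≤ V.decompositionSubgroup ℚ := Places.inertia_le_decomposition V
  have hdec : ∀ u ∈ U, ∃ σ ∈ I, ∃ ν ∈ Vn, u = σ * ν := fun u hu => by
    rw [← SetLike.mem_coe, Subgroup.mul_normal] at hu
    obtain ⟨σ, hσ, ν, hν, rfl⟩ := hu
    exact ⟨σ, hσ, ν, hν, rfl⟩
  -- the extension of `f` to `U`
  let val : GG → G := fun u =>
    if h : ∃ σ : V.decompositionSubgroup ℚ, (σ : GG) ∈ I ∧ (σ : GG)⁻¹ * u ∈ Vn then f h.choose
    else 1
  have hker : ∀ σ : V.decompositionSubgroup ℚ, (σ : GG) ∈ Vn → f σ = 1 := fun σ hσ => by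
    have := hlev 1 σ (IntermediateField.fixingSubgroup_antitone (le_sup_left.trans hle) hσ)
    rwa [one_mul, map_one] at this
  have hval : ∀ (σ : V.decompositionSubgroup ℚ) (ν : GG), (σ : GG) ∈ I → ν ∈ Vn →
      val ((σ : GG) * ν) = f σ := by
    intro σ ν hσ hν
    have h : ∃ σ' : V.decompositionSubgroup ℚ, (σ' : GG) ∈ I ∧
        (σ' : GG)⁻¹ * ((σ : GG) * ν) ∈ Vn := ⟨σ, hσ, by rwa [inv_mul_cancel_left]⟩
    rw [show val ((σ : GG) * ν) = f h.choose from dif_pos h]
    obtain ⟨-, h2⟩ := h.choose_spec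
    have h3 : ((h.choose⁻¹ * σ : V.decompositionSubgroup ℚ) : GG) ∈ Vn := by
      have := mul_mem h2 (inv_mem hν)
      simpa [mul_assoc] using this
    have := hker _ h3
    rwa [map_mul, map_inv, inv_mul_eq_one] at this
  have hexp : ∀ u ∈ U, expChar m ζ u = 1 := fun u hu => by
    obtain ⟨σ, hσ, ν, hν, rfl⟩ := hdec u hu
    refine expChar_eq_one_of_fix hζ ?_
    rw [AlgEquiv.mul_apply, (IntermediateField.mem_fixingSubgroup_iff F ν).1 hν ζ
      (hle ((le_sup_right : IntermediateField.adjoin ℚ ({ζ} : Set LL) ≤ F₀ ⊔ _)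
        (IntermediateField.mem_adjoin_simple_self ℚ ζ)))]
    exact Mazur.map_eq_self_of_unit_pow V ht hV htm
      (Mazur.valuation_root_of_unity V (NeZero.ne m) hζ.pow_eq_one) hσ
      (by rw [hζ.pow_eq_one, map_one])
  have hπ' : ∀ σ : GG, σ π = ζ ^ (kum m ζ π σ).val * π := fun σ =>
    Mazur.kum_spec_rat hζ (r := (t : ℚ)) (Nat.cast_ne_zero.2 ht.ne_zero)
      (by rw [hπ, Rat.cast_natCast]) σ
  obtain ⟨i, hi⟩ := Mazur.exists_eq_tame_mul V ht hV htm hζ hπ (c := fun u => ψ (val u))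
    (Mazur.isExp_expChar hζ) hπ' U Vn hopen le_sup_right le_sup_left
    (fun a ha b hb => by
      rw [hexp a ha, one_mul]
      obtain ⟨σ, hσ, ν, hν, rfl⟩ := hdec a ha
      obtain ⟨σ', hσ', ν', hν', rfl⟩ := hdec b hb
      rw [show σ * ν * (σ' * ν') = σ * σ' * (σ'⁻¹ * ν * σ' * ν') by group]
      have hc : σ'⁻¹ * ν * σ' * ν' ∈ Vn := mul_mem (by simpa using hn.conj_mem ν hν σ'⁻¹) hν'
      show ψ (val _) = ψ (val _) + ψ (val _)
      rw [hval ⟨σ, hID hσ⟩ ν hσ hν, hval ⟨σ', hID hσ'⟩ ν' hσ' hν',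
        show σ * σ' = ((⟨σ, hID hσ⟩ * ⟨σ', hID hσ'⟩ : V.decompositionSubgroup ℚ) : GG) from rfl,
        hval _ _ (mul_mem hσ hσ') hc]
      exact hψ _ _ hσ hσ')
    (fun ν hν => by
      show ψ (val ν) = 0
      rw [show ν = ((1 : V.decompositionSubgroup ℚ) : GG) * ν by simp,
        hval 1 ν (one_mem _) hν]
      have := hψ 1 1 (one_mem _) (one_mem _)
      rw [one_mul, left_eq_add] at this
      exact this)
  exact ⟨i, fun σ hσ => by
    rw [← hi σ hσ]
    show _ = ψ (val _)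
    rw [← mul_one (σ : GG), hval σ 1 hσ (one_mem _)]⟩

set_option maxHeartbeats 1000000 in
/-- The local package. -/
theorem targetTameGen : TargetTameGen := by
  classical
  intro p t hp ht htp V hV φ hφ
  haveI : Fact p.Prime := ⟨hp⟩
  haveI : NeZero ((p : ℕ) : LL) := ⟨Nat.cast_ne_zero.2 hp.ne_zero⟩
  have hID := Places.inertia_le_decomposition V
  obtain ⟨hφD, -⟩ := (Frobenius.isFrobeniusAt_iff V φ t).1 hφ
  have htm : ∀ a : ℕ, ¬ t ∣ p ^ a := fun a h =>
    htp ((Nat.prime_dvd_prime_iff_eq ht hp).1 (ht.dvd_of_dvd_pow h))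
  obtain ⟨ζ, hζ⟩ := HasEnoughRootsOfUnity.exists_primitiveRoot LL p
  obtain ⟨π, hπ⟩ := IsAlgClosed.exists_pow_nat_eq (t : LL) hp.pos
  have htm1 : ¬ t ∣ p := by simpa using htm 1
  have hπ' : ∀ σ : GG, σ π = ζ ^ (kum p ζ π σ).val * π := fun σ =>
    Mazur.kum_spec_rat hζ (r := (t : ℚ)) (Nat.cast_ne_zero.2 ht.ne_zero)
      (by rw [hπ, Rat.cast_natCast]) σ
  have hπ0 : π ≠ 0 := fun e => Nat.cast_ne_zero.2 ht.ne_zero
    (by rw [← hπ, e, zero_pow hp.ne_zero])
  obtain ⟨σ₀, hσ₀, hne⟩ : ∃ σ ∈ V.inertiaSubgroupIn ℚ, kum p ζ π σ ≠ 0 := by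
    by_contra hall
    push Not at hall
    obtain ⟨i, hi⟩ := Mazur.exists_zpow_valuation V ht hV hπ0 fun σ hσ => by
      rw [hπ', hall σ hσ]; simp
    have h1 : V.valuation (t : LL) ^ ((p : ℤ) * i) = V.valuation (t : LL) ^ (1 : ℤ) := by
      rw [mul_comm, zpow_mul, zpow_natCast, ← hi, ← map_pow, hπ, zpow_one]
    have h2 := Int.eq_one_of_mul_eq_one_right (by positivity)
      (Mazur.zpow_valuation_injective V ht hV h1)
    exact hp.ne_one (by exact_mod_cast h2)
  refine ⟨⟨⟨σ₀, hID hσ₀⟩, ⟨φ, hφD⟩, hσ₀, hφ, fun {G} _ _ f hf hpf => ?_⟩, rfl⟩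
  set σD : V.decompositionSubgroup ℚ := ⟨σ₀, hID hσ₀⟩
  set φD : V.decompositionSubgroup ℚ := ⟨φ, hφD⟩
  -- the image of inertia
  let H : Subgroup G :=
    ((V.inertiaSubgroupIn ℚ).comap (V.decompositionSubgroup ℚ).subtype).map f
  have hmemH : ∀ τ : V.decompositionSubgroup ℚ, (τ : GG) ∈ V.inertiaSubgroupIn ℚ → f τ ∈ H :=
    fun τ hτ => ⟨τ, hτ, rfl⟩
  have hH : IsPGroup p H := by
    rintro ⟨_, τ, hτ, rfl⟩
    obtain ⟨a, ha⟩ := hpf τ hτ
    exact ⟨a, Subtype.ext ha⟩
  set gH : H := ⟨f σD, hmemH σD hσ₀⟩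
  have htop : Subgroup.zpowers gH = ⊤ := by
    by_contra hne'
    obtain ⟨M, hM, hle⟩ := (eq_top_or_exists_le_coatom (Subgroup.zpowers gH)).resolve_left hne'
    haveI : Group.IsNilpotent H := hH.isNilpotent
    haveI : M.Normal := Subgroup.NormalizerCondition.normal_of_coatom M
      normalizerCondition_of_isNilpotent hM
    have hsimple : IsSimpleGroup (H ⧸ M) := by
      haveI : Nontrivial (H ⧸ M) := (QuotientGroup.nontrivial_iff.2 hM.1)
      refine ⟨fun N _ => ?_⟩
      rcases (hM.le_iff (x := N.comap (QuotientGroup.mk' M))).1 (by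
        intro x hx; rw [Subgroup.mem_comap, QuotientGroup.mk'_apply,
          (QuotientGroup.eq_one_iff x).2 hx]; exact one_mem N) with h | h
      · exact Or.inr (Subgroup.comap_injective (QuotientGroup.mk'_surjective M)
          (h.trans (Subgroup.comap_top _).symm))
      · refine Or.inl (Subgroup.comap_injective (QuotientGroup.mk'_surjective M) (h.trans ?_))
        exact (QuotientGroup.ker_mk' M).symm
    have hq : IsPGroup p (H ⧸ M) := hH.to_quotient M
    haveI : Group.IsNilpotent (H ⧸ M) := hq.isNilpotent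
    haveI := hsimple
    have hcard : Nat.card (H ⧸ M) = p := by
      haveI : IsMulCommutative (H ⧸ M) := ⟨⟨fun a b => ?_⟩⟩
      · letI : CommGroup (H ⧸ M) := { (inferInstance : Group (H ⧸ M)) with
          mul_comm := IsMulCommutative.is_comm.comm }
        have hpr := (IsSimpleGroup.prime_card : (Nat.card (H ⧸ M)).Prime)
        obtain ⟨a, ha⟩ := hq.exists_card_eq
        rw [ha] at hpr ⊢
        rw [hpr.eq_one_of_pow, pow_one]
      · exact (IsSimpleGroup.comm_iff_isSolvable.2 inferInstance) a b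
    haveI : IsCyclic (H ⧸ M) := isCyclic_of_prime_card hcard
    let e : Multiplicative (ZMod p) ≃* H ⧸ M :=
      hcard ▸ zmodCyclicMulEquiv (G := H ⧸ M) inferInstance
    classical
    let ψ : G → ZMod p := fun x =>
      if hx : x ∈ H then (e.symm (QuotientGroup.mk' M ⟨x, hx⟩)).toAdd else 0
    have hψ : ∀ x : H, ψ x = (e.symm (QuotientGroup.mk' M x)).toAdd := fun x => dif_pos x.2
    obtain ⟨i, hi⟩ := exists_mul_kum V f ht hV htm1 hζ hπ hf ψ fun a b ha hb => by
      rw [show f (a * b) = ((⟨f a, hmemH a ha⟩ * ⟨f b, hmemH b hb⟩ : H) : G) from map_mul f a b,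
        hψ, map_mul, map_mul, toAdd_mul,
        show ψ (f a) = _ from hψ ⟨f a, hmemH a ha⟩, show ψ (f b) = _ from hψ ⟨f b, hmemH b hb⟩]
    have h0 : i = 0 := by
      have h1 := hi σD hσ₀
      rw [show ψ (f σD) = _ from hψ gH, QuotientGroup.mk'_apply,
        (QuotientGroup.eq_one_iff gH).2 (hle (Subgroup.mem_zpowers gH)), map_one, toAdd_one] at h1
      exact (mul_eq_zero.1 h1.symm).resolve_right hne
    refine hM.1 (eq_top_iff.2 fun x _ => ?_)
    obtain ⟨τ, hτ, hx⟩ := x.2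
    have h2 := hi τ hτ
    rw [show ψ (f τ) = ψ x by rw [hx], hψ, h0, zero_mul] at h2
    rw [← QuotientGroup.eq_one_iff]
    have h3 : e.symm (QuotientGroup.mk' M x) = 1 := Multiplicative.toAdd.injective h2
    exact (map_eq_one_iff _ e.symm.injective).1 h3
  have hgen : ∀ τ : V.decompositionSubgroup ℚ, (τ : GG) ∈ V.inertiaSubgroupIn ℚ →
      f τ ∈ Subgroup.zpowers (f σD) := fun τ hτ => by
    have : (⟨f τ, hmemH τ hτ⟩ : H) ∈ Subgroup.zpowers gH := htop ▸ Subgroup.mem_top _
    obtain ⟨z, hz⟩ := this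
    exact ⟨z, congrArg Subtype.val hz⟩
  refine ⟨hgen, fun τ => ?_, ?_⟩
  · obtain ⟨F₀, hF₀, hlev⟩ := hf
    haveI := hF₀
    haveI := Mazur.isGalois_QQb
    set F := IntermediateField.normalClosure ℚ F₀ LL
    haveI : FiniteDimensional ℚ F := normalClosure.is_finiteDimensional ℚ _ _
    haveI : IsGalois ℚ F := IsGalois.normalClosure ℚ _ _
    obtain ⟨i, ν, s, hs, hν, hτ⟩ := exists_pow_mul_inertia_mul V ht hV hφ F τ.2
    have hνD : ν ∈ V.decompositionSubgroup ℚ := by
      have : ν = (φ ^ i)⁻¹ * τ * s⁻¹ := by rw [hτ]; group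
      rw [this]
      exact mul_mem (mul_mem (inv_mem (pow_mem hφD i)) τ.2) (inv_mem (hID hs))
    have h1 : f ⟨ν, hνD⟩ = 1 := by
      have := hlev 1 ⟨ν, hνD⟩ (IntermediateField.fixingSubgroup_antitone
        (IntermediateField.le_normalClosure F₀) hν)
      rwa [one_mul, map_one] at this
    rw [show τ = φD ^ i * ⟨ν, hνD⟩ * ⟨s, hID hs⟩ from Subtype.ext hτ, map_mul, map_mul, h1,
      mul_one, map_pow]
    have hφmem : f φD ∈ Subgroup.closure ({f σD, f φD} : Set G) :=
      Subgroup.subset_closure (Set.mem_insert_of_mem _ (Set.mem_singleton _))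
    refine Subgroup.mul_mem _ (Subgroup.pow_mem _ hφmem i) ?_
    obtain ⟨z, hz⟩ := hgen ⟨s, hID hs⟩ hs
    rw [← hz]
    exact Subgroup.zpow_mem _ (Subgroup.subset_closure (Set.mem_insert _ _)) z
  · obtain ⟨a, ha⟩ := hpf σD hσ₀
    obtain ⟨b, hb, hord⟩ := (Nat.dvd_prime_pow hp).1 (orderOf_dvd_of_pow_eq_one ha)
    set m := p ^ b with hm
    haveI : NeZero m := ⟨pow_ne_zero _ hp.ne_zero⟩
    haveI : NeZero ((m : ℕ) : LL) := ⟨Nat.cast_ne_zero.2 (NeZero.ne m)⟩
    obtain ⟨ξ, hξ⟩ := HasEnoughRootsOfUnity.exists_primitiveRoot LL m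
    obtain ⟨ϖ, hϖ⟩ := IsAlgClosed.exists_pow_nat_eq (t : LL) (NeZero.pos m)
    classical
    let ψ : G → ZMod m := fun x =>
      if h : ∃ z : ℤ, f σD ^ z = x then (h.choose : ZMod m) else 0
    have hψ : ∀ z : ℤ, ψ (f σD ^ z) = (z : ZMod m) := fun z => by
      have h : ∃ z' : ℤ, f σD ^ z' = f σD ^ z := ⟨z, rfl⟩
      rw [show ψ (f σD ^ z) = (h.choose : ZMod m) from dif_pos h, ZMod.intCast_eq_intCast_iff,
        ← hord]
      exact zpow_eq_zpow_iff_modEq.1 h.choose_spec
    obtain ⟨i, hi⟩ := exists_mul_kum V f ht hV (htm b) hξ hϖ hf ψ fun x y hx hy => by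
      obtain ⟨zx, hzx⟩ := hgen x hx
      obtain ⟨zy, hzy⟩ := hgen y hy
      rw [map_mul, ← hzx, ← hzy, ← zpow_add, hψ, hψ, hψ, Int.cast_add]
    have hconj : ((φD * σD * φD⁻¹ : V.decompositionSubgroup ℚ) : GG) ∈ V.inertiaSubgroupIn ℚ :=
      Mazur.conj_mem V hφD hσ₀
    obtain ⟨z, hz⟩ := hgen _ hconj
    have h1 := hi σD hσ₀
    rw [← zpow_one (f σD), hψ, Int.cast_one] at h1
    have h2 := hi _ hconj
    rw [← hz, hψ, show ((φD * σD * φD⁻¹ : V.decompositionSubgroup ℚ) : GG) = φ * σ₀ * φ⁻¹ from rfl,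
      Mazur.kum_conj ht hV (htm b) hξ hϖ hσ₀, expChar_frobenius V ht hV (htm b) hξ hφ,
      mul_left_comm, ← h1, mul_one] at h2
    have h3 : f σD ^ z = f σD ^ (t : ℤ) := zpow_eq_zpow_iff_modEq.2 (by
      rw [hord, ← ZMod.intCast_eq_intCast_iff, h2, Int.cast_natCast])
    rw [← map_inv, ← map_mul, ← map_mul, ← hz]
    exact h3.trans (zpow_natCast _ _)

end FLTAgent.Lowering.P6
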