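import Fermat.Agent.Lowering.P6.Levels
import Fermat.Agent.Lowering.P5.Patching

/-!
# The point unramified at the primes to be removed

Patching gives a point of the base algebra at which the inertia coordinates vanish; its
representation is then trivial on inertia at every prime of `T`.
-/

set_option autoImplicit false
set_option linter.style.haveILetI false

noncomputable section

open IsLocalRing
open scoped Pointwise

namespace FLTAgent.Lowering.P6

local notation "LL" => AlgebraicClosure ℚ
local notation "GG" => (AlgebraicClosure ℚ ≃ₐ[ℚ] AlgebraicClosure ℚ)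
local notation "M2" => Matrix (Fin 2) (Fin 2)

variable {p : ℕ} [hp : Fact p.Prime] {O : Type} [CommRing O] [IsDomain O]
  [IsDiscreteValuationRing O] [Algebra ℤ_[p] O] [Module.Finite ℤ_[p] O]

/-- A matrix with vanishing coordinates and trace two is trivial. -/
theorem eq_one_of_coords {A : Type} [CommRing A] {h : A} (hh : 2 * h = 1) {M : M2 A}
    (hc : ∀ i, coords h M i = 0) (htr : M.trace = 2) : M = 1 := by
  have h0 := hc 0; have h1 := hc 1; have h2 := hc 2
  simp [coords] at h0 h1 h2
  rw [Matrix.trace_fin_two] at htr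
  ext i j
  fin_cases i <;> fin_cases j <;> simp [h1, h2]
  · linear_combination h0 + h * htr + (1 - M 0 0) * hh
  · linear_combination -h0 + h * htr + (1 - M 1 1) * hh

namespace Conj

variable {S : Setup p O} {X : Aux S} {L : LevelData X} (c : Conj L)

/-- A point at which a tame generator is trivial is trivial on inertia. -/
theorem map_inertia_eq_one (e : ZMod p ≃+* ResidueField O) {Ω : Type} [Field Ω] [Algebra O Ω]
    (f : L.R →ₐ[O] Ω) {t : ℕ} {V : ValuationSubring LL} (T : TameGen p t V)
    (hres : ∀ σ ∈ V.inertiaSubgroupIn ℚ, (c.ρ σ : M2 L.R).map L.red = 1)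
    (h1 : (c.ρ T.σ : M2 L.R).map f = 1) {τ : GG} (hτ : τ ∈ V.inertiaSubgroupIn ℚ) :
    (c.ρ τ : M2 L.R).map f = 1 := by
  haveI := L.finite_R
  haveI := isNoetherianRing_level L
  set S' := f.range
  let f' : L.R →ₐ[O] S' := f.rangeRestrict
  haveI : IsNoetherianRing S' :=
    isNoetherianRing_of_surjective L.R S' f'.toRingHom f.rangeRestrict_surjective
  haveI : IsDomain S' := inferInstance
  have hne : Ideal.span {(p : S')} ≠ ⊤ := by
    intro h
    obtain ⟨y, hy⟩ := Ideal.mem_span_singleton.1 (h ▸ Submodule.mem_top (x := (1 : S')))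
    obtain ⟨z, rfl⟩ := f.rangeRestrict_surjective y
    have hu : IsUnit (1 - (p : L.R) * z) :=
      IsLocalRing.isUnit_one_sub_self_of_mem_nonunits _ ((mem_maximalIdeal _).1
        (Ideal.mul_mem_right z _ (red_natCast L e)))
    have h0 : f' (1 - (p : L.R) * z) = 0 := by
      rw [map_sub, map_one, map_mul, map_natCast]
      exact sub_eq_zero.2 hy
    exact (hu.map f').ne_zero h0
  ext i j
  have key : ∀ n : ℕ, f' ((c.ρ τ : M2 L.R) i j - (1 : M2 L.R) i j) ∈ Ideal.span {(p : S')} ^ n := by
    intro n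
    obtain ⟨k, hk⟩ := c.inertia_mem_zpowers T e hres n hτ
    have hk' : Matrix.GeneralLinearGroup.map (Ideal.Quotient.mk (Ideal.span {(p : L.R) ^ n}))
        (c.ρ ((T.σ : GG) ^ k)) = c.red n τ := by
      rw [← hk]
      simp only
      rw [← map_zpow (c.red n)]
      rfl
    have hmem : (c.ρ τ : M2 L.R) i j - (c.ρ ((T.σ : GG) ^ k) : M2 L.R) i j ∈
        Ideal.span {(p : L.R) ^ n} := by
      rw [← Ideal.Quotient.eq]
      exact (congrArg (fun g : GL (Fin 2) (L.R ⧸ Ideal.span {(p : L.R) ^ n}) =>
        (g : M2 (L.R ⧸ Ideal.span {(p : L.R) ^ n})) i j) hk').symm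
    have hgl : Matrix.GeneralLinearGroup.map f'.toRingHom (c.ρ ((T.σ : GG) ^ k)) = 1 := by
      have h2 : Matrix.GeneralLinearGroup.map f'.toRingHom (c.ρ (T.σ : GG)) = 1 := by
        refine Units.ext (Matrix.ext fun a b => Subtype.ext ?_)
        have h3 := congrFun (congrFun h1 a) b
        show f ((c.ρ T.σ : M2 L.R) a b) = _
        rw [Matrix.map_apply] at h3
        rw [h3]
        by_cases hab : a = b
        · subst hab; simp
        · simp [Matrix.one_apply_ne hab]
      rw [map_zpow, map_zpow, h2, one_zpow]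
    have h4 : f' ((c.ρ ((T.σ : GG) ^ k) : M2 L.R) i j) = (1 : M2 S') i j :=
      congrArg (fun g : GL (Fin 2) S' => (g : M2 S') i j) hgl
    obtain ⟨y, hy⟩ := Ideal.mem_span_singleton.1 hmem
    rw [Ideal.span_singleton_pow, Ideal.mem_span_singleton]
    refine ⟨f' y, ?_⟩
    rw [← map_natCast f', ← map_pow, ← map_mul, ← hy, map_sub, map_sub, h4]
    congr 1
    by_cases hab : i = j
    · subst hab; simp
    · simp [Matrix.one_apply_ne hab]
  have hzero : f' ((c.ρ τ : M2 L.R) i j - (1 : M2 L.R) i j) = 0 := by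
    rw [← Ideal.mem_bot, ← Ideal.iInf_pow_eq_bot_of_isDomain (Ideal.span {(p : S')}) hne]
    exact Submodule.mem_iInf _ |>.2 key
  rw [map_sub, sub_eq_zero] at hzero
  have := congrArg Subtype.val hzero
  rw [Matrix.map_apply]
  refine this.trans ?_
  show f ((1 : M2 L.R) i j) = _
  by_cases hab : i = j
  · subst hab; simp
  · simp [Matrix.one_apply_ne hab]

end Conj

variable {R : Residual p O} {out : Output R.S} (F : Frame R out)

/-- A point of the patching gives a point unramified at `T`. -/
theorem Frame.exists_point (r : ℕ) (hr : 3 * R.S.T.card ≤ r) (h : (F.params r hr).Conclusion) :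
    Nonempty (Point R.S out.base) := by
  obtain ⟨Ω, hΩ, hA, f, hinj, hf⟩ := h
  let f0 : F.baseAlg.range →ₐ[O] Ω := f
  let F' : out.base.R →ₐ[O] Ω := f0.comp F.baseAlg.rangeRestrict
  refine ⟨{ Ω := Ω, injective := hinj, f := F', factors := fun x hx => ?_, unramified := ?_ }⟩
  · show f0 (F.baseAlg.rangeRestrict x) = 0
    rw [show F.baseAlg.rangeRestrict x = 0 from Subtype.ext (by
      show F.baseAlg x = 0
      have h0 : actO out.base false x = 0 := LinearMap.ext fun v => by
        rw [actO_apply, hx]; rfl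
      show LinearMap.toMatrixAlgEquiv F.b0 (actO out.base false x) = 0
      rw [h0, map_zero]), map_zero]
  intro t ht V hV τ hτ i j
  obtain ⟨htp, htM, -⟩ := R.S.T_prime t ht
  have hne : t ≠ p := fun e => R.S.M0_not_dvd (e ▸ htM)
  obtain ⟨V₀, T, hV₀, h1, -, -⟩ := F.g_spec t ht
  have hidx : ∃ k, R.tIdx k = ⟨t, ht⟩ :=
    ⟨R.S.T.equivFin ⟨t, ht⟩, R.S.T.equivFin.symm_apply_apply _⟩
  obtain ⟨k, hk⟩ := hidx
  have he : (F.elt (R.tIdx k)).1 = (T.σ : GG) := by rw [hk]; exact h1.symm
  have hres : ∀ σ ∈ V₀.inertiaSubgroupIn ℚ, (F.base.ρ σ : M2 out.base.R).map out.base.red = 1 :=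
    fun σ hσ => by
      rw [F.base_red, rbM, R.rb_eq, R.unramified t htp hne (Or.inr ht) V₀ hV₀ σ hσ, map_one,
        Units.val_one]
  have hσ1 : (F.base.ρ (T.σ : GG) : M2 out.base.R).map F' = 1 := by
    refine eq_one_of_coords (h := F' (algebraMap O out.base.R F.h))
      (by rw [← map_ofNat F' 2, ← map_mul, F.half_eq, map_one]) (fun l => ?_) ?_
    · rw [← he]
      exact (map_coords F'.toRingHom _ _ l).symm.trans (hf k l)
    · have h2 : F' (trGL (F.base.ρ (T.σ : GG)) - 2) = 0 := by
        refine show f0 (F.baseAlg.rangeRestrict _) = 0 from ?_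
        rw [show F.baseAlg.rangeRestrict (trGL (F.base.ρ (T.σ : GG)) - 2) = 0 from Subtype.ext (by
          show F.baseAlg _ = 0
          have h0 : actO out.base false (trGL (F.base.ρ (T.σ : GG)) - 2) = 0 :=
            LinearMap.ext fun v => by
              rw [actO_apply, map_sub, F.base.trGL_eq,
                (out.base.inertia_T_untwisted t ht V₀ hV₀ _ T.σ_mem).1, map_ofNat, sub_self]
              rfl
          show LinearMap.toMatrixAlgEquiv F.b0 (actO out.base false _) = 0
          rw [h0, map_zero]), map_zero]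
      rw [map_sub, map_ofNat, sub_eq_zero] at h2
      rw [← h2]
      exact (AddMonoidHom.map_trace F'.toAddMonoidHom _).symm
  obtain ⟨g, hg⟩ := Places.exists_smul_eq htp hV hV₀
  have hconj : g * τ * g⁻¹ ∈ V₀.inertiaSubgroupIn ℚ := hg ▸ Places.conj_mem_inertia V hτ g
  have h3 := F.base.map_inertia_eq_one R.e F' T hres hσ1 hconj
  let G' := Matrix.GeneralLinearGroup.map (n := Fin 2) F'.toRingHom
  have h4 : G' (F.base.ρ (g * τ * g⁻¹)) = 1 := Units.ext h3
  rw [F.base.eq, map_mul out.base.ρ, map_mul out.base.ρ, map_inv out.base.ρ, map_mul G', map_mul G',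
    map_mul G', map_mul G', map_inv G', map_inv G'] at h4
  have h5 : G' (out.base.ρ τ) = 1 := by
    have h6 : (G' F.base.P * G' (out.base.ρ g)) * G' (out.base.ρ τ) *
        (G' F.base.P * G' (out.base.ρ g))⁻¹ = 1 := by
      rw [← h4]; group
    exact conj_eq_one_iff.1 h6
  exact congrArg (fun g : GL (Fin 2) Ω => (g : M2 Ω) i j) h5

/-- The point exists, given the count of tangent vectors. -/
theorem targetPoint (hT : TargetTangent) : TargetPoint := by
  intro p _ O _ _ _ _ _ _ _ R hgeo out
  obtain ⟨r, hr, hlev⟩ := hT p O R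
  obtain ⟨F⟩ := exists_frame R out
  haveI : Finite (ResidueField O) := Finite.of_equiv _ R.e.toEquiv
  refine F.exists_point r hr (P5.targetPatching O ?_ (F.params r hr) fun m => ?_)
  · intro h
    have h1 := (IsLocalRing.residue_eq_zero_iff (2 : O)).1 (by rw [map_ofNat]; exact h)
    exact (mem_maximalIdeal _).1 h1 (two_isUnit R)
  · obtain ⟨X, hcard, hq, htan⟩ := hlev (m + 1)
    obtain ⟨Lv⟩ := F.nonempty_level r hr (m := m + 1) (Nat.succ_ne_zero m) le_rfl (hgeo X) hcard hq
      (htan _)
    exact ⟨Lv.restrict m.le_succ⟩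

end FLTAgent.Lowering.P6
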