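import Fermat.Agent.Lowering.P6.Diamond

/-!
# Matrices of the two modules of a level

Bases of the two modules which agree modulo the maximal ideal of `O` and which lift a given basis
of the base module turn the two actions into congruent matrices over the group ring.
-/

set_option autoImplicit false
set_option linter.style.haveILetI false

noncomputable section

open IsLocalRing

namespace FLTAgent.Lowering.P6

variable {p : ℕ} [Fact p.Prime] {O : Type} [CommRing O] [IsDomain O]
  [IsDiscreteValuationRing O] [Algebra ℤ_[p] O] {S : Setup p O}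

theorem finite_dia (X : Aux S) : Finite X.Dia := by
  haveI := finite_units' X
  exact Quotient.finite _

theorem finite_base (X : Aux S) (L : LevelData X) (e : Bool) : Module.Finite O (L.M e) := by
  haveI := finite_dia X
  haveI := L.finite e
  exact Module.Finite.trans X.Coef (L.M e)

theorem free_base (X : Aux S) (L : LevelData X) (e : Bool) : Module.Free O (L.M e) := by
  haveI := L.free e
  exact Module.Free.trans (S := X.Coef)

/-- The action on a module as linear maps over `O`. -/
def actO {X : Aux S} (L : LevelData X) (e : Bool) : L.R →ₐ[O] Module.End O (L.M e) :=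
  AlgHom.ofLinearMap
    { toFun := fun t => (L.act e t).restrictScalars O
      map_add' := fun t s => by rw [map_add]; rfl
      map_smul' := fun a t => by rw [map_smul]; rfl }
    (by simp; rfl) (fun t s => by simp [map_mul]; rfl)

theorem actO_apply {X : Aux S} (L : LevelData X) (e : Bool) (t : L.R) (m : L.M e) :
    actO L e t m = L.act e t m := rfl

/-- The matrices of an action in a basis. -/
def matHom {X : Aux S} (L : LevelData X) (e : Bool) {d : ℕ}
    (b : Module.Basis (Fin d) X.Coef (L.M e)) : L.R →ₐ[O] Matrix (Fin d) (Fin d) X.Coef :=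
  ((LinearMap.toMatrixAlgEquiv b).toAlgHom.restrictScalars O).comp (L.act e)

theorem matHom_apply {X : Aux S} (L : LevelData X) (e : Bool) {d : ℕ}
    (b : Module.Basis (Fin d) X.Coef (L.M e)) (t : L.R) (i j : Fin d) :
    matHom L e b t i j = b.repr (L.act e t (b j)) i := by
  simp [matHom, LinearMap.toMatrixAlgEquiv_apply]

section Pair

variable {X : Aux S} (L : LevelData X)

local notation "mk" => Submodule.Quotient.mk

/-- Lifts along the congruence of a spanning family span. -/
theorem span_of_congr {ι : Type} {A B : Type} [AddCommGroup A] [Module X.Coef A] [Module O A]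
    [IsScalarTower O X.Coef A] [AddCommGroup B] [Module X.Coef B] [Module O B]
    [IsScalarTower O X.Coef B] [Module.Finite O B]
    (e : (A ⧸ (maximalIdeal O • ⊤ : Submodule O A)) ≃ₗ[O] B ⧸ (maximalIdeal O • ⊤ : Submodule O B))
    (he : ∀ (a : X.Coef) x y, e (mk x) = mk y → e (mk (a • x)) = mk (a • y))
    (u : ι → A) (hu : Submodule.span X.Coef (Set.range u) = ⊤) (v : ι → B)
    (hv : ∀ i, e (mk (u i)) = mk (v i)) : Submodule.span X.Coef (Set.range v) = ⊤ := by
  rw [← Submodule.restrictScalars_eq_top_iff O]
  refine top_le_iff.mp (Submodule.le_of_le_smul_of_le_jacobson_bot (I := maximalIdeal O)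
    Module.Finite.fg_top (maximalIdeal_le_jacobson _) ?_)
  intro y _
  obtain ⟨x, hx⟩ := Submodule.Quotient.mk_surjective (maximalIdeal O • ⊤ : Submodule O A)
    (e.symm (mk y))
  have key : ∀ x : A, ∃ y' ∈ Submodule.span X.Coef (Set.range v), e (mk x) = mk y' := by
    intro x
    have : x ∈ Submodule.span X.Coef (Set.range u) := hu ▸ Submodule.mem_top
    induction this using Submodule.span_induction with
    | mem z hz => obtain ⟨i, rfl⟩ := hz; exact ⟨v i, Submodule.subset_span ⟨i, rfl⟩, hv i⟩
    | zero => exact ⟨0, zero_mem _, map_zero e⟩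
    | add z w _ _ hz hw =>
      obtain ⟨a, ha, ea⟩ := hz; obtain ⟨b, hb, eb⟩ := hw
      exact ⟨a + b, add_mem ha hb, by
        rw [Submodule.Quotient.mk_add, map_add, ea, eb, Submodule.Quotient.mk_add]⟩
    | smul a z _ hz =>
      obtain ⟨b, hb, eb⟩ := hz
      exact ⟨a • b, Submodule.smul_mem _ a hb, he a z b eb⟩
  obtain ⟨y', hy', e'⟩ := key x
  rw [hx, LinearEquiv.apply_symm_apply, Submodule.Quotient.eq] at e'
  exact Submodule.mem_sup.2 ⟨y', hy', _, e', add_sub_cancel y' y⟩

end Pair

theorem mem_map_of_repr {X : Aux S} {B : Type} [AddCommGroup B] [Module X.Coef B] [Module O B]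
    [IsScalarTower O X.Coef B] {d : ℕ} (b : Module.Basis (Fin d) X.Coef B) {y : B}
    (hy : y ∈ (maximalIdeal O • ⊤ : Submodule O B)) (i : Fin d) :
    b.repr y i ∈ (maximalIdeal O).map (algebraMap O X.Coef) := by
  refine Submodule.smul_induction_on hy (fun a ha m _ => ?_) (fun m n hm hn => ?_)
  · rw [← algebraMap_smul X.Coef, map_smul, Finsupp.smul_apply, smul_eq_mul]
    exact Ideal.mul_mem_right _ _ (Ideal.mem_map_of_mem _ ha)
  · rw [map_add, Finsupp.add_apply]
    exact add_mem hm hn

/-- Congruent matrices lifting the matrices of the base. -/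
theorem exists_matHom {X X0 : Aux S} (L : LevelData X) (L0 : LevelData X0)
    (res : L.R →ₐ[O] L0.R) (coinv : L.M false →ₗ[O] L0.M false)
    (hsurj : Function.Surjective coinv)
    (hker : ∀ x, coinv x = 0 ↔ x ∈ (RingHom.ker X.aug • ⊤ : Submodule X.Coef (L.M false)))
    (hact : ∀ t x, coinv (L.act false t x) = L0.act false (res t) (coinv x))
    {d : ℕ} (b0 : Module.Basis (Fin d) O (L0.M false)) :
    ∃ bs : ∀ e, Module.Basis (Fin d) X.Coef (L.M e),
      (∀ t i j, matHom L false (bs false) t i j - matHom L true (bs true) t i j ∈
        (maximalIdeal O).map (algebraMap O X.Coef)) ∧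
      ∀ t i j, X.aug (matHom L false (bs false) t i j) =
        LinearMap.toMatrixAlgEquiv b0 (actO L0 false (res t)) i j := by
  classical
  haveI := L.finite false; haveI := L.free false; haveI := L.finite true; haveI := L.free true
  haveI := finite_dia X
  haveI := finite_base X L false; haveI := finite_base X L true
  have hsmul : ∀ (a : X.Coef) x, coinv (a • x) = X.aug a • coinv x := fun a x => by
    have h1 : a - algebraMap O X.Coef (X.aug a) ∈ RingHom.ker X.aug := by
      rw [RingHom.mem_ker, map_sub, AlgHom.commutes]
      simp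
    have h2 := (hker ((a - algebraMap O X.Coef (X.aug a)) • x)).2
      (Submodule.smul_mem_smul h1 Submodule.mem_top)
    rw [sub_smul, map_sub, algebraMap_smul, sub_eq_zero] at h2
    exact h2.trans (coinv.map_smul _ _)
  -- the basis of the untwisted module
  let ι := Module.Free.ChooseBasisIndex X.Coef (L.M false)
  let c := Module.Free.chooseBasis X.Coef (L.M false)
  have hspan : ⊤ ≤ Submodule.span O (Set.range fun i => coinv (c i)) := by
    intro y _
    obtain ⟨x, rfl⟩ := hsurj y
    rw [← c.sum_repr x, map_sum]
    exact Submodule.sum_mem _ fun i _ => by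
      rw [hsmul]; exact Submodule.smul_mem _ _ (Submodule.subset_span ⟨i, rfl⟩)
  have hli : LinearIndependent O fun i => coinv (c i) := by
    rw [Fintype.linearIndependent_iff]
    intro g hg i
    have h1 : coinv (∑ i, algebraMap O X.Coef (g i) • c i) = 0 := by
      rw [map_sum, ← hg]
      exact Finset.sum_congr rfl fun i _ => by rw [algebraMap_smul, map_smul]
    have h2 : ∀ y ∈ (RingHom.ker X.aug • ⊤ : Submodule X.Coef (L.M false)), ∀ i,
        c.repr y i ∈ RingHom.ker X.aug := by
      intro y hy i
      refine Submodule.smul_induction_on hy (fun a ha m _ => ?_) (fun m n hm hn => ?_)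
      · rw [map_smul, Finsupp.smul_apply, smul_eq_mul]
        exact Ideal.mul_mem_right _ _ ha
      · rw [map_add, Finsupp.add_apply]; exact add_mem hm hn
    have h3 := h2 _ ((hker _).1 h1) i
    rw [c.repr_sum_self, RingHom.mem_ker, AlgHom.commutes] at h3
    simpa using h3
  let b' := Module.Basis.mk hli hspan
  let idx : ι ≃ Fin d := b'.indexEquiv b0
  let c' := c.reindex idx
  let b'' := b'.reindex idx
  let M : Matrix (Fin d) (Fin d) X.Coef := (b''.toMatrix b0).map (algebraMap O X.Coef)
  have hM : IsUnit M := by
    haveI := b''.invertibleToMatrix b0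
    exact (isUnit_of_invertible _).map (algebraMap O X.Coef).mapMatrix
  let v : Fin d → L.M false := fun j => ∑ i, M i j • c' i
  have hvmat : c'.toMatrix v = M := by
    ext i j
    rw [Module.Basis.toMatrix_apply, c'.repr_sum_self]
  have hv := (Module.Basis.is_basis_iff_det c' (v := v)).2 (by
    rw [Module.Basis.det_apply, hvmat]
    exact (Matrix.isUnit_iff_isUnit_det M).1 hM)
  let bf := Module.Basis.mk hv.1 hv.2.ge
  have hbf : ∀ j, coinv (bf j) = b0 j := fun j => by
    rw [Module.Basis.mk_apply, map_sum]
    conv_rhs => rw [← b''.sum_repr (b0 j)]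
    refine Finset.sum_congr rfl fun i _ => ?_
    rw [hsmul, show M i j = algebraMap O X.Coef (b''.toMatrix b0 i j) from rfl, AlgHom.commutes]
    simp [b'', c', b', Module.Basis.toMatrix_apply]
  -- the twisted module
  have hlift : ∀ x : L.M false, ∃ y : L.M true,
      L.congr (Submodule.Quotient.mk x) = Submodule.Quotient.mk y := fun x =>
    ⟨_, (Submodule.Quotient.mk_surjective _ _).choose_spec.symm⟩
  choose lift hlift using hlift
  have hvt : Submodule.span X.Coef (Set.range fun j => lift (bf j)) = ⊤ :=
    span_of_congr L.congr L.congr_smul bf bf.span_eq _ fun j => hlift _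
  let ct := Module.Free.chooseBasis X.Coef (L.M true)
  have hcard : Fintype.card (Module.Free.ChooseBasisIndex X.Coef (L.M true)) = d := by
    haveI : Nontrivial X.Coef := inferInstance
    refine le_antisymm ?_ ?_
    · rw [← Module.finrank_eq_card_chooseBasisIndex]
      calc Module.finrank X.Coef (L.M true)
          = Module.finrank X.Coef (⊤ : Submodule X.Coef (L.M true)) := (finrank_top _ _).symm
        _ = Module.finrank X.Coef (Submodule.span X.Coef (Set.range fun j => lift (bf j))) := by
            rw [hvt]
        _ ≤ d := (finrank_range_le_card _).trans_eq (Fintype.card_fin d)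
    · have hback : ∀ y : L.M true, ∃ x : L.M false,
          L.congr.symm (Submodule.Quotient.mk y) = Submodule.Quotient.mk x := fun y =>
        ⟨_, (Submodule.Quotient.mk_surjective _ _).choose_spec.symm⟩
      choose back hback using hback
      have hsp := span_of_congr L.congr.symm (fun a x y h => by
        rw [LinearEquiv.symm_apply_eq] at h ⊢
        exact (L.congr_smul a y x h.symm).symm) ct ct.span_eq (fun i => back (ct i))
        fun i => hback _
      calc d = Module.finrank X.Coef (L.M false) := by
            rw [Module.finrank_eq_card_basis bf, Fintype.card_fin]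
        _ = Module.finrank X.Coef (⊤ : Submodule X.Coef (L.M false)) := (finrank_top _ _).symm
        _ = Module.finrank X.Coef (Submodule.span X.Coef (Set.range fun i => back (ct i))) := by
            rw [hsp]
        _ ≤ _ := finrank_range_le_card _
  let ct' := ct.reindex (Fintype.equivFinOfCardEq hcard)
  let g : L.M true →ₗ[X.Coef] L.M true := ct'.constr X.Coef fun j => lift (bf j)
  have hg : Function.Surjective g := by
    rw [← LinearMap.range_eq_top, Module.Basis.constr_range, hvt]
  let bt := ct'.map (LinearEquiv.ofBijective g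
    ⟨OrzechProperty.injective_of_surjective_endomorphism g hg, hg⟩)
  have hbt : ∀ j, bt j = lift (bf j) := fun j => by
    rw [Module.Basis.map_apply]
    exact ct'.constr_basis X.Coef _ j
  let bs : ∀ e, Module.Basis (Fin d) X.Coef (L.M e) := fun e =>
    match e with
    | false => bf
    | true => bt
  refine ⟨bs, fun t i j => ?_, fun t i j => ?_⟩
  · rw [matHom_apply, matHom_apply]
    show bf.repr (L.act false t (bf j)) i - bt.repr (L.act true t (bt j)) i ∈ _
    have hsum : ∀ x : L.M false, L.congr (Submodule.Quotient.mk x) =
        Submodule.Quotient.mk (∑ k, bf.repr x k • bt k) := fun x => by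
      conv_lhs => rw [← bf.sum_repr x]
      rw [← Submodule.mkQ_apply, map_sum, map_sum, ← Submodule.mkQ_apply, map_sum]
      exact Finset.sum_congr rfl fun k _ => L.congr_smul _ _ _ (by rw [hlift, hbt])
    have h1 := L.congr_act t _ _ (hlift (bf j))
    rw [← hbt, hsum, Submodule.Quotient.eq] at h1
    have h2 := mem_map_of_repr bt h1 i
    rwa [map_sub, Finsupp.sub_apply, bt.repr_sum_self] at h2
  · rw [matHom_apply, LinearMap.toMatrixAlgEquiv_apply, actO_apply, ← hbf, ← hact]
    show X.aug (bf.repr (L.act false t (bf j)) i) = b0.repr (coinv (L.act false t (bf j))) i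
    generalize L.act false t (bf j) = y
    conv_rhs => rw [← bf.sum_repr y, map_sum]
    simp_rw [hsmul, hbf]
    rw [b0.repr_sum_self]

end FLTAgent.Lowering.P6
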