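import Fermat.Agent.Lowering.P6.Normalise
import Fermat.Agent.Lowering.P6.Tame
import Fermat.Agent.LevelMatch.Unipotent

/-!
# Finite quotients of the algebra of a level

The algebra of a level is separated for the powers of `p` with finite quotients, so the structure
of the decomposition groups at the primes to be removed gives exact relations.
-/

set_option autoImplicit false
set_option linter.style.haveILetI false

noncomputable section

open IsLocalRing

namespace FLTAgent.Lowering.P6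

local notation "LL" => AlgebraicClosure ℚ
local notation "GG" => (AlgebraicClosure ℚ ≃ₐ[ℚ] AlgebraicClosure ℚ)
local notation "M2" => Matrix (Fin 2) (Fin 2)

variable {p : ℕ} [hp : Fact p.Prime] {O : Type} [CommRing O] [IsDomain O]
  [IsDiscreteValuationRing O] [Algebra ℤ_[p] O]

omit [IsDomain O] [IsDiscreteValuationRing O] in
/-- A finite algebra has finite quotients by ideals containing a power of `p`. -/
theorem finite_quotient [Module.Finite ℤ_[p] O] {A : Type} [CommRing A] [Algebra O A]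
    [Module.Finite O A] {I : Ideal A} {n : ℕ} (hI : (p : A) ^ n ∈ I) : Finite (A ⧸ I) := by
  letI : Algebra ℤ_[p] A := Algebra.compHom A (algebraMap ℤ_[p] O)
  haveI : IsScalarTower ℤ_[p] O A := IsScalarTower.of_algebraMap_eq fun _ => rfl
  haveI : Module.Finite ℤ_[p] A := Module.Finite.trans O A
  obtain ⟨s, hs⟩ := (inferInstance : Module.Finite ℤ_[p] A).fg_top
  haveI : NeZero (p ^ n) := ⟨pow_ne_zero _ hp.out.ne_zero⟩
  refine Finite.of_surjective
    (fun c : s → ZMod (p ^ n) => ∑ g : s, ((c g).val : A ⧸ I) * Ideal.Quotient.mk I g) fun x => ?_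
  obtain ⟨a, rfl⟩ := Ideal.Quotient.mk_surjective x
  have ha : a ∈ Submodule.span ℤ_[p] (Set.range fun g : s => (g : A)) := by
    rw [Subtype.range_coe_subtype]
    exact hs.symm ▸ Submodule.mem_top
  obtain ⟨c, rfl⟩ := Submodule.mem_span_range_iff_exists_fun ℤ_[p] |>.1 ha
  refine ⟨fun g => PadicInt.toZModPow n (c g), ?_⟩
  simp only [map_sum]
  refine Finset.sum_congr rfl fun g _ => ?_
  rw [Algebra.smul_def, map_mul]
  congr 1
  have h1 : c g - ((PadicInt.toZModPow n (c g)).val : ℤ_[p]) ∈ Ideal.span {(p : ℤ_[p]) ^ n} := by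
    rw [← PadicInt.ker_toZModPow, RingHom.mem_ker, map_sub, map_natCast, ZMod.natCast_zmod_val,
      sub_self]
  obtain ⟨z, hz⟩ := Ideal.mem_span_singleton.1 h1
  rw [eq_comm, ← sub_eq_zero, ← map_natCast (Ideal.Quotient.mk I), ← map_sub,
    Ideal.Quotient.eq_zero_iff_mem, ← map_natCast (algebraMap ℤ_[p] A), ← map_sub, hz, map_mul,
    map_pow, map_natCast]
  exact Ideal.mul_mem_right _ _ hI

omit [Algebra ℤ_[p] O] in
theorem natCast_p_mem (e : ZMod p ≃+* ResidueField O) : (p : O) ∈ maximalIdeal O := by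
  rw [← residue_eq_zero_iff, map_natCast, ← map_natCast e.toRingHom, ZMod.natCast_self, map_zero]

section Matrices

variable {A : Type} [CommRing A]

/-- Congruence to the identity modulo an ideal. -/
def CongrOne (I : Ideal A) (M : M2 A) : Prop := ∀ i j, M i j - (1 : M2 A) i j ∈ I

theorem CongrOne.pow_prime {I : Ideal A} {p : ℕ} (hp : p.Prime) (hpI : (p : A) ∈ I) {i : ℕ}
    {M : M2 A} (h : CongrOne (I ^ (i + 1)) M) : CongrOne (I ^ (i + 2)) (M ^ p) := by
  obtain ⟨r, hr⟩ := (Commute.one_left (M - 1)).exists_add_pow_prime_eq hp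
  rw [add_sub_cancel, one_pow] at hr
  intro a b
  rw [hr, Matrix.add_apply, Matrix.add_apply, add_assoc, add_sub_cancel_left]
  have hN : ∀ a b, (M - 1) a b ∈ I ^ (i + 1) := fun a b => h a b
  have hpow : ∀ k : ℕ, ∀ a b, ((M - 1) ^ (k + 2)) a b ∈ I ^ (i + 2) := by
    intro k
    induction k with
    | zero =>
      intro a b
      rw [pow_two, Matrix.mul_apply]
      refine Submodule.sum_mem _ fun c _ => ?_
      have h1 := Ideal.mul_mem_mul (hN a c) (hN c b)
      rw [← pow_add] at h1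
      exact Ideal.pow_le_pow_right (by omega) h1
    | succ k ih =>
      intro a b
      rw [pow_succ (M - 1) (k + 2), Matrix.mul_apply]
      exact Submodule.sum_mem _ fun c _ => Ideal.mul_mem_right _ _ (ih a c)
  refine add_mem ?_ ?_
  · have := hpow (p - 2) a b
    rwa [Nat.sub_add_cancel hp.two_le] at this
  · have h1 : ∀ a b, ((p : M2 A) * (M - 1)) a b ∈ I ^ (i + 2) := fun a b => by
      rw [← nsmul_eq_mul, Matrix.smul_apply, nsmul_eq_mul, pow_succ' I (i + 1)]
      exact Ideal.mul_mem_mul hpI (hN a b)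
    rw [mul_one (p : M2 A), Matrix.mul_apply]
    exact Submodule.sum_mem _ fun c _ => Ideal.mul_mem_right _ _ (h1 a c)

theorem CongrOne.pow_pow {I : Ideal A} {p : ℕ} (hp : p.Prime) (hpI : (p : A) ∈ I) {M : M2 A}
    (h : CongrOne I M) : ∀ a : ℕ, CongrOne (I ^ (a + 1)) (M ^ p ^ a)
  | 0 => by simpa using h
  | a + 1 => by
    rw [pow_succ p, pow_mul]
    exact (h.pow_pow hp hpI a).pow_prime hp hpI

end Matrices

variable {S : Setup p O} {X : Aux S} (L : LevelData X)

theorem isNoetherianRing_level : IsNoetherianRing L.R := by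
  haveI := L.finite_R
  exact IsNoetherianRing.of_finite O L.R

theorem red_natCast (e : ZMod p ≃+* ResidueField O) : (p : L.R) ∈ maximalIdeal L.R := by
  rw [← red_eq_zero_iff L.red, map_natCast, ← map_natCast (residue O), residue_eq_zero_iff]
  exact natCast_p_mem e

/-- The algebra of a level is separated for the powers of `p`. -/
theorem eq_of_forall_sub_mem (e : ZMod p ≃+* ResidueField O) {x y : L.R}
    (h : ∀ n : ℕ, x - y ∈ Ideal.span {(p : L.R) ^ n}) : x = y := by
  haveI := isNoetherianRing_level L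
  have hne : Ideal.span {(p : L.R)} ≠ ⊤ := fun ht =>
    (maximalIdeal.isMaximal L.R).ne_top (top_le_iff.mp (ht ▸
      (Ideal.span_singleton_le_iff_mem _).2 (red_natCast L e)))
  have h1 : x - y ∈ ⨅ n : ℕ, Ideal.span {(p : L.R)} ^ n :=
    Submodule.mem_iInf _ |>.2 fun n => by rw [Ideal.span_singleton_pow]; exact h n
  rw [Ideal.iInf_pow_eq_bot_of_isLocalRing _ hne, Ideal.mem_bot, sub_eq_zero] at h1
  exact h1

/-- A conjugate of the representation of the level. -/
structure Conj where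
  ρ : GG →* GL (Fin 2) L.R
  P : GL (Fin 2) L.R
  eq : ∀ σ, ρ σ = P * L.ρ σ * P⁻¹

namespace Conj

variable {L} (c : Conj L)

theorem trGL_eq (σ : GG) : trGL (c.ρ σ) = trGL (L.ρ σ) := by
  rw [c.eq, trGL, trGL, Units.val_mul, Units.val_mul, Matrix.trace_mul_cycle, ← Units.val_mul,
    inv_mul_cancel, Units.val_one, one_mul]

theorem detGL_eq (σ : GG) : detGL (c.ρ σ) = detGL (L.ρ σ) := by
  rw [c.eq, detGL, detGL, Units.val_mul, Units.val_mul, Matrix.det_mul_right_comm, ← Units.val_mul,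
    mul_inv_cancel, Units.val_one, one_mul]

theorem eq_one {σ : GG} (h : L.ρ σ = 1) : c.ρ σ = 1 := by
  rw [c.eq, h, mul_one, mul_inv_cancel]

/-- The representation modulo a power of `p`. -/
def red (n : ℕ) : GG →* GL (Fin 2) (L.R ⧸ Ideal.span {(p : L.R) ^ n}) :=
  (Matrix.GeneralLinearGroup.map (Ideal.Quotient.mk _)).comp c.ρ

theorem levC (V : ValuationSubring LL) (n : ℕ) :
    P1.LevC (V.decompositionSubgroup ℚ).subtype
      ((c.red n).comp (V.decompositionSubgroup ℚ).subtype) := by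
  obtain ⟨K, hK, hlev⟩ := L.continuous n
  refine ⟨K, hK, fun g s hs => ?_⟩
  have h1 : Matrix.GeneralLinearGroup.map (Ideal.Quotient.mk (Ideal.span {(p : L.R) ^ n}))
      (L.ρ (s : GG)) = 1 := by
    refine Units.ext (Matrix.ext fun i j => ?_)
    rw [Units.val_one, ← Matrix.map_one (Ideal.Quotient.mk (Ideal.span {(p : L.R) ^ n}))
      (map_zero _) (map_one _), Matrix.map_apply]
    exact Ideal.Quotient.eq.2 (hlev (s : GG)
      ((IntermediateField.mem_fixingSubgroup_iff _ _).1 hs) i j)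
  show c.red n ((g * s : V.decompositionSubgroup ℚ) : GG) = c.red n (g : GG)
  rw [Subgroup.coe_mul, map_mul]
  simp [red, c.eq, h1]

theorem finite (L : LevelData X) [Module.Finite ℤ_[p] O] (n : ℕ) :
    Finite (GL (Fin 2) (L.R ⧸ Ideal.span {(p : L.R) ^ n})) := by
  haveI := L.finite_R
  haveI : Finite (L.R ⧸ Ideal.span {(p : L.R) ^ n}) :=
    finite_quotient (O := O) (Ideal.mem_span_singleton_self _)
  infer_instance

/-- Residually trivial elements have `p`-power order modulo powers of `p`. -/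
theorem exists_pow_eq_one [Module.Finite ℤ_[p] O] (e : ZMod p ≃+* ResidueField O) (n : ℕ) {σ : GG}
    (hσ : (c.ρ σ : M2 L.R).map L.red = 1) : ∃ a : ℕ, c.red n σ ^ p ^ a = 1 := by
  haveI := L.finite_R
  haveI := isNoetherianRing_level L
  set I := Ideal.span {(p : L.R) ^ n}
  haveI : Finite (L.R ⧸ I) := finite_quotient (O := O) (Ideal.mem_span_singleton_self _)
  set 𝔪 := (maximalIdeal L.R).map (Ideal.Quotient.mk I)
  have hnil : ∃ N, 𝔪 ^ N = ⊥ := by
    by_cases hn : n = 0
    · refine ⟨1, eq_bot_iff.2 fun x _ => ?_⟩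
      haveI : Subsingleton (L.R ⧸ I) := Ideal.Quotient.subsingleton_iff.2 (by simp [I, hn])
      simp [Subsingleton.elim x 0]
    haveI : Nontrivial (L.R ⧸ I) := Ideal.Quotient.nontrivial_iff.2 (fun h =>
      (maximalIdeal.isMaximal L.R).ne_top (top_le_iff.mp (h ▸
        (Ideal.span_singleton_le_iff_mem _).2 (Ideal.pow_mem_of_mem _ (red_natCast L e) _
          (Nat.pos_of_ne_zero hn)))))
    haveI : IsLocalRing (L.R ⧸ I) :=
      IsLocalRing.of_surjective' (Ideal.Quotient.mk I) Ideal.Quotient.mk_surjective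
    obtain ⟨N, hN⟩ := IsArtinianRing.isNilpotent_jacobson_bot (R := L.R ⧸ I)
    refine ⟨N, eq_bot_iff.2 ((Ideal.pow_right_mono ?_ N).trans hN.le)⟩
    rw [IsLocalRing.jacobson_eq_maximalIdeal ⊥ bot_ne_top]
    refine IsLocalRing.le_maximalIdeal fun h => ?_
    have h1 : (1 : L.R ⧸ I) ∈ 𝔪 := h ▸ Submodule.mem_top
    obtain ⟨x, hx, hx1⟩ := (Ideal.mem_map_iff_of_surjective _ Ideal.Quotient.mk_surjective).1 h1
    have h2 : IsUnit x := by
      by_contra hu
      have h3 : IsUnit (Ideal.Quotient.mk I x) := hx1 ▸ isUnit_one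
      obtain ⟨y, hy⟩ := Ideal.Quotient.mk_surjective (↑h3.unit⁻¹ : L.R ⧸ I)
      have h4 : x * y - 1 ∈ I := Ideal.Quotient.eq.1 (by rw [map_mul, hy, map_one, h3.mul_val_inv])
      have h5 : x * y - 1 ∈ maximalIdeal L.R := (Ideal.span_singleton_le_iff_mem _).2
        (Ideal.pow_mem_of_mem _ (red_natCast L e) _ (Nat.pos_of_ne_zero hn)) h4
      exact (maximalIdeal.isMaximal L.R).ne_top ((Ideal.eq_top_iff_one _).2 (by
        simpa using sub_mem (Ideal.mul_mem_right y _ hx) h5))
    exact ((mem_maximalIdeal x).1 hx) h2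
  obtain ⟨N, hN⟩ := hnil
  refine ⟨N, Units.ext ?_⟩
  have hI : CongrOne 𝔪 ((c.red n σ : GL (Fin 2) _) : M2 (L.R ⧸ I)) := fun i j => by
    have h1 : (c.ρ σ : M2 L.R) i j - (1 : M2 L.R) i j ∈ maximalIdeal L.R := by
      rw [← red_eq_zero_iff L.red, map_sub, ← Matrix.map_apply (M := (c.ρ σ : M2 L.R)) (f := L.red),
        hσ]
      by_cases h : i = j
      · subst h; simp
      · simp [Matrix.one_apply_ne h]
    rw [← Matrix.map_one (Ideal.Quotient.mk I) (map_zero _) (map_one _), Matrix.map_apply]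
    show Ideal.Quotient.mk I ((c.ρ σ : M2 L.R) i j) - _ ∈ _
    rw [← map_sub]
    exact Ideal.mem_map_of_mem _ h1
  have hpI : ((p : L.R ⧸ I)) ∈ 𝔪 := by
    rw [← map_natCast (Ideal.Quotient.mk I)]
    exact Ideal.mem_map_of_mem _ (red_natCast L e)
  rw [Units.val_pow_eq_pow_val, Units.val_one]
  ext i j
  have := hI.pow_pow hp.out hpI N i j
  rw [pow_succ, hN, Ideal.bot_mul, Ideal.mem_bot, sub_eq_zero] at this
  exact this

section Tame

variable [Module.Finite ℤ_[p] O] {t : ℕ} {V : ValuationSubring LL} (T : TameGen p t V)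
  (e : ZMod p ≃+* ResidueField O)
  (hres : ∀ σ ∈ V.inertiaSubgroupIn ℚ, (c.ρ σ : M2 L.R).map L.red = 1)

include e hres

/-- The tame relation holds exactly. -/
theorem tame_relation :
    (c.ρ T.φ : M2 L.R) * (c.ρ T.σ : M2 L.R) = (c.ρ T.σ : M2 L.R) ^ t * (c.ρ T.φ : M2 L.R) := by
  ext i j
  refine eq_of_forall_sub_mem L e fun n => ?_
  haveI := finite L n
  obtain ⟨-, -, h⟩ := T.gen ((c.red n).comp (V.decompositionSubgroup ℚ).subtype) (c.levC V n)
    fun τ hτ => c.exists_pow_eq_one e n (hres τ hτ)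
  rw [MonoidHom.comp_apply, MonoidHom.comp_apply, mul_inv_eq_iff_eq_mul] at h
  rw [← Ideal.Quotient.eq]
  have h1 := congrArg (fun g : GL (Fin 2) (L.R ⧸ Ideal.span {(p : L.R) ^ n}) =>
    (g : M2 (L.R ⧸ Ideal.span {(p : L.R) ^ n})) i j) h
  simp only [Units.val_mul, Units.val_pow_eq_pow_val] at h1
  set π := (Ideal.Quotient.mk (Ideal.span {(p : L.R) ^ n})).mapMatrix (m := Fin 2)
  change (π (c.ρ T.φ : M2 L.R) * π (c.ρ T.σ : M2 L.R)) i j =
    (π (c.ρ T.σ : M2 L.R) ^ t * π (c.ρ T.φ : M2 L.R)) i j at h1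
  rwa [← map_pow, ← map_mul, ← map_mul] at h1

/-- Modulo every power of `p`, inertia consists of powers of the generator. -/
theorem inertia_mem_zpowers (n : ℕ) {τ : GG} (hτ : τ ∈ V.inertiaSubgroupIn ℚ) :
    c.red n τ ∈ Subgroup.zpowers (c.red n T.σ) := by
  haveI := finite L n
  obtain ⟨h, -, -⟩ := T.gen ((c.red n).comp (V.decompositionSubgroup ℚ).subtype) (c.levC V n)
    fun τ hτ => c.exists_pow_eq_one e n (hres τ hτ)
  exact h ⟨τ, Places.inertia_le_decomposition V hτ⟩ hτ

end Tame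

theorem det_frobenius (e : ZMod p ≃+* ResidueField O) {t : ℕ} (ht : t.Prime) (htp : t ≠ p)
    {V : ValuationSubring LL} (hV : V.LiesOverPrime t) {φ : GG} (hφ : V.IsFrobeniusAt φ t) :
    detGL (c.ρ φ) = (t : L.R) := by
  rw [c.detGL_eq]
  exact eq_of_forall_sub_mem L e fun n => L.det_cyclotomic n φ t
    (DetCyclo.cycloExponent_frobenius ht htp hV hφ n)

theorem det_inertia (e : ZMod p ≃+* ResidueField O) {t : ℕ} (ht : t.Prime) (htp : t ≠ p)
    {V : ValuationSubring LL} (hV : V.LiesOverPrime t) {σ : GG}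
    (hσ : σ ∈ V.inertiaSubgroupIn ℚ) : detGL (c.ρ σ) = 1 := by
  rw [c.detGL_eq]
  exact eq_of_forall_sub_mem L e fun n => by
    have := L.det_cyclotomic n σ 1 (LevelMatch.inertia_cycloExponent ht htp hV hσ n)
    rwa [Nat.cast_one] at this

end Conj

end FLTAgent.Lowering.P6
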