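import Fermat.Agent.Lowering.P4.Interface

/-!
# Characters of the diamond group

A root of unity of `p`-power order for each auxiliary prime gives a character of the diamond
group whose values at the chosen square roots are these roots of unity.
-/

set_option autoImplicit false
set_option linter.style.haveILetI false

noncomputable section

namespace FLTAgent.Lowering.P6

variable {p : ℕ} [hp : Fact p.Prime] {O : Type} [CommRing O] [IsDomain O]
  [IsDiscreteValuationRing O] [Algebra ℤ_[p] O] {S : Setup p O} (X : Aux S)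

theorem neZero_aux (q : X.Q) : NeZero (q : ℕ) := ⟨(X.prime q q.2).ne_zero⟩

theorem finite_units' : Finite X.Units' := by
  haveI := fun q : X.Q => neZero_aux X q
  infer_instance

theorem isPGroup_dia : IsPGroup p X.Dia := by
  intro g
  obtain ⟨x, hx⟩ := QuotientGroup.mk'_surjective X.coSylow g
  refine ⟨Nat.card X.Units', ?_⟩
  subst hx
  show QuotientGroup.mk' X.coSylow (x ^ p ^ Nat.card X.Units') = 1
  exact (QuotientGroup.eq_one_iff _).2 ⟨x, rfl⟩

theorem odd_card_dia : Odd (Nat.card X.Dia) := by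
  haveI := finite_units' X
  haveI : Finite X.Dia := Quotient.finite _
  obtain ⟨a, ha⟩ := (isPGroup_dia X).exists_card_eq
  rw [ha]
  have := S.p_gt
  exact (hp.out.odd_of_ne_two (by omega)).pow

/-- The character with prescribed values at chosen generators. -/
theorem exists_diaHom {C : Type} [CommMonoid C] {n : ℕ} (hn : ∀ q ∈ X.Q, p ^ n ∣ q - 1)
    (u : X.Q → C) (hu : ∀ q, u q ^ p ^ n = 1) :
    ∃ (c : ∀ q : X.Q, (ZMod (q : ℕ))ˣ) (ψ : X.Dia →* C),
      (∀ q : X.Q, ψ (X.halfAt q q.2 (c q)) = u q) ∧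
      ∀ {C' : Type} [CommMonoid C'] (f : C →* C'), (∀ q, f (u q) = 1) → ∀ g, f (ψ g) = 1 := by
  classical
  haveI hne := fun q : X.Q => neZero_aux X q
  haveI := finite_units' X
  haveI hprime := fun q : X.Q => (⟨X.prime q q.2⟩ : Fact (q : ℕ).Prime)
  have hc : ∀ q : X.Q, ∃ c : (ZMod (q : ℕ))ˣ, ∀ x, x ∈ Subgroup.zpowers c := fun q =>
    IsCyclic.exists_generator
  choose c hc using hc
  let U : X.Q → Cˣ := fun q => Units.ofPowEqOne (u q) (p ^ n) (hu q) (pow_ne_zero _ hp.out.ne_zero)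
  have hU : ∀ q, (U q ^ 2) ^ p ^ n = 1 := fun q => Units.ext (by
    rw [← pow_mul, mul_comm, pow_mul, Units.val_pow_eq_pow_val, Units.val_pow_eq_pow_val]
    simp [U, hu q])
  have hord : ∀ q : X.Q, orderOf (U q ^ 2) ∣ orderOf (c q) := fun q => by
    rw [orderOf_eq_card_of_forall_mem_zpowers (hc q), Nat.card_eq_fintype_card,
      ZMod.card_units]
    exact (orderOf_dvd_of_pow_eq_one (hU q)).trans (hn q q.2)
  let ψq : ∀ q : X.Q, (ZMod (q : ℕ))ˣ →* Cˣ := fun q => monoidHomOfForallMemZpowers (hc q) (hord q)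
  have hψq : ∀ q, ψq q (c q) = U q ^ 2 := fun q =>
    monoidHomOfForallMemZpowers_apply_gen (hc q) (hord q)
  have hψpow : ∀ q x, ψq q x ^ p ^ n = 1 := fun q x => by
    obtain ⟨z, rfl⟩ := hc q x
    simp only
    rw [map_zpow, hψq, ← zpow_natCast, ← zpow_mul, mul_comm, zpow_mul, zpow_natCast, hU, one_zpow]
  let Ψ : X.Units' →* Cˣ :=
    { toFun := fun x => ∏ q : X.Q, ψq q (x q)
      map_one' := by simp
      map_mul' := fun x y => by simp [map_mul, Finset.prod_mul_distrib] }
  have hK : ∀ q : X.Q, n ≤ Nat.card X.Units' := fun q => by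
    have h1 : Nat.card (ZMod (q : ℕ))ˣ ∣ Nat.card X.Units' := by
      rw [Nat.card_pi]
      exact Finset.dvd_prod_of_mem _ (Finset.mem_univ q)
    have h2 := Nat.le_of_dvd Nat.card_pos h1
    rw [Nat.card_eq_fintype_card (α := (ZMod (q : ℕ))ˣ), ZMod.card_units] at h2
    have h3 := Nat.le_of_dvd (by have := (X.prime q q.2).two_le; omega) (hn q q.2)
    exact ((Nat.lt_pow_self hp.out.one_lt).le.trans h3).trans h2
  have hker : X.coSylow ≤ Ψ.ker := by
    rintro _ ⟨x, rfl⟩
    rw [MonoidHom.mem_ker]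
    show ∏ q : X.Q, ψq q ((x ^ p ^ Nat.card X.Units') q) = 1
    refine Finset.prod_eq_one fun q _ => ?_
    rw [Pi.pow_apply, map_pow, ← Nat.add_sub_of_le (hK q), pow_add p, pow_mul, hψpow, one_pow]
  let ψ0 : X.Dia →* Cˣ := QuotientGroup.lift X.coSylow Ψ hker
  let ψ : X.Dia →* C := (Units.coeHom C).comp ψ0
  refine ⟨c, ψ, fun q => ?_, fun {C'} _ f hf g => ?_⟩
  swap
  · obtain ⟨x, rfl⟩ := QuotientGroup.mk'_surjective X.coSylow g
    show f ((∏ q : X.Q, ψq q (x q) : Cˣ) : C) = 1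
    rw [Units.coe_prod, map_prod]
    refine Finset.prod_eq_one fun q _ => ?_
    obtain ⟨z, hz⟩ := hc q (x q)
    have h1 : Units.map f (U q) = 1 := Units.ext (by simp [U, hf q])
    have h2 : Units.map f (ψq q (x q)) = 1 := by
      rw [← hz]
      simp only
      rw [map_zpow, hψq, map_zpow, map_pow, h1, one_pow, one_zpow]
    exact congrArg Units.val h2
  have hdia : ψ0 (X.diaAt q q.2 (c q)) = U q ^ 2 := by
    show Ψ (Pi.mulSingle (⟨q, q.2⟩ : X.Q) (c q)) = _
    show ∏ r : X.Q, ψq r (Pi.mulSingle (M := fun r : X.Q => (ZMod (r : ℕ))ˣ) q (c q) r) = _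
    rw [Fintype.prod_eq_single q fun r hr => by rw [Pi.mulSingle_eq_of_ne hr, map_one],
      Pi.mulSingle_eq_same, hψq]
  haveI : Finite X.Dia := Quotient.finite _
  have hcard : U q ^ Nat.card X.Dia = 1 := by
    have h1 : (U q ^ 2) ^ Nat.card X.Dia = 1 := by
      rw [← hdia, ← map_pow, pow_card_eq_one', map_one]
    rw [← pow_mul, mul_comm, pow_mul] at h1
    have h2 : (U q ^ Nat.card X.Dia) ^ p ^ n = 1 := by
      rw [← pow_mul, mul_comm, pow_mul]
      have : U q ^ p ^ n = 1 := Units.ext (by simp [U])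
      rw [this, one_pow]
    have hcop : Nat.gcd 2 (p ^ n) = 1 := by
      have := S.p_gt
      exact Nat.coprime_two_left.2 ((hp.out.odd_of_ne_two (by omega)).pow)
    have := pow_gcd_eq_one.2 ⟨h1, h2⟩
    rwa [hcop, pow_one] at this
  obtain ⟨k, hk⟩ := odd_card_dia X
  show ((ψ0 (X.halfAt q q.2 (c q)) : Cˣ) : C) = u q
  have hh : X.halfAt q q.2 (c q) = X.diaAt q q.2 (c q) ^ ((Nat.card X.Dia + 1) / 2) := rfl
  rw [hh, map_pow, hdia, ← pow_mul, show 2 * ((Nat.card X.Dia + 1) / 2) = Nat.card X.Dia + 1 by omega,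
    pow_succ, hcard, one_mul]
  simp [U]

end FLTAgent.Lowering.P6
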