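import Mathlib

/-!
# Power series at nilpotent arguments
-/

set_option autoImplicit false

noncomputable section

namespace FLTAgent.Lowering.P6

open scoped Pointwise

variable {O A σ : Type*} [CommRing O] [CommRing A] [Algebra O A]

/-- Evaluation of power series at elements of a nilpotent ideal. -/
theorem exists_evalHom [Finite σ] (x : σ → A) {J : Ideal A} (hx : ∀ i, x i ∈ J) {N : ℕ}
    (hJ : J ^ N = ⊥) :
    ∃ f : MvPowerSeries σ O →ₐ[O] A, ∀ i, f (MvPowerSeries.X i) = x i := by
  have hvars : ∀ p ∈ MvPolynomial.idealOfVars σ O ^ N, MvPolynomial.aeval x p = 0 := by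
    intro p hp
    have h1 : (MvPolynomial.idealOfVars σ O).map (MvPolynomial.aeval (R := O) x) ≤ J := by
      rw [MvPolynomial.idealOfVars, Ideal.map_span, Ideal.span_le]
      rintro _ ⟨_, ⟨i, rfl⟩, rfl⟩
      rw [MvPolynomial.aeval_X]
      exact hx i
    have h2 := Ideal.mem_map_of_mem (MvPolynomial.aeval (R := O) x) hp
    rw [Ideal.map_pow] at h2
    have h3 := Ideal.pow_right_mono h1 _ h2
    rwa [hJ, Ideal.mem_bot] at h3
  refine ⟨(Ideal.Quotient.liftₐ _ (MvPolynomial.aeval (R := O) x) hvars).comp
    ((MvPowerSeries.truncTotalAlgHom σ O N).restrictScalars O), fun i => ?_⟩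
  show Ideal.Quotient.liftₐ _ (MvPolynomial.aeval (R := O) x) hvars
    (MvPowerSeries.truncTotalAlgHom σ O N (MvPowerSeries.X i)) = _
  rw [← MvPolynomial.coe_X,
    show ((MvPolynomial.X i : MvPolynomial σ O) : MvPowerSeries σ O) =
      algebraMap (MvPolynomial σ O) (MvPowerSeries σ O) (MvPolynomial.X i) from rfl,
    AlgHom.commutes]
  exact MvPolynomial.aeval_X x i

/-- An algebra map is surjective if, modulo constants, its image generates a nilpotent ideal
containing everything. -/
theorem surjective_of_generate {B : Type*} [CommRing B] [Algebra O B] (f : B →ₐ[O] A) (s : Set A)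
    (hs : s ⊆ Set.range f) (hgen : ∀ a : A, ∃ c : O, a - algebraMap O A c ∈ Ideal.span s) {N : ℕ}
    (hN : Ideal.span s ^ N = ⊥) : Function.Surjective f := by
  have key : ∀ i : ℕ, ∀ a : A, ∃ b, a - f b ∈ Ideal.span s ^ i := by
    intro i
    induction i with
    | zero => exact fun a => ⟨0, by simp⟩
    | succ i ih =>
      have hstep : ∀ u ∈ Ideal.span s ^ i, ∃ b, u - f b ∈ Ideal.span s ^ (i + 1) := by
        intro u hu
        rw [Ideal.span, Submodule.span_pow] at hu
        induction hu using Submodule.span_induction with
        | mem y hy =>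
          obtain ⟨l, rfl⟩ : y ∈ (AlgHom.range f : Set A) := by
            have : s ^ i ⊆ (AlgHom.range f : Set A) := by
              clear hy ih
              induction i with
              | zero => rw [pow_zero]; rintro _ rfl; exact one_mem f.range
              | succ j hj =>
                rw [pow_succ]
                rintro _ ⟨a, ha, b, hb, rfl⟩
                exact mul_mem (hj ha) (hs hb)
            exact this hy
          exact ⟨l, by simp⟩
        | zero => exact ⟨0, by simp⟩
        | add u v _ _ hu hv =>
          obtain ⟨b, hb⟩ := hu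
          obtain ⟨b', hb'⟩ := hv
          exact ⟨b + b', by rw [map_add, show u + v - (f b + f b') = u - f b + (v - f b') by ring];
                            exact add_mem hb hb'⟩
        | smul a y hy hy' =>
          obtain ⟨b, hb⟩ := hy'
          obtain ⟨c, hc⟩ := hgen a
          refine ⟨algebraMap O B c * b, ?_⟩
          rw [map_mul, AlgHom.commutes, smul_eq_mul,
            show a * y - algebraMap O A c * f b =
              (a - algebraMap O A c) * y + algebraMap O A c * (y - f b) by ring]
          refine add_mem ?_ (Ideal.mul_mem_left _ _ hb)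
          rw [pow_succ']
          refine Ideal.mul_mem_mul hc ?_
          rw [Ideal.span, Submodule.span_pow]
          exact hy
      intro a
      obtain ⟨b, hb⟩ := ih a
      obtain ⟨b', hb'⟩ := hstep _ hb
      exact ⟨b + b', by rw [map_add, ← sub_sub]; exact hb'⟩
  intro a
  obtain ⟨b, hb⟩ := key N a
  rw [hN, Ideal.mem_bot, sub_eq_zero] at hb
  exact ⟨b, hb.symm⟩

end FLTAgent.Lowering.P6
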