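import Mathlib
import Fermat.Agent.Lowering.P5.Sextic

/-!
# Matrix identities at the primes to be removed

The coordinates of a matrix of size two are those of its traceless part. Commutation kills the
minors, and the tame relation with unipotent inertia kills `(qf - c)` times the inertia coordinates.
-/

set_option autoImplicit false

noncomputable section

open Polynomial

namespace FLTAgent.Lowering.P6

variable {A : Type*} [CommRing A]

local notation "M2" => Matrix (Fin 2) (Fin 2)

/-- The coordinates `(a, b, e)` of the traceless part; `h` is one half. -/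
def coords (h : A) (M : M2 A) : Fin 3 → A := ![(M 0 0 - M 1 1) * h, M 0 1, M 1 0]

theorem map_coords {B : Type*} [CommRing B] (f : A →+* B) (h : A) (M : M2 A) (i : Fin 3) :
    f (coords h M i) = coords (f h) (M.map f) i := by
  fin_cases i <;> simp [coords]

theorem qf_coords {h : A} (hh : 2 * h = 1) (M : M2 A) :
    P5.qf (coords h M) = h ^ 2 * M.trace ^ 2 - M.det := by
  rw [Matrix.trace_fin_two, Matrix.det_fin_two, P5.qf]
  simp [coords]
  linear_combination (-(2 * h + 1) * (M 0 0 * M 1 1)) * hh

theorem minor_eq_zero {h : A} {Φ S : M2 A} (hc : Φ * S = S * Φ) (i j : Fin 3) :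
    coords h Φ i * coords h S j - coords h Φ j * coords h S i = 0 := by
  have e00 := congrFun (congrFun hc 0) 0
  have e01 := congrFun (congrFun hc 0) 1
  have e10 := congrFun (congrFun hc 1) 0
  simp [Matrix.mul_apply, Fin.sum_univ_two] at e00 e01 e10
  fin_cases i <;> fin_cases j <;> simp [coords] <;>
    first
      | linear_combination e00
      | linear_combination -e00
      | linear_combination h * e01
      | linear_combination -h * e01
      | linear_combination h * e10
      | linear_combination -h * e10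

/-- A matrix with the characteristic polynomial of `diag (z, z')` has the same order. -/
theorem pow_eq_one_of_trace {O : Type*} [CommRing O] [IsDomain O] [Algebra O A] {z z' : O}
    (hzz : z * z' = 1) (hne : z ≠ z') {n : ℕ} (hz : z ^ n = 1) {S : M2 A}
    (htr : S.trace = algebraMap O A (z + z')) (hdet : S.det = 1) : S ^ n = 1 := by
  have hz' : z' ^ n = 1 := by
    have := congrArg (· ^ n) hzz
    simpa [mul_pow, hz] using this
  obtain ⟨q, hq⟩ := (dvd_iff_isRoot (p := (X : O[X]) ^ n - 1) (a := z)).2 (by simp [hz])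
  have hq' : q.eval z' = 0 := by
    have h1 := congrArg (eval z') hq
    simp [hz'] at h1
    exact h1.resolve_left (sub_ne_zero.2 fun e => hne e.symm)
  obtain ⟨q', hq''⟩ := dvd_iff_isRoot.2 (show q.IsRoot z' from hq')
  have h2 : ((X : O[X]) - C z) * (X - C z') = X ^ 2 - C (z + z') * X + 1 := by
    rw [← C_1, ← hzz, C_mul, C_add]; ring
  have h3 : aeval S ((X : O[X]) ^ 2 - C (z + z') * X + 1) = 0 := by
    simp only [map_add, map_sub, map_mul, map_pow, aeval_X, aeval_C, map_one]
    rw [← map_add, ← Algebra.smul_def, ← algebraMap_smul A, ← htr, sq]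
    ext i j
    rw [Matrix.trace_fin_two, Matrix.add_apply, Matrix.sub_apply, Matrix.smul_apply, smul_eq_mul]
    rw [Matrix.det_fin_two] at hdet
    fin_cases i <;> fin_cases j <;> simp [Matrix.mul_apply, Fin.sum_univ_two] <;>
      first
        | linear_combination -hdet
        | ring
  have h4 := congrArg (aeval S) hq
  rw [hq'', ← mul_assoc, h2, map_mul, h3, zero_mul, map_sub, map_pow, aeval_X, map_one,
    sub_eq_zero] at h4
  exact h4

/-- Unipotent inertia and a Frobenius acting on it through the `t`-th power. -/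
theorem plain_eq_zero {h : A} (hh : 2 * h = 1) {t : ℕ}
    (h1t : ∀ x : A, (1 - (t : A)) * x = 0 → x = 0) (h4t : ∀ x : A, 4 * (t : A) * x = 0 → x = 0)
    {Φ S : M2 A} (htr : S.trace = 2) (hdS : S.det = 1) (hdΦ : Φ.det = (t : A))
    (hrel : Φ * S = S ^ t * Φ) (i : Fin 3) :
    (P5.qf (coords h Φ) - (h * ((t : A) - 1)) ^ 2) * coords h S i = 0 := by
  set N : M2 A := S - 1 with hN
  have hN2 : N * N = 0 := by
    rw [hN]
    rw [Matrix.trace_fin_two] at htr
    rw [Matrix.det_fin_two] at hdS
    ext i j
    fin_cases i <;> fin_cases j <;> simp [Matrix.mul_apply, Fin.sum_univ_two]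
    · linear_combination S 0 0 * htr - hdS
    · linear_combination S 0 1 * htr
    · linear_combination S 1 0 * htr
    · linear_combination S 1 1 * htr - hdS
  have hpow : ∀ k : ℕ, S ^ k = 1 + (k : A) • N := by
    intro k
    induction k with
    | zero => simp
    | succ k ih =>
      rw [pow_succ, ih, show S = 1 + N by rw [hN]; abel, mul_add, mul_one, add_mul, one_mul,
        smul_mul_assoc, hN2, smul_zero, Nat.cast_succ, add_smul, one_smul, add_zero]
      abel
  have hc : Φ * N = (t : A) • (N * Φ) := by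
    rw [hpow, add_mul, one_mul, smul_mul_assoc] at hrel
    rw [hN, mul_sub, mul_one, ← hN, hrel, add_sub_cancel_left]
  rw [Matrix.trace_fin_two] at htr
  rw [Matrix.det_fin_two] at hdΦ
  have e00 := congrFun (congrFun hc 0) 0
  have e01 := congrFun (congrFun hc 0) 1
  have e10 := congrFun (congrFun hc 1) 0
  have e11 := congrFun (congrFun hc 1) 1
  simp [hN, Matrix.mul_apply, Fin.sum_univ_two] at e00 e01 e10 e11
  set u := (Φ 0 0 + Φ 1 1) * h with hu
  set a' := (Φ 0 0 - Φ 1 1) * h with ha'
  set a := (S 0 0 - S 1 1) * h with ha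
  have hΦ0 : Φ 0 0 = u + a' := by rw [hu, ha']; linear_combination -(Φ 0 0) * hh
  have hΦ1 : Φ 1 1 = u - a' := by rw [hu, ha']; linear_combination -(Φ 1 1) * hh
  have hS0 : S 0 0 - 1 = a := by rw [ha]; linear_combination h * htr + (1 - S 0 0) * hh
  have hS1 : S 1 1 - 1 = -a := by linear_combination htr - hS0
  rw [hΦ0, hS0] at e00
  rw [hΦ0, hΦ1, hS0, hS1] at e01
  rw [hΦ0, hΦ1, hS0, hS1] at e10
  rw [hΦ1, hS1] at e11
  rw [hΦ0, hΦ1] at hdΦ
  have hπ : 2 * a * a' + S 0 1 * Φ 1 0 + S 1 0 * Φ 0 1 = 0 :=
    h1t _ (by linear_combination e00 + e11)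
  set b := S 0 1
  set e := S 1 0
  set b' := Φ 0 1
  set e' := Φ 1 0
  set T : A := (t : A)
  have ka : (1 - T) * u * a = (1 + T) * (h * (b * e' - e * b')) := by
    linear_combination h * e00 - h * e11 - ((1 - T) * u * a) * hh
  have kb : (1 - T) * u * b = (1 + T) * (a * b' - b * a') := by
    linear_combination e01
  have ke : (1 - T) * u * e = (1 + T) * (e * a' - a * e') := by
    linear_combination e10
  have hcq : P5.qf (coords h Φ) = a' ^ 2 + b' * e' := by simp [P5.qf, coords, ← ha', b', e']
  rw [hcq]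
  apply h4t
  have key : ∀ v : A, (1 - T) ^ 2 * u ^ 2 * v = (1 + T) ^ 2 * ((a' ^ 2 + b' * e') * v) →
      4 * T * ((a' ^ 2 + b' * e' - (h * (T - 1)) ^ 2) * v) = 0 := by
    intro v hv
    linear_combination (1 - T) ^ 2 * v * hdΦ - hv - (2 * h + 1) * T * (T - 1) ^ 2 * v * hh
  have hb : S 0 1 = b := rfl
  have he : S 1 0 = e := rfl
  fin_cases i <;> simp [coords, ← ha, hb, he] <;> refine key _ ?_
  · linear_combination (1 - T) * u * ka + (1 + T) * h * e' * kb - (1 + T) * h * b' * ke
      - (1 + T) ^ 2 * h * a' * hπ + (1 + T) ^ 2 * a * (a' ^ 2 + b' * e') * hh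
  · linear_combination (1 - T) * u * kb + (1 + T) * b' * ka - (1 + T) * a' * kb
      - (1 + T) ^ 2 * h * b' * hπ + (1 + T) ^ 2 * (a * a' * b' + b * b' * e') * hh
  · linear_combination (1 - T) * u * ke + (1 + T) * a' * ke - (1 + T) * e' * ka
      - (1 + T) ^ 2 * h * e' * hπ + (1 + T) ^ 2 * (a * a' * e' + e * b' * e') * hh

end FLTAgent.Lowering.P6
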