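import Fermat.Agent.Lowering.P6.Congruences
import Fermat.Agent.Lowering.P6.Relations

/-!
# Generators of the algebra of a level over the local model

A bound for the tangent space relative to the local coordinates gives that many further generators
of the maximal ideal.
-/

set_option autoImplicit false
set_option linter.style.haveILetI false

noncomputable section

open IsLocalRing

namespace FLTAgent.Lowering.P6

local notation "GG" => (AlgebraicClosure ℚ ≃ₐ[ℚ] AlgebraicClosure ℚ)
local notation "M2" => Matrix (Fin 2) (Fin 2)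

variable {p : ℕ} [Fact p.Prime] {O : Type} [CommRing O] [IsDomain O] [IsDiscreteValuationRing O]
  [Algebra ℤ_[p] O]

/-- A matrix of unit determinant with scalar reduction is a constant modulo an ideal containing
the coordinates and the squares. -/
theorem sub_algebraMap_mem {R : Type} [CommRing R] [Algebra O R] [IsLocalRing R] {I : Ideal R}
    (hsq : maximalIdeal R ^ 2 ≤ I) (hO : (maximalIdeal O).map (algebraMap O R) ≤ I)
    (red : R →ₐ[O] ResidueField O) {h : R} (hh : 2 * h = 1) {M : M2 R} {a : O} {c : ℕ}
    (hc : (residue O) (c : O) ≠ 0) (hdet : M.det = (c : R))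
    (hred : M.map red = (residue O a) • (1 : M2 (ResidueField O)))
    (hcoord : ∀ i, coords h M i ∈ I) (i j : Fin 2) :
    M i j - algebraMap O R ((1 : M2 O) i j * a) ∈ I := by
  have hred' : ∀ i, red (M i i - algebraMap O R a) = 0 := fun i => by
    have := congrFun (congrFun hred i) i
    simp only [Matrix.map_apply, Matrix.smul_apply, Matrix.one_apply_eq, smul_eq_mul, mul_one] at this
    rw [map_sub, this, AlgHom.commutes]
    exact sub_self _
  have hoff : ∀ i j, i ≠ j → red (M i j) = 0 := fun i j hij => by
    have := congrFun (congrFun hred i) j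
    simpa [Matrix.one_apply_ne hij] using this
  set u := M 0 0 - algebraMap O R a with hu
  set v := M 1 1 - algebraMap O R a with hv
  have hm : ∀ {x : R}, red x = 0 → x ∈ maximalIdeal R := fun h => (red_eq_zero_iff red _).1 h
  have h01 : M 0 1 ∈ I := by simpa [coords] using hcoord 1
  have h10 : M 1 0 ∈ I := by simpa [coords] using hcoord 2
  have huv : (u - v) * h ∈ I := by
    have := hcoord 0
    simpa [coords, hu, hv] using this
  have hsum : algebraMap O R a * (u + v) ∈ I := by
    rw [Matrix.det_fin_two] at hdet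
    have h2 : u * v ∈ I := hsq (by rw [sq]; exact Ideal.mul_mem_mul (hm (hred' 0)) (hm (hred' 1)))
    have h3 : algebraMap O R ((c : O) - a ^ 2) ∈ I := by
      refine hO (Ideal.mem_map_of_mem _ ?_)
      rw [← residue_eq_zero_iff]
      have h4 := congrArg red hdet
      rw [map_sub, map_mul, map_mul, map_natCast, hoff 0 1 (by decide), zero_mul, sub_zero] at h4
      have e0 := hred' 0; have e1 := hred' 1
      rw [map_sub, sub_eq_zero, AlgHom.commutes] at e0 e1
      rw [e0, e1] at h4
      rw [map_sub, map_pow, sub_eq_zero, map_natCast, ← h4, sq]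
      rfl
    have h5 : algebraMap O R a * (u + v) =
        algebraMap O R ((c : O) - a ^ 2) - u * v + M 0 1 * M 1 0 := by
      rw [map_sub, map_pow, map_natCast, hu, hv]
      linear_combination hdet
    rw [h5]
    exact add_mem (sub_mem h3 h2) (Ideal.mul_mem_right _ _ h01)
  have ha : IsUnit (algebraMap O R a) := by
    refine IsUnit.map _ ?_
    rw [← IsLocalRing.notMem_maximalIdeal, ← residue_eq_zero_iff]
    intro h0
    apply hc
    have h4 := congrArg red hdet
    rw [show red M.det = (M.map red).det from red.toRingHom.map_det M, hred] at h4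
    rw [h0, zero_smul, Matrix.det_zero, map_natCast] at h4
    rw [map_natCast]
    exact h4.symm
  have hs : u + v ∈ I := by
    obtain ⟨b, hb⟩ := ha.exists_left_inv
    rw [show u + v = b * (algebraMap O R a * (u + v)) by rw [← mul_assoc, hb, one_mul]]
    exact Ideal.mul_mem_left _ _ hsum
  have h0 : u ∈ I := by
    rw [show u = h * (u + v) + (u - v) * h by linear_combination -u * hh]
    exact add_mem (Ideal.mul_mem_left _ _ hs) huv
  have h1 : v ∈ I := by
    rw [show v = h * (u + v) - (u - v) * h by linear_combination -v * hh]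
    exact sub_mem (Ideal.mul_mem_left _ _ hs) huv
  fin_cases i <;> fin_cases j <;> simpa [← hu, ← hv]

variable (R : Residual p O) {X : Aux R.S} (L : LevelData X)

/-- Further generators: with the coordinates at `T` and the maximal ideal of `O` they generate the
maximal ideal. -/
theorem exists_generators (ρ : GG →* GL (Fin 2) L.R) (g : ∀ t ∈ R.S.T, GG × GG) (h : L.R)
    (hh : 2 * h = 1) (hbar : ∀ t ht, ∀ x ∈ [(g t ht).1, (g t ht).2], ∃ (a : O) (c : ℕ),
      residue O (c : O) ≠ 0 ∧ detGL (ρ x) = (c : L.R) ∧
        (ρ x : M2 L.R).map L.red = residue O a • (1 : M2 (ResidueField O)))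
    {N : ℕ} [FiniteDimensional (ResidueField O) ↥(tangent R L ρ g)]
    (hN : Module.finrank (ResidueField O) ↥(tangent R L ρ g) ≤ N) :
    ∃ v : Fin N → L.R, (∀ l, v l ∈ maximalIdeal L.R) ∧ ∀ W : Ideal L.R,
      (maximalIdeal O).map (algebraMap O L.R) ≤ W → (∀ l, v l ∈ W) →
      (∀ t ht, ∀ x ∈ [(g t ht).1, (g t ht).2], ∀ i, coords h (ρ x : M2 L.R) i ∈ W) →
      maximalIdeal L.R ≤ W := by
  classical
  haveI := L.finite_R
  haveI := isNoetherianRing_level L
  set J : Ideal L.R := maximalIdeal L.R ^ 2 ⊔ ((maximalIdeal O).map (algebraMap O L.R) ⊔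
    Ideal.span {z | ∃ t ht, ∃ x ∈ [(g t ht).1, (g t ht).2], ∃ i, coords h (ρ x : M2 L.R) i = z})
  have hJsq : maximalIdeal L.R ^ 2 ≤ J := le_sup_left
  have hJO : (maximalIdeal O).map (algebraMap O L.R) ≤ J := le_sup_of_le_right le_sup_left
  have hJc : ∀ t ht, ∀ x ∈ [(g t ht).1, (g t ht).2], ∀ i, coords h (ρ x : M2 L.R) i ∈ J :=
    fun t ht x hx i => le_sup_right (a := maximalIdeal L.R ^ 2)
      (le_sup_right (a := (maximalIdeal O).map (algebraMap O L.R))
        (Ideal.subset_span ⟨t, ht, x, hx, i, rfl⟩))
  have hJm : J ≤ maximalIdeal L.R := by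
    refine sup_le (Ideal.pow_le_self two_ne_zero) (sup_le ?_ (Ideal.span_le.2 ?_))
    · rw [Ideal.map_le_iff_le_comap]
      intro a ha
      rw [Ideal.mem_comap, ← red_eq_zero_iff L.red, AlgHom.commutes]
      exact (residue_eq_zero_iff a).2 ha
    · rintro _ ⟨t, ht, x, hx, i, rfl⟩
      obtain ⟨a, c, -, -, hred⟩ := hbar t ht x hx
      rw [SetLike.mem_coe, ← red_eq_zero_iff L.red,
        show L.red (coords h (ρ x : M2 L.R) i) =
          coords (L.red h) ((ρ x : M2 L.R).map L.red) i from map_coords L.red.toRingHom h _ i, hred]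
      fin_cases i <;> simp [coords]
  -- the quotient as an algebra over the residue field
  let B := L.R ⧸ J
  let ι : ResidueField O →+* B :=
    Ideal.Quotient.lift (maximalIdeal O) (algebraMap O B) fun a ha => by
      rw [IsScalarTower.algebraMap_apply O L.R B]
      exact Ideal.Quotient.eq_zero_iff_mem.2 (hJO (Ideal.mem_map_of_mem _ ha))
  letI : Algebra (ResidueField O) B := ι.toAlgebra
  haveI : IsScalarTower O (ResidueField O) B := IsScalarTower.of_algebraMap_eq fun a => rfl
  haveI : Module.Finite O B := Module.Finite.of_surjective (Ideal.Quotient.mkₐ O J).toLinearMap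
    Ideal.Quotient.mk_surjective
  haveI : Module.Finite (ResidueField O) B :=
    Module.Finite.of_restrictScalars_finite O (ResidueField O) B
  haveI : Nontrivial B := Ideal.Quotient.nontrivial_iff.2 fun h =>
    (maximalIdeal.isMaximal L.R).ne_top (top_le_iff.mp (h ▸ hJm))
  have hsmul : ∀ (a : O) (x : L.R), residue O a • Ideal.Quotient.mk J x =
      Ideal.Quotient.mk J (algebraMap O L.R a * x) := fun a x => by
    rw [Algebra.smul_def, map_mul]
    rfl
  have hred : ∀ x : L.R, ∃ (a : O) (u : L.R), u ∈ maximalIdeal L.R ∧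
      x = algebraMap O L.R a + u ∧ residue O a = L.red x := fun x => by
    obtain ⟨a, ha⟩ := residue_surjective (L.red x)
    refine ⟨a, x - algebraMap O L.R a, ?_, (add_sub_cancel _ _).symm, ha⟩
    rw [← red_eq_zero_iff L.red, map_sub, AlgHom.commutes, ← ha]
    exact sub_self _
  -- functionals killing one are tangent vectors
  let ev : Module.Dual (ResidueField O) B →ₗ[ResidueField O] ResidueField O :=
    LinearMap.applyₗ (1 : B)
  have hmem : ∀ l ∈ LinearMap.ker ev, (fun x => l (Ideal.Quotient.mk J x)) ∈ tangent R L ρ g := by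
    intro l hl
    have hl1 : l 1 = 0 := hl
    have hconst : ∀ a : O, l (Ideal.Quotient.mk J (algebraMap O L.R a)) = 0 := fun a => by
      rw [← mul_one (algebraMap O L.R a), ← hsmul, map_smul, map_one, hl1, smul_zero]
    refine ⟨fun x y => by simp [map_add], fun x y => ?_, hconst, fun t ht i j => ?_⟩
    · obtain ⟨a, u, hu, rfl, ha⟩ := hred x
      obtain ⟨b, v, hv, rfl, hb⟩ := hred y
      have huv : Ideal.Quotient.mk J (u * v) = 0 :=
        Ideal.Quotient.eq_zero_iff_mem.2 (hJsq (by rw [sq]; exact Ideal.mul_mem_mul hu hv))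
      have hx : ∀ (c : O) (w : L.R), l (Ideal.Quotient.mk J (algebraMap O L.R c + w)) =
          l (Ideal.Quotient.mk J w) := fun c w => by rw [map_add, map_add, hconst, zero_add]
      show l _ = L.red _ * l _ + L.red _ * l _
      rw [← ha, ← hb, hx, hx, show (algebraMap O L.R a + u) * (algebraMap O L.R b + v) =
        algebraMap O L.R (a * b) + (algebraMap O L.R a * v + algebraMap O L.R b * u + u * v) by
          rw [map_mul]; ring, hx, map_add (Ideal.Quotient.mk J), huv, add_zero,
        map_add (Ideal.Quotient.mk J), ← hsmul, ← hsmul, map_add, map_smul, map_smul, smul_eq_mul,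
        smul_eq_mul]
    · have key : ∀ x ∈ [(g t ht).1, (g t ht).2],
          l (Ideal.Quotient.mk J ((ρ x : M2 L.R) i j)) = 0 := fun x hx => by
        obtain ⟨a, c, hc, hdet, hr⟩ := hbar t ht x hx
        rw [Ideal.Quotient.eq.2 (sub_algebraMap_mem hJsq hJO L.red hh hc hdet hr
          (hJc t ht x hx) i j)]
        exact hconst _
      exact ⟨key _ (by simp), key _ (by simp)⟩
  let Φ : ↥(LinearMap.ker ev) →ₗ[ResidueField O] ↥(tangent R L ρ g) :=
    { toFun := fun l => ⟨fun x => l.1 (Ideal.Quotient.mk J x), hmem l.1 l.2⟩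
      map_add' := fun _ _ => rfl
      map_smul' := fun _ _ => rfl }
  have hΦ : Function.Injective Φ := fun l l' e => Subtype.ext (LinearMap.ext fun b => by
    obtain ⟨x, rfl⟩ := Ideal.Quotient.mk_surjective b
    exact congrFun (congrArg Subtype.val e) x)
  have hker : Module.finrank (ResidueField O) ↥(LinearMap.ker ev) ≤ N :=
    (LinearMap.finrank_le_finrank_of_injective hΦ).trans hN
  have hdim : Module.finrank (ResidueField O) B ≤ N + 1 := by
    have h1 := LinearMap.finrank_range_add_finrank_ker ev
    have h2 := Submodule.finrank_le (LinearMap.range ev)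
    rw [Module.finrank_self] at h2
    rw [Subspace.dual_finrank_eq] at h1
    omega
  -- generators of the quotient by the constants
  let C := B ⧸ (Submodule.span (ResidueField O) {(1 : B)})
  have hC : Module.finrank (ResidueField O) C ≤ N := by
    have h1 := Submodule.finrank_quotient_add_finrank (Submodule.span (ResidueField O) {(1 : B)})
    rw [finrank_span_singleton one_ne_zero] at h1
    show Module.finrank (ResidueField O)
      (B ⧸ (Submodule.span (ResidueField O) {(1 : B)})) ≤ N
    omega
  let bC := Module.finBasis (ResidueField O) C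
  have hlift : ∀ c : C, ∃ u ∈ maximalIdeal L.R,
      Submodule.Quotient.mk (Ideal.Quotient.mk J u) = c := fun c => by
    obtain ⟨b, rfl⟩ := Submodule.Quotient.mk_surjective _ c
    obtain ⟨x, rfl⟩ := Ideal.Quotient.mk_surjective b
    obtain ⟨a, u, hu, rfl, -⟩ := hred x
    refine ⟨u, hu, (Submodule.Quotient.eq _).2 ?_⟩
    rw [map_add, sub_add_cancel_right]
    refine neg_mem (Submodule.mem_span_singleton.2 ⟨residue O a, ?_⟩)
    rw [← map_one (Ideal.Quotient.mk J), hsmul, mul_one]
  choose lift hlift_mem hlift using hlift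
  refine ⟨fun l => if hl : (l : ℕ) < Module.finrank (ResidueField O) C then lift (bC ⟨l, hl⟩) else 0,
    fun l => ?_, fun W hWO hWv hWc => ?_⟩
  · dsimp only
    split_ifs
    · exact hlift_mem _
    · exact zero_mem _
  refine Submodule.le_of_le_smul_of_le_jacobson_bot (IsNoetherian.noetherian _)
    (maximalIdeal_le_jacobson _) ?_
  intro x hx
  have hJW : J ≤ W ⊔ maximalIdeal L.R • maximalIdeal L.R := by
    refine sup_le ?_ (sup_le (hWO.trans le_sup_left) (Ideal.span_le.2 ?_))
    · rw [smul_eq_mul, ← sq]; exact le_sup_right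
    · rintro _ ⟨t, ht, y, hy, i, rfl⟩
      exact le_sup_left (b := maximalIdeal L.R • maximalIdeal L.R) (hWc t ht y hy i)
  -- expand in the basis
  let c := bC.repr (Submodule.Quotient.mk (Ideal.Quotient.mk J x))
  choose a ha using fun l => residue_surjective (c l)
  set y := ∑ l, algebraMap O L.R (a l) * lift (bC l) with hy
  have hyW : y ∈ W := Submodule.sum_mem _ fun l _ => Ideal.mul_mem_left _ _ (by
    have := hWv ⟨l, lt_of_lt_of_le l.2 hC⟩
    simpa [dif_pos l.2] using this)
  have hym : y ∈ maximalIdeal L.R :=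
    Submodule.sum_mem _ fun l _ => Ideal.mul_mem_left _ _ (hlift_mem _)
  have h1 : (Submodule.Quotient.mk (Ideal.Quotient.mk J y) : C) =
      Submodule.Quotient.mk (Ideal.Quotient.mk J x) := by
    conv_rhs => rw [← bC.sum_repr (Submodule.Quotient.mk (Ideal.Quotient.mk J x))]
    rw [hy, map_sum, ← Submodule.mkQ_apply, map_sum]
    refine Finset.sum_congr rfl fun l _ => ?_
    rw [← hsmul, map_smul, Submodule.mkQ_apply, hlift, ha]
  rw [Submodule.Quotient.eq, Submodule.mem_span_singleton] at h1
  obtain ⟨z, hz⟩ := h1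
  obtain ⟨b, rfl⟩ := residue_surjective z
  rw [← map_one (Ideal.Quotient.mk J), hsmul, mul_one, ← map_sub, Ideal.Quotient.eq] at hz
  have hb : algebraMap O L.R b ∈ maximalIdeal L.R := by
    have := add_mem (hJm hz) (sub_mem hym hx)
    rwa [sub_add_cancel] at this
  have hb' : algebraMap O L.R b ∈ W := hWO (Ideal.mem_map_of_mem _ (by
    rw [← residue_eq_zero_iff]
    have := (red_eq_zero_iff L.red _).2 hb
    rwa [AlgHom.commutes] at this))
  have hx' : x = y - algebraMap O L.R b + (algebraMap O L.R b - (y - x)) := by ring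
  rw [hx']
  exact add_mem (le_sup_left (b := maximalIdeal L.R • maximalIdeal L.R) (sub_mem hyW hb')) (hJW hz)

end FLTAgent.Lowering.P6
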