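import Fermat.Agent.Lowering.P6.LocalChoice
import Fermat.Agent.Lowering.P6.Bases
import Fermat.Agent.Lowering.P6.Generators

/-!
# The fixed data of the patching problem

The normalised representation of the base, the elements at the primes to be removed, a basis of the
base module, and the resulting parameters.
-/

set_option autoImplicit false
set_option linter.style.haveILetI false

noncomputable section

open IsLocalRing

namespace FLTAgent.Lowering.P6

local notation "LL" => AlgebraicClosure ℚ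
local notation "GG" => (AlgebraicClosure ℚ ≃ₐ[ℚ] AlgebraicClosure ℚ)
local notation "M2" => Matrix (Fin 2) (Fin 2)

variable {p : ℕ} [hp : Fact p.Prime] {O : Type} [CommRing O] [IsDomain O]
  [IsDiscreteValuationRing O] [Algebra ℤ_[p] O]

/-- The fixed data. -/
structure Frame (R : Residual p O) (out : Output R.S) where
  base : Conj out.base
  base_red : ∀ σ, (base.ρ σ : M2 out.base.R).map out.base.red = rbM R σ
  h : O
  two_h : 2 * h = 1
  ζ : Oˣ
  ζ_pow : ζ ^ p = 1
  ζ_ne : ζ ≠ 1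
  g : ∀ t ∈ R.S.T, GG × GG
  g_spec : ∀ t ht, ∃ (V : ValuationSubring LL) (T : TameGen p t V), V.LiesOverPrime t ∧
    (T.σ : GG) = (g t ht).1 ∧ (T.φ : GG) = (g t ht).2 ∧
    ∃ c : (ZMod t)ˣ, (∀ x : LL, x ^ t = 1 → (T.σ : GG) x = x ^ (c : ZMod t).val) ∧
      R.S.χ t ht c ^ ((p + 1) / 2) = ζ
  d : ℕ
  d_pos : 0 < d
  b0 : Module.Basis (Fin d) O (out.base.M false)

theorem two_isUnit (R : Residual p O) : IsUnit (2 : O) := by
  rw [← IsLocalRing.notMem_maximalIdeal, ← residue_eq_zero_iff, map_ofNat]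
  intro h
  have h1 : ((2 : ℕ) : ZMod p) = 0 := R.e.injective (by rw [map_natCast, map_zero]; exact_mod_cast h)
  rw [ZMod.natCast_eq_zero_iff] at h1
  have := R.S.p_gt
  have := Nat.le_of_dvd two_pos h1
  omega

/-- Conjugates exactly lifting the residual representation and carried to each other. -/
theorem exists_conj_lift (R : Residual p O) {X : Aux R.S} (L : LevelData X) :
    ∃ c : Conj L, ∀ σ, (c.ρ σ : M2 L.R).map L.red = rbM R σ := by
  obtain ⟨P, hP⟩ := exists_conj_red R.S L.red L.ρ L.residual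
  exact ⟨⟨((MulAut.conj P).toMonoidHom).comp L.ρ, P, fun σ => rfl⟩, hP⟩

theorem exists_frame (R : Residual p O) (out : Output R.S) : Nonempty (Frame R out) := by
  obtain ⟨c, hc⟩ := exists_conj_lift R out.base
  obtain ⟨h, hh⟩ := (two_isUnit R).exists_right_inv
  obtain ⟨ζ, hζ, hζ1, g, hg⟩ := exists_local R.S R.T_nonempty
  haveI := finite_base (Aux.empty R.S) out.base false
  haveI := free_base (Aux.empty R.S) out.base false
  haveI := out.base_nontrivial
  exact ⟨⟨c, hc, h, hh, ζ, hζ, hζ1, g, hg, Module.finrank O (out.base.M false),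
    Module.finrank_pos, Module.finBasis O (out.base.M false)⟩⟩

variable {R : Residual p O} {out : Output R.S} (F : Frame R out)

namespace Frame

/-- The representation of the base by matrices. -/
def baseAlg : out.base.R →ₐ[O] Matrix (Fin F.d) (Fin F.d) O :=
  (LinearMap.toMatrixAlgEquiv F.b0).toAlgHom.comp (actO out.base false)

/-- The place chosen at a prime of `T`. -/
def elt (t : R.S.T) : GG × GG := F.g t t.2

/-- An enumeration of `T`. -/
def _root_.FLTAgent.Lowering.P6.Residual.tIdx (R : Residual p O) (i : Fin R.S.T.card) : R.S.T :=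
  R.S.T.equivFin.symm i

theorem ζ_sub_mem : (F.ζ : O) - 1 ∈ maximalIdeal O := by
  rw [← residue_eq_zero_iff]
  have h1 : (residue O (F.ζ : O)) ^ p = 1 := by
    rw [← map_pow, ← Units.val_pow_eq_pow_val, F.ζ_pow, Units.val_one, map_one]
  haveI : CharP (ResidueField O) p := charP_of_injective_ringHom R.e.toRingHom.injective p
  have h2 : (residue O (F.ζ : O) - 1) ^ p = 0 := by rw [sub_pow_char, h1, one_pow, sub_self]
  rw [map_sub, map_one]
  exact eq_zero_of_pow_eq_zero h2

theorem ζ_inv_ne : (F.ζ : O) ≠ (F.ζ⁻¹ : Oˣ) := by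
  intro h
  have h2 : F.ζ ^ 2 = 1 := by rw [sq]; nth_rw 2 [Units.ext h]; rw [mul_inv_cancel]
  refine F.ζ_ne ?_
  have := pow_gcd_eq_one.2 (And.intro h2 F.ζ_pow)
  have hgt := R.S.p_gt
  rwa [(Nat.coprime_two_left.2 (hp.out.odd_of_ne_two (by omega))).gcd_eq_one, pow_one] at this

/-- The shift of the eigenvalues of twisted inertia. -/
def delta : O := ((F.ζ : O) - (F.ζ⁻¹ : Oˣ)) * F.h

theorem delta_ne : F.delta ≠ 0 := by
  refine mul_ne_zero (sub_ne_zero.2 F.ζ_inv_ne) fun h => ?_
  have := F.two_h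
  rw [h, mul_zero] at this
  exact zero_ne_one this

theorem delta_mem : F.delta ∈ maximalIdeal O := by
  refine Ideal.mul_mem_right _ _ ?_
  have : (F.ζ : O) - (F.ζ⁻¹ : Oˣ) = ((F.ζ : O) - 1) + (F.ζ⁻¹ : Oˣ) * ((F.ζ : O) - 1) := by
    rw [mul_sub, mul_one, Units.inv_mul]; ring
  rw [this]
  exact add_mem F.ζ_sub_mem (Ideal.mul_mem_left _ _ F.ζ_sub_mem)

/-- The constant of the untwisted relation. -/
def cst (i : Fin R.S.T.card) : O := (F.h * ((((R.tIdx i : R.S.T) : ℕ) : O) - 1)) ^ 2

theorem cst_mem (i : Fin R.S.T.card) : F.cst i ∈ maximalIdeal O := by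
  obtain ⟨htp, -, hdvd⟩ := R.S.T_prime _ (R.tIdx i).2
  refine Ideal.pow_mem_of_mem _ (Ideal.mul_mem_left _ _ ?_) 2 two_pos
  obtain ⟨z, hz⟩ := hdvd
  rw [show (((R.tIdx i : R.S.T) : ℕ) : O) - 1 = ((p * z : ℕ) : O) by
    rw [← hz, Nat.cast_sub htp.one_le, Nat.cast_one], Nat.cast_mul]
  exact Ideal.mul_mem_right _ _ (natCast_p_mem R.e)

/-- The element through which an auxiliary prime acts. -/
def wFun (r : ℕ) (j : Fin r) : MvPowerSeries (Fin r) O :=
  MvPowerSeries.X j ^ 2 * Ring.inverse (1 + MvPowerSeries.X j)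

/-- The parameters. -/
def params (r : ℕ) (hr : 3 * R.S.T.card ≤ r) : P5.Params O where
  k := R.S.T.card
  g := r - 3 * R.S.T.card
  s := r
  d := F.d
  expo := inertiaExp
  s_eq := by omega
  d_pos := F.d_pos
  δ := F.delta
  δ_ne := F.delta_ne
  δ_mem := F.delta_mem
  cst := F.cst
  cst_mem := F.cst_mem
  w := wFun r
  w_dvd j := ⟨1 + MvPowerSeries.X j, by
    rw [wFun, mul_assoc, Ring.inverse_mul_cancel _ (MvPowerSeries.isUnit_iff_constantCoeff.2 (by simp)),
      mul_one]⟩
  A0 := F.baseAlg.range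
  A0_comm := by
    rintro _ ⟨a, rfl⟩ _ ⟨b, rfl⟩
    show F.baseAlg a * F.baseAlg b = F.baseAlg b * F.baseAlg a
    rw [← map_mul, ← map_mul, mul_comm]
  X0 i l := ⟨F.baseAlg (coords (algebraMap O out.base.R F.h)
    (F.base.ρ (F.elt (R.tIdx i)).1 : M2 out.base.R) l), _, rfl⟩

end Frame

end FLTAgent.Lowering.P6
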