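import Fermat.Agent.Lowering.P6.Interface
import Fermat.Agent.Places.Basic
import Fermat.Agent.EigenReps.Approx
import Fermat.Agent.Mazur.Value

/-!
# Inertia and roots of unity of the residue order

Inertia at a place over `l` moves the `l`-th roots of unity in every possible way.
-/

set_option autoImplicit false
set_option linter.style.haveILetI false

noncomputable section

namespace FLTAgent.Lowering.P6

local notation "LL" => AlgebraicClosure ℚ
local notation "GG" => (AlgebraicClosure ℚ ≃ₐ[ℚ] AlgebraicClosure ℚ)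

variable {l : ℕ} [NeZero l] {ζ : LL}

theorem autToPow_surjective (hζ : IsPrimitiveRoot ζ l) (u : (ZMod l)ˣ) :
    ∃ σ : GG, hζ.autToPow ℚ σ = u := by
  haveI := Mazur.isGalois_QQb
  have hu : IsPrimitiveRoot (ζ ^ (u : ZMod l).val) l :=
    hζ.pow_of_coprime _ (ZMod.val_coe_unit_coprime u)
  have hmin : minpoly ℚ ζ = minpoly ℚ (ζ ^ (u : ZMod l).val) := by
    rw [← Polynomial.cyclotomic_eq_minpoly_rat hζ (NeZero.pos l),
      ← Polynomial.cyclotomic_eq_minpoly_rat hu (NeZero.pos l)]
  obtain ⟨σ, hσ⟩ := (Normal.minpoly_eq_iff_mem_orbit (F := ℚ) (E := LL)).1 hmin.symm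
  refine ⟨σ, Units.ext ?_⟩
  have h := hζ.autToPow_spec ℚ σ
  have hσ' : σ ζ = ζ ^ (u : ZMod l).val := hσ
  rw [hσ'] at h
  exact ZMod.val_injective l (hζ.pow_inj (ZMod.val_lt _) (ZMod.val_lt _) h)

/-- Inertia at a place over `l` reaches every exponent on the `l`-th roots of unity. -/
theorem exists_inertia_autToPow [hl : Fact l.Prime] {V : ValuationSubring LL}
    (hV : V.LiesOverPrime l) (hζ : IsPrimitiveRoot ζ l) (u : (ZMod l)ˣ) :
    ∃ σ ∈ V.inertiaSubgroupIn ℚ, hζ.autToPow ℚ σ = u := by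
  haveI := Mazur.isGalois_QQb
  let c := hζ.autToPow ℚ
  let H := (V.inertiaSubgroupIn ℚ).map c
  let K := H.comap c
  have hK : K = ⊤ := by
    haveI : K.Normal := Subgroup.Normal.comap inferInstance c
    refine Places.eq_top_of_forall_inertia_le K ?_ fun q hq W hW σ hσ => ?_
    · haveI : FiniteDimensional ℚ (IntermediateField.adjoin ℚ ({ζ} : Set LL)) :=
        IntermediateField.adjoin.finiteDimensional
          (Algebra.IsAlgebraic.isAlgebraic (R := ℚ) ζ).isIntegral
      refine Subgroup.isOpen_mono (H₁ := (IntermediateField.adjoin ℚ ({ζ} : Set LL)).fixingSubgroup)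
        (fun σ hσ => ?_) (IntermediateField.fixingSubgroup_isOpen _)
      have hfix : σ ζ = ζ := (IntermediateField.mem_fixingSubgroup_iff _ _).mp hσ ζ
        (IntermediateField.subset_adjoin ℚ _ rfl)
      have h1 : c σ = c 1 := Units.ext (ZMod.val_injective l (hζ.pow_inj (ZMod.val_lt _)
        (ZMod.val_lt _) (by rw [hζ.autToPow_spec ℚ, hζ.autToPow_spec ℚ, hfix, AlgEquiv.one_apply])))
      rw [Subgroup.mem_comap, h1, map_one]
      exact one_mem H
    · rw [Subgroup.mem_comap]
      by_cases hql : q = l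
      · subst hql
        obtain ⟨g, hg⟩ := Places.exists_smul_eq hq hW hV
        refine ⟨g * σ * g⁻¹, hg ▸ Places.conj_mem_inertia W hσ g, ?_⟩
        rw [map_mul, map_mul, map_inv, mul_comm (c g), mul_inv_cancel_right]
      · have hfix : σ ζ = ζ := EigenReps.inertia_fix_root hq hW
          (fun h => hql ((Nat.prime_dvd_prime_iff_eq hq hl.out).1 h)) hζ.pow_eq_one hσ
        have h1 : c σ = c 1 := Units.ext (ZMod.val_injective l (hζ.pow_inj (ZMod.val_lt _)
          (ZMod.val_lt _) (by rw [hζ.autToPow_spec ℚ, hζ.autToPow_spec ℚ, hfix, AlgEquiv.one_apply])))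
        rw [h1, map_one]
        exact one_mem H
  obtain ⟨τ, hτ⟩ := autToPow_surjective hζ u
  have hmem : τ ∈ K := hK ▸ Subgroup.mem_top τ
  obtain ⟨σ, hσ, e⟩ := hmem
  exact ⟨σ, hσ, e.trans hτ⟩

end FLTAgent.Lowering.P6
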