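import Fermat.Agent.Lowering.P1.Interface
import Fermat.Agent.Lowering.P4.Interface
import Fermat.Agent.Lowering.P5.Interface

/-!
# From the levels to a point unramified at the primes to be removed: interface

`Residual` is the situation of a residual representation at a minimal level, `Point` the outcome:
a point of characteristic zero of the base algebra whose representation is unramified at every
prime of `T`. `TameGen` is the structure of the decomposition group away from `p` and
`TargetTangent` the count of tangent vectors.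
-/

set_option autoImplicit false

noncomputable section

open IsLocalRing
open scoped Pointwise

namespace FLTAgent.Lowering.P6

local notation "LL" => AlgebraicClosure ℚ
local notation "GG" => (AlgebraicClosure ℚ ≃ₐ[ℚ] AlgebraicClosure ℚ)
local notation "M2" => Matrix (Fin 2) (Fin 2)

/-- A generator of tame inertia and a Frobenius element at a place `V` over `t`, as seen by finite
images in which inertia is a `p`-group. -/
structure TameGen (p t : ℕ) (V : ValuationSubring LL) where
  σ : V.decompositionSubgroup ℚ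
  φ : V.decompositionSubgroup ℚ
  σ_mem : (σ : GG) ∈ V.inertiaSubgroupIn ℚ
  φ_frob : V.IsFrobeniusAt (φ : GG) t
  gen : ∀ {G : Type} [Group G] [Finite G] (f : V.decompositionSubgroup ℚ →* G),
    P1.LevC (V.decompositionSubgroup ℚ).subtype f →
    (∀ τ : V.decompositionSubgroup ℚ, (τ : GG) ∈ V.inertiaSubgroupIn ℚ →
      ∃ a : ℕ, f τ ^ p ^ a = 1) →
    (∀ τ : V.decompositionSubgroup ℚ, (τ : GG) ∈ V.inertiaSubgroupIn ℚ →
      f τ ∈ Subgroup.zpowers (f σ)) ∧
    (∀ τ, f τ ∈ Subgroup.closure {f σ, f φ}) ∧ f φ * f σ * (f φ)⁻¹ = f σ ^ t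

/-- The local package. -/
def TargetTameGen : Prop :=
  ∀ (p t : ℕ), p.Prime → t.Prime → t ≠ p → ∀ V : ValuationSubring LL, V.LiesOverPrime t →
    ∀ φ : GG, V.IsFrobeniusAt φ t → ∃ T : TameGen p t V, (T.φ : GG) = φ

variable {p : ℕ} [Fact p.Prime] {O : Type} [CommRing O] [IsDomain O] [IsDiscreteValuationRing O]
  [Algebra ℤ_[p] O]

/-- The residual representation at a minimal level. -/
structure Residual (p : ℕ) [Fact p.Prime] (O : Type) [CommRing O] [IsDomain O]
    [IsDiscreteValuationRing O] [Algebra ℤ_[p] O] where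
  S : Setup p O
  D : P1.Datum p
  /-- The residue field has `p` elements. -/
  e : ZMod p ≃+* ResidueField O
  rb_eq : ∀ σ : GG, S.rb σ = Matrix.GeneralLinearGroup.map e.toRingHom (D.rb σ)
  bad_eq : D.bad = S.bad
  T_nonempty : S.T.Nonempty
  unramified : ∀ l : ℕ, l.Prime → l ≠ p → (¬ l ∣ S.M0 ∨ l ∈ S.T) →
    ∀ V : ValuationSubring LL, V.LiesOverPrime l → ∀ σ ∈ V.inertiaSubgroupIn ℚ, D.rb σ = 1
  ramified : ∀ l : ℕ, l.Prime → l ∣ S.M0 → l ∉ S.T →
    ∀ V : ValuationSubring LL, V.LiesOverPrime l → ∃ σ ∈ V.inertiaSubgroupIn ℚ, D.rb σ ≠ 1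
  scalar : ∀ t ∈ S.T, ∀ V : ValuationSubring LL, V.LiesOverPrime t → ∀ φ : GG,
    V.IsFrobeniusAt φ t → ∃ a : ZMod p, (D.rb φ : M2 (ZMod p)) = a • 1

/-- A point of the base algebra, in characteristic zero, unramified at every prime of `T`. -/
structure Point (S : Setup p O) (base : LevelData (Aux.empty S)) where
  Ω : Type
  [field : Field Ω]
  [algebra : Algebra O Ω]
  injective : Function.Injective (algebraMap O Ω)
  f : base.R →ₐ[O] Ω
  factors : ∀ x, base.act false x = 0 → f x = 0
  unramified : ∀ t ∈ S.T, ∀ V : ValuationSubring LL, V.LiesOverPrime t →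
    ∀ σ ∈ V.inertiaSubgroupIn ℚ, ∀ i j,
      f ((base.ρ σ : M2 base.R) i j) = (1 : M2 Ω) i j

/-- The outcome of the patching. -/
def TargetPoint : Prop :=
  ∀ (p : ℕ) [Fact p.Prime] (O : Type) [CommRing O] [IsDomain O] [IsDiscreteValuationRing O]
    [Algebra ℤ_[p] O] [Module.Finite ℤ_[p] O] [CharZero O]
    [IsAdicComplete (maximalIdeal O) O] (R : Residual p O),
    (∀ X : Aux R.S, Geometry X) → ∀ out : Output R.S, Nonempty (Point R.S out.base)

variable (R : Residual p O) {X : Aux R.S} (L : LevelData X)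

/-- The residual representation as matrices over the residue field. -/
def rbM (σ : GG) : M2 (ResidueField O) := (R.S.rb σ : M2 (ResidueField O))

/-- A tangent vector of a level at a representation `r` conjugate to the given one: a derivation
at the residual point, killing the constants, whose deformation is trivial at the elements chosen
at the primes of `T`. -/
def tangent (r : GG →* GL (Fin 2) L.R)
    (g : ∀ t ∈ R.S.T, GG × GG) : Submodule (ResidueField O) (L.R → ResidueField O) where
  carrier := {d | (∀ x y, d (x + y) = d x + d y) ∧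
    (∀ x y, d (x * y) = L.red x * d y + L.red y * d x) ∧
    (∀ a : O, d (algebraMap O L.R a) = 0) ∧
    ∀ t ht i j, d ((r (g t ht).1 : M2 L.R) i j) = 0 ∧ d ((r (g t ht).2 : M2 L.R) i j) = 0}
  zero_mem' := ⟨by simp, by simp, by simp, fun _ _ _ _ => ⟨rfl, rfl⟩⟩
  add_mem' := fun {a b} ha hb => ⟨fun x y => by simp only [Pi.add_apply, ha.1, hb.1]; ring,
    fun x y => by simp only [Pi.add_apply, ha.2.1, hb.2.1]; ring,
    fun c => by simp [ha.2.2.1, hb.2.2.1],
    fun t ht i j => ⟨by simp [(ha.2.2.2 t ht i j).1, (hb.2.2.2 t ht i j).1],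
      by simp [(ha.2.2.2 t ht i j).2, (hb.2.2.2 t ht i j).2]⟩⟩
  smul_mem' := fun c a ha => ⟨fun x y => by simp only [Pi.smul_apply, ha.1, smul_add],
    fun x y => by simp only [Pi.smul_apply, smul_eq_mul, ha.2.1]; ring,
    fun b => by simp [ha.2.2.1],
    fun t ht i j => ⟨by simp [(ha.2.2.2 t ht i j).1], by simp [(ha.2.2.2 t ht i j).2]⟩⟩

/-- The count of tangent vectors: at most `r - 3 #T`. -/
def TargetTangent : Prop :=
  ∀ (p : ℕ) [Fact p.Prime] (O : Type) [CommRing O] [IsDomain O] [IsDiscreteValuationRing O]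
    [Algebra ℤ_[p] O] [Module.Finite ℤ_[p] O] [CharZero O] (R : Residual p O),
    ∃ r : ℕ, 3 * R.S.T.card ≤ r ∧ ∀ n : ℕ, ∃ X : Aux R.S, X.Q.card = r ∧
      (∀ q ∈ X.Q, p ^ n ∣ q - 1) ∧
      ∀ (L : LevelData X) (ρ : GG →* GL (Fin 2) L.R),
        (∀ σ, trGL (ρ σ) = trGL (L.ρ σ)) →
        (∀ σ i j, L.red ((ρ σ : M2 L.R) i j) = rbM R σ i j) →
        ∀ (g : ∀ t ∈ R.S.T, GG × GG),
          (∀ t ht, ∃ (V : ValuationSubring LL) (T : TameGen p t V),
            V.LiesOverPrime t ∧ (T.σ : GG) = (g t ht).1 ∧ (T.φ : GG) = (g t ht).2) →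
          FiniteDimensional (ResidueField O) ↥(tangent R L ρ g) ∧
          Module.finrank (ResidueField O) ↥(tangent R L ρ g) + 3 * R.S.T.card ≤ r

end FLTAgent.Lowering.P6
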