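import Fermat.Agent.Lowering.P6.LevelMap

/-!
# The levels of the patching problem

An auxiliary set with many congruences supplies a level of the patching problem modulo a power of
the maximal ideal.
-/

set_option autoImplicit false
set_option linter.style.haveILetI false

noncomputable section

open IsLocalRing

namespace FLTAgent.Lowering.P6

local notation "LL" => AlgebraicClosure ℚ
local notation "GG" => (AlgebraicClosure ℚ ≃ₐ[ℚ] AlgebraicClosure ℚ)
local notation "M2" => Matrix (Fin 2) (Fin 2)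

variable {p : ℕ} [hp : Fact p.Prime] {O : Type} [CommRing O] [IsDomain O]
  [IsDiscreteValuationRing O] [Algebra ℤ_[p] O]

/-- A power of `1 + y` is congruent to one. -/
theorem one_add_pow_sub_mem {A : Type} [CommRing A] {I : Ideal A} {p : ℕ} (hp : p.Prime)
    (hpI : (p : A) ∈ I) {y : A} (hy : y ∈ I) : ∀ n : ℕ, (1 + y) ^ p ^ n - 1 ∈ I ^ (n + 1)
  | 0 => by simpa using hy
  | n + 1 => by
    have hz := one_add_pow_sub_mem hp hpI hy n
    set z := (1 + y) ^ p ^ n - 1 with hzdef
    have he : (1 + y) ^ p ^ (n + 1) = (1 + z) ^ p := by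
      rw [pow_succ, pow_mul, hzdef, add_sub_cancel]
    obtain ⟨r, hr⟩ := exists_add_pow_prime_eq hp (1 : A) z
    rw [he, hr, one_pow, show 1 + z ^ p + (p : A) * 1 * z * r - 1 = z ^ p + (p : A) * z * r by ring,
      pow_succ I (n + 1)]
    refine add_mem ?_ ?_
    · rw [← Nat.sub_add_cancel hp.two_le, pow_add z, sq]
      refine Ideal.mul_mem_left _ _ (Ideal.mul_mem_mul hz ?_)
      exact Ideal.pow_le_self n.succ_ne_zero hz
    · rw [mul_comm (p : A) z]
      exact Ideal.mul_mem_right _ _ (Ideal.mul_mem_mul hz hpI)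

/-- Reduction of truncated coefficients to `O`. -/
def toBase' (r m : ℕ) : MvPowerSeries (Fin r) O ⧸ maximalIdeal (MvPowerSeries (Fin r) O) ^ m →+*
    O ⧸ maximalIdeal O ^ m :=
  Ideal.quotientMap _ MvPowerSeries.constantCoeff <| by
    rw [← Ideal.map_le_iff_le_comap, Ideal.map_pow]
    refine Ideal.pow_right_mono (Ideal.map_le_iff_le_comap.2 fun f hf => ?_) m
    rw [Ideal.mem_comap, mem_maximalIdeal, mem_nonunits_iff]
    rw [mem_maximalIdeal, mem_nonunits_iff, MvPowerSeries.isUnit_iff_constantCoeff] at hf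
    exact hf

/-- The coefficient map of a level. -/
theorem exists_coefHom {S : Setup p O} (X : Aux S) (e : ZMod p ≃+* ResidueField O) {r : ℕ}
    (eQ : Fin r ≃ X.Q) {n m : ℕ} (hn : m ≤ n)
    (hq : ∀ q ∈ X.Q, p ^ n ∣ q - 1) :
    ∃ (c : ∀ q : X.Q, (ZMod (q : ℕ))ˣ)
      (L : X.Coef →ₐ[O] MvPowerSeries (Fin r) O ⧸ maximalIdeal (MvPowerSeries (Fin r) O) ^ m),
      (∀ j, L (MonoidAlgebra.of O X.Dia (X.halfAt _ (eQ j).2 (c (eQ j))) +
          MonoidAlgebra.of O X.Dia (X.halfAt _ (eQ j).2 (c (eQ j)))⁻¹) - 2 =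
        Ideal.Quotient.mk _ (Frame.wFun r j)) ∧
      ∀ a, toBase' r m (L a) = Ideal.Quotient.mk _ (X.aug a) := by
  classical
  set A := MvPowerSeries (Fin r) O
  set C := A ⧸ maximalIdeal A ^ m
  let u : X.Q → C := fun q => Ideal.Quotient.mk _ (1 + MvPowerSeries.X (eQ.symm q))
  have hXm : ∀ j, (MvPowerSeries.X j : A) ∈ maximalIdeal A := fun j => by
    rw [mem_maximalIdeal, mem_nonunits_iff, MvPowerSeries.isUnit_iff_constantCoeff]
    simp
  have hpA : (p : A) ∈ maximalIdeal A := by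
    rw [mem_maximalIdeal, mem_nonunits_iff, MvPowerSeries.isUnit_iff_constantCoeff, map_natCast]
    exact (mem_maximalIdeal _).1 (natCast_p_mem e)
  have hu : ∀ q, u q ^ p ^ n = 1 := fun q => by
    rw [← map_one (Ideal.Quotient.mk (maximalIdeal A ^ m)), ← map_pow, Ideal.Quotient.eq]
    exact Ideal.pow_le_pow_right (by omega) (one_add_pow_sub_mem hp.out hpA (hXm _) n)
  obtain ⟨c, ψ, hψ, hψ1⟩ := exists_diaHom X hq u hu
  refine ⟨c, MonoidAlgebra.lift O C X.Dia ψ, fun j => ?_, ?_⟩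
  · set hh := X.halfAt _ (eQ j).2 (c (eQ j))
    have h1 : ψ hh = Ideal.Quotient.mk _ (1 + MvPowerSeries.X j) := by
      rw [hψ]; simp [u]
    have hunit : IsUnit (1 + MvPowerSeries.X j : A) :=
      MvPowerSeries.isUnit_iff_constantCoeff.2 (by simp)
    have h2 : ψ hh⁻¹ = Ideal.Quotient.mk _ (Ring.inverse (1 + MvPowerSeries.X j : A)) := by
      have e1 : ψ hh⁻¹ * ψ hh = 1 := by rw [← map_mul, inv_mul_cancel, map_one]
      rw [h1] at e1
      calc ψ hh⁻¹ = ψ hh⁻¹ * Ideal.Quotient.mk _ ((1 + MvPowerSeries.X j : A) *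
            Ring.inverse (1 + MvPowerSeries.X j)) := by
            rw [Ring.mul_inverse_cancel _ hunit, map_one, mul_one]
        _ = _ := by rw [map_mul, ← mul_assoc, e1, one_mul]
    rw [map_add, MonoidAlgebra.lift_of, MonoidAlgebra.lift_of, h1, h2,
      ← map_ofNat (Ideal.Quotient.mk (maximalIdeal A ^ m)) 2, ← map_add, ← map_sub, Frame.wFun]
    congr 1
    have h3 := Ring.mul_inverse_cancel _ hunit
    linear_combination (-(MvPowerSeries.X j : A) + 1) * h3
  · intro a
    set L := MonoidAlgebra.lift O C X.Dia ψ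
    let tb : C →+* O ⧸ maximalIdeal O ^ m := toBase' r m
    have key : tb (L a) = Ideal.Quotient.mk _ (X.aug a) := by
      induction a using MonoidAlgebra.induction_on with
      | of g =>
        rw [MonoidAlgebra.lift_of]
        have : X.aug (MonoidAlgebra.of O X.Dia g) = 1 := by
          simp [Aux.aug]
        rw [this, map_one]
        refine hψ1 tb.toMonoidHom (fun q => ?_) g
        show tb (u q) = 1
        rw [show tb (u q) = Ideal.Quotient.mk _
          (MvPowerSeries.constantCoeff (1 + MvPowerSeries.X (eQ.symm q) : A)) from rfl]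
        simp
      | add x y hx hy => simp only [map_add, hx, hy]
      | smul o x hx =>
        rw [map_smul L, map_smul X.aug, Algebra.smul_def, map_mul, hx, smul_eq_mul, map_mul]
        congr 1
    exact key

variable [Module.Finite ℤ_[p] O] [CharZero O]

theorem pow_four_aux {A B : Type} [CommRing A] [Ring B] (f : A →+* B) {ε z : A}
    (h : f ε ^ inertiaExp = 0) (hdvd : ε ∣ z) : f z ^ inertiaExp = 0 := by
  obtain ⟨w, rfl⟩ := hdvd
  rw [← map_pow, mul_pow, map_mul, map_pow, h, zero_mul]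

namespace Frame

variable {R : Residual p O} {out : Output R.S} (F : Frame R out)

omit [Module.Finite ℤ_[p] O] [CharZero O] in
theorem half_eq {A : Type} [CommRing A] [Algebra O A] : 2 * algebraMap O A F.h = 1 := by
  rw [← map_ofNat (algebraMap O A) 2, ← map_mul, F.two_h, map_one]

section Algebra

variable {X : Aux R.S} {L : LevelData X} (c : Conj L)
  (hc : ∀ σ, (c.ρ σ : M2 L.R).map L.red = rbM R σ)

/-- The eigenvalue defect of twisted inertia. -/
def defect (i : Fin R.S.T.card) : L.R :=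
  trGL (c.ρ (F.elt (R.tIdx i)).1) - algebraMap O L.R ((F.ζ : O) + (F.ζ⁻¹ : Oˣ))

omit [Module.Finite ℤ_[p] O] [CharZero O] in
theorem defect_pow (i : Fin R.S.T.card) : L.act true (F.defect c i) ^ inertiaExp = 0 := by
  obtain ⟨V, T, hV, h1, -, u, hu, hζ⟩ := F.g_spec _ (R.tIdx i).2
  have h := L.inertia_T_twisted _ (R.tIdx i).2 V hV T.σ T.σ_mem u hu
  rw [hζ, h1] at h
  rw [defect, map_sub, c.trGL_eq, AlgHom.commutes]
  exact h

include hc in
omit [CharZero O] in
theorem defect_dvd_minor (i : Fin R.S.T.card) (a b : Fin 3) :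
    F.defect c i ∣ F.yl c i a * F.xl c i b - F.yl c i b * F.xl c i a := by
  obtain ⟨htp, htM, z, hz⟩ := R.S.T_prime _ (R.tIdx i).2
  have hne : ((R.tIdx i : R.S.T) : ℕ) ≠ p := fun e => R.S.M0_not_dvd ((dvd_of_eq e.symm).trans htM)
  obtain ⟨V, T, hV, h1, h2, -⟩ := F.g_spec _ (R.tIdx i).2
  replace h1 : (T.σ : GG) = (F.elt (R.tIdx i)).1 := h1
  have hσ : (F.elt (R.tIdx i)).1 ∈ V.inertiaSubgroupIn ℚ := by rw [← h1]; exact T.σ_mem
  replace h2 : (T.φ : GG) = (F.elt (R.tIdx i)).2 := h2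
  have hφ : V.IsFrobeniusAt (F.elt (R.tIdx i)).2 ((R.tIdx i : R.S.T) : ℕ) := by
    rw [← h2]; exact T.φ_frob
  have hrel := c.tame_relation T R.e fun σ hσ => by
    rw [hc, rbM, R.rb_eq, R.unramified _ htp hne (Or.inr (R.tIdx i).2) V hV σ hσ, map_one,
      Units.val_one]
  rw [h1, h2] at hrel
  set q := Ideal.Quotient.mk (Ideal.span {F.defect c i})
  rw [← Ideal.mem_span_singleton, ← Ideal.Quotient.eq_zero_iff_mem, map_sub, map_mul, map_mul]
  have hS : ((c.ρ (F.elt (R.tIdx i)).1 : M2 L.R).map q) ^ p = 1 := by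
    refine pow_eq_one_of_trace (z := (F.ζ : O)) (z' := ((F.ζ⁻¹ : Oˣ) : O)) F.ζ.mul_inv F.ζ_inv_ne
      (by rw [← Units.val_pow_eq_pow_val, F.ζ_pow, Units.val_one]) ?_ ?_
    · rw [show ((c.ρ (F.elt (R.tIdx i)).1 : M2 L.R).map q).trace = q (trGL (c.ρ (F.elt (R.tIdx i)).1))
        from (AddMonoidHom.map_trace q.toAddMonoidHom _).symm, IsScalarTower.algebraMap_apply O L.R
        (L.R ⧸ Ideal.span {F.defect c i}), Ideal.Quotient.algebraMap_eq]
      exact Ideal.Quotient.eq.2 (Ideal.mem_span_singleton_self _)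
    · have h3 : (c.ρ (F.elt (R.tIdx i)).1 : M2 L.R).det = 1 :=
        c.det_inertia R.e htp hne hV hσ
      show ((c.ρ (F.elt (R.tIdx i)).1 : M2 L.R).map q).det = 1
      rw [← RingHom.mapMatrix_apply, ← RingHom.map_det, h3, map_one]
  have hcomm : (c.ρ (F.elt (R.tIdx i)).2 : M2 L.R).map q * (c.ρ (F.elt (R.tIdx i)).1 : M2 L.R).map q =
      (c.ρ (F.elt (R.tIdx i)).1 : M2 L.R).map q * (c.ρ (F.elt (R.tIdx i)).2 : M2 L.R).map q := by
    have h4 := congrArg q.mapMatrix hrel
    rw [map_mul, map_mul, map_pow] at h4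
    simp only [RingHom.mapMatrix_apply] at h4
    have h5 : ((R.tIdx i : R.S.T) : ℕ) = p * z + 1 := by
      have := htp.one_le
      omega
    rw [h4, h5, pow_succ, pow_mul]
    erw [hS]
    rw [one_pow, one_mul]
  rw [show q (F.yl c i a) = coords (q (algebraMap O L.R F.h)) _ a from map_coords q _ _ a,
    show q (F.xl c i b) = coords (q (algebraMap O L.R F.h)) _ b from map_coords q _ _ b,
    show q (F.yl c i b) = coords (q (algebraMap O L.R F.h)) _ b from map_coords q _ _ b,
    show q (F.xl c i a) = coords (q (algebraMap O L.R F.h)) _ a from map_coords q _ _ a]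
  exact minor_eq_zero hcomm a b

omit [Module.Finite ℤ_[p] O] [CharZero O] in
theorem defect_dvd_curve (i : Fin R.S.T.card) :
    F.defect c i ∣ P5.qf (F.xl c i) - algebraMap O L.R (F.delta ^ 2) := by
  obtain ⟨htp, htM, -⟩ := R.S.T_prime _ (R.tIdx i).2
  have hne : ((R.tIdx i : R.S.T) : ℕ) ≠ p := fun e => R.S.M0_not_dvd ((dvd_of_eq e.symm).trans htM)
  obtain ⟨V, T, hV, h1, -⟩ := F.g_spec _ (R.tIdx i).2
  replace h1 : (T.σ : GG) = (F.elt (R.tIdx i)).1 := h1
  have hσ : (F.elt (R.tIdx i)).1 ∈ V.inertiaSubgroupIn ℚ := by rw [← h1]; exact T.σ_mem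
  have hdet : (c.ρ (F.elt (R.tIdx i)).1 : M2 L.R).det = 1 :=
    c.det_inertia R.e htp hne hV hσ
  set s := algebraMap O L.R ((F.ζ : O) + (F.ζ⁻¹ : Oˣ)) with hs
  have hdelta : F.delta ^ 2 = F.h ^ 2 * ((F.ζ : O) + (F.ζ⁻¹ : Oˣ)) ^ 2 - 1 := by
    rw [delta]
    linear_combination (-4 * F.h ^ 2) * F.ζ.mul_inv + (-(2 * F.h + 1)) * F.two_h
  refine ⟨algebraMap O L.R F.h ^ 2 * (trGL (c.ρ (F.elt (R.tIdx i)).1) + s), ?_⟩
  show P5.qf (coords (algebraMap O L.R F.h) (c.ρ (F.elt (R.tIdx i)).1 : M2 L.R)) - _ = _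
  rw [qf_coords F.half_eq, hdet, hdelta, defect, ← hs, map_sub, map_mul, map_pow, map_pow, map_one,
    ← hs]
  ring

include hc in
theorem act_plain (i : Fin R.S.T.card) (l : Fin 3) :
    L.act false ((P5.qf (F.yl c i) - algebraMap O L.R (F.cst i)) * F.xl c i l) = 0 := by
  obtain ⟨htp, htM, -⟩ := R.S.T_prime _ (R.tIdx i).2
  have hne : ((R.tIdx i : R.S.T) : ℕ) ≠ p := fun e => R.S.M0_not_dvd ((dvd_of_eq e.symm).trans htM)
  obtain ⟨V, T, hV, h1, h2, -⟩ := F.g_spec _ (R.tIdx i).2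
  replace h1 : (T.σ : GG) = (F.elt (R.tIdx i)).1 := h1
  have hσ : (F.elt (R.tIdx i)).1 ∈ V.inertiaSubgroupIn ℚ := by rw [← h1]; exact T.σ_mem
  replace h2 : (T.φ : GG) = (F.elt (R.tIdx i)).2 := h2
  have hφ : V.IsFrobeniusAt (F.elt (R.tIdx i)).2 ((R.tIdx i : R.S.T) : ℕ) := by
    rw [← h2]; exact T.φ_frob
  have hrel := c.tame_relation T R.e fun σ hσ => by
    rw [hc, rbM, R.rb_eq, R.unramified _ htp hne (Or.inr (R.tIdx i).2) V hV σ hσ, map_one,
      Units.val_one]
  rw [h1, h2] at hrel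
  haveI := free_base X L false
  haveI := finite_base X L false
  let f : L.R →ₐ[O] (L.act false).range := (L.act false).rangeRestrict
  letI : CommRing (L.act false).range :=
    { (inferInstance : Ring (L.act false).range) with
      mul_comm := by
        rintro ⟨_, a, rfl⟩ ⟨_, b, rfl⟩
        exact Subtype.ext (show L.act false a * L.act false b = L.act false b * L.act false a by
          rw [← map_mul, ← map_mul, mul_comm]) }
  have htors : ∀ n : ℤ, n ≠ 0 → ∀ x : (L.act false).range,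
      ((n : ℤ) : (L.act false).range) * x = 0 → x = 0 := fun n hn x hx => by
    refine Subtype.ext (LinearMap.ext fun v => ?_)
    have h3 : (n : O) • (x : Module.End X.Coef (L.M false)) v = 0 := by
      have := LinearMap.congr_fun (congrArg Subtype.val hx) v
      rw [Subalgebra.coe_mul, SubringClass.coe_intCast, Module.End.mul_apply,
        Module.End.intCast_apply] at this
      rwa [Int.cast_smul_eq_zsmul]
    exact (smul_eq_zero.1 h3).resolve_left (Int.cast_ne_zero.2 hn)
  have hdS : (c.ρ (F.elt (R.tIdx i)).1 : M2 L.R).det = 1 :=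
    c.det_inertia R.e htp hne hV hσ
  have hdΦ : (c.ρ (F.elt (R.tIdx i)).2 : M2 L.R).det = (((R.tIdx i : R.S.T) : ℕ) : L.R) :=
    c.det_frobenius R.e htp hne hV hφ
  have htr : f (c.ρ (F.elt (R.tIdx i)).1 : M2 L.R).trace = 2 := Subtype.ext (by
    show L.act false (trGL (c.ρ (F.elt (R.tIdx i)).1)) = _
    rw [c.trGL_eq]
    exact (L.inertia_T_untwisted _ (R.tIdx i).2 V hV _ hσ).1)
  have h4 := plain_eq_zero (A := (L.act false).range) (h := f (algebraMap O L.R F.h))
    (by rw [← map_ofNat f 2, ← map_mul, F.half_eq, map_one]) (t := ((R.tIdx i : R.S.T) : ℕ))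
    (fun x hx => htors (1 - ((R.tIdx i : R.S.T) : ℕ)) (by have := htp.two_le; omega) x (by push_cast; exact hx))
    (fun x hx => htors (4 * ((R.tIdx i : R.S.T) : ℕ)) (by have := htp.two_le; omega) x (by push_cast; exact hx))
    (Φ := (c.ρ (F.elt (R.tIdx i)).2 : M2 L.R).map f)
    (S := (c.ρ (F.elt (R.tIdx i)).1 : M2 L.R).map f)
    (by rw [← htr]; simp [Matrix.trace_fin_two])
    (by rw [← AlgHom.mapMatrix_apply, ← AlgHom.map_det, hdS, map_one])
    (by rw [← AlgHom.mapMatrix_apply, ← AlgHom.map_det, hdΦ, map_natCast])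
    (by
      have := congrArg f.mapMatrix hrel
      rw [map_mul, map_mul, map_pow] at this
      exact this) l
  refine congrArg Subtype.val (a₁ := f _) (a₂ := 0) ?_
  rw [map_mul, map_sub, show f (F.xl c i l) = coords (f (algebraMap O L.R F.h)) _ l from
      map_coords f.toRingHom _ _ l, ← h4]
  congr 1
  have hy : (fun a => f (F.yl c i a)) = coords (f (algebraMap O L.R F.h))
      ((c.ρ (F.elt (R.tIdx i)).2 : M2 L.R).map f) :=
    funext fun a => map_coords f.toRingHom _ _ a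
  rw [show f (P5.qf (F.yl c i)) = P5.qf fun a => f (F.yl c i a) from P5.map_qf f.toRingHom _, hy,
    cst, map_pow, map_pow, map_mul, map_mul, map_sub, map_sub, map_natCast, map_natCast, map_one,
    map_one]

end Algebra

end Frame

end FLTAgent.Lowering.P6
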