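import Fermat.Agent.Lowering.P6.Frame
import Fermat.Agent.Lowering.P6.Eval
import Fermat.Agent.Lowering.P5.Interface

/-!
# The local model inside the algebra of a level

The coordinates at the primes to be removed, with enough further generators, map the local model
onto the algebra of a level modulo a power of the maximal ideal of `O`.
-/

set_option autoImplicit false
set_option linter.style.haveILetI false

noncomputable section

open IsLocalRing

namespace FLTAgent.Lowering.P6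

local notation "LL" => AlgebraicClosure ℚ
local notation "GG" => (AlgebraicClosure ℚ ≃ₐ[ℚ] AlgebraicClosure ℚ)
local notation "M2" => Matrix (Fin 2) (Fin 2)

variable {p : ℕ} [hp : Fact p.Prime] {O : Type} [CommRing O] [IsDomain O]
  [IsDiscreteValuationRing O] [Algebra ℤ_[p] O]

theorem coords_red_eq_zero {R : Type} [CommRing R] {k : Type} [CommRing k] (f : R →+* k) (h : R)
    {M : M2 R} {a : k} (hM : M.map f = a • (1 : M2 k)) (i : Fin 3) : f (coords h M i) = 0 := by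
  rw [map_coords f h M i, hM]
  fin_cases i <;> simp [coords]

namespace Frame

variable {R : Residual p O} {out : Output R.S} (F : Frame R out) {X : Aux R.S} {L : LevelData X}
  (c : Conj L)

/-- The coordinates of inertia at a level. -/
def xl (i : Fin R.S.T.card) (l : Fin 3) : L.R :=
  coords (algebraMap O L.R F.h) (c.ρ (F.elt (R.tIdx i)).1 : M2 L.R) l

/-- The coordinates of Frobenius at a level. -/
def yl (i : Fin R.S.T.card) (l : Fin 3) : L.R :=
  coords (algebraMap O L.R F.h) (c.ρ (F.elt (R.tIdx i)).2 : M2 L.R) l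

theorem residual_sigma (hc : ∀ σ, (c.ρ σ : M2 L.R).map L.red = rbM R σ) (t : ℕ) (ht : t ∈ R.S.T) :
    (c.ρ (F.g t ht).1 : M2 L.R).map L.red = 1 := by
  obtain ⟨V, T, hV, h1, -, -⟩ := F.g_spec t ht
  obtain ⟨htp, htM, -⟩ := R.S.T_prime t ht
  have hne : t ≠ p := fun e => R.S.M0_not_dvd (e ▸ htM)
  rw [hc, rbM, R.rb_eq, ← h1, R.unramified t htp hne (Or.inr ht) V hV _ T.σ_mem, map_one,
    Units.val_one]

theorem residual_phi (hc : ∀ σ, (c.ρ σ : M2 L.R).map L.red = rbM R σ) (t : ℕ) (ht : t ∈ R.S.T) :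
    ∃ a : O, (c.ρ (F.g t ht).2 : M2 L.R).map L.red = residue O a • (1 : M2 (ResidueField O)) := by
  obtain ⟨V, T, hV, -, h2, -⟩ := F.g_spec t ht
  obtain ⟨a, ha⟩ := R.scalar t ht V hV _ T.φ_frob
  obtain ⟨b, hb⟩ := residue_surjective (R.e a)
  refine ⟨b, ?_⟩
  rw [hc, rbM, R.rb_eq, ← h2]
  show (R.D.rb (T.φ : GG) : M2 (ZMod p)).map R.e.toRingHom = _
  rw [ha, hb]
  ext i j
  by_cases h : i = j
  · subst h; simp
  · simp [Matrix.one_apply_ne h]

theorem hbar [Module.Finite ℤ_[p] O] (hc : ∀ σ, (c.ρ σ : M2 L.R).map L.red = rbM R σ) (t : ℕ)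
    (ht : t ∈ R.S.T) : ∀ x ∈ [(F.g t ht).1, (F.g t ht).2], ∃ (a : O) (n : ℕ),
      residue O (n : O) ≠ 0 ∧ detGL (c.ρ x) = (n : L.R) ∧
        (c.ρ x : M2 L.R).map L.red = residue O a • (1 : M2 (ResidueField O)) := by
  obtain ⟨htp, htM, hdvd⟩ := R.S.T_prime t ht
  have hne : t ≠ p := fun e => R.S.M0_not_dvd (e ▸ htM)
  obtain ⟨V, T, hV, h1, h2, -⟩ := F.g_spec t ht
  intro x hx
  simp only [List.mem_cons, List.not_mem_nil, or_false] at hx
  rcases hx with rfl | rfl
  · refine ⟨1, 1, by simp, ?_, by rw [F.residual_sigma c hc t ht, map_one, one_smul]⟩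
    rw [Nat.cast_one]
    exact c.det_inertia R.e htp hne hV (h1 ▸ T.σ_mem)
  · obtain ⟨a, ha⟩ := F.residual_phi c hc t ht
    refine ⟨a, t, fun h => ?_, c.det_frobenius R.e htp hne hV (h2 ▸ T.φ_frob), ha⟩
    rw [residue_eq_zero_iff] at h
    obtain ⟨z, hz⟩ := hdvd
    have h3 : ((t - 1 : ℕ) : O) ∈ maximalIdeal O := by
      rw [hz, Nat.cast_mul]; exact Ideal.mul_mem_right _ _ (natCast_p_mem R.e)
    rw [Nat.cast_sub htp.one_le, Nat.cast_one] at h3
    have := sub_mem h h3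
    rw [sub_sub_cancel] at this
    exact (maximalIdeal.isMaximal O).ne_top ((Ideal.eq_top_iff_one _).2 this)

theorem red_coord_eq_zero [Module.Finite ℤ_[p] O]
    (hc : ∀ σ, (c.ρ σ : M2 L.R).map L.red = rbM R σ) (t : ℕ) (ht : t ∈ R.S.T) :
    ∀ x ∈ [(F.g t ht).1, (F.g t ht).2], ∀ l,
      coords (algebraMap O L.R F.h) (c.ρ x : M2 L.R) l ∈ maximalIdeal L.R := by
  intro x hx l
  obtain ⟨a, n, -, -, hr⟩ := F.hbar c hc t ht x hx
  rw [← red_eq_zero_iff L.red]
  exact coords_red_eq_zero L.red.toRingHom _ hr l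

theorem xl_mem [Module.Finite ℤ_[p] O] (hc : ∀ σ, (c.ρ σ : M2 L.R).map L.red = rbM R σ)
    (i : Fin R.S.T.card) (l : Fin 3) : F.xl c i l ∈ maximalIdeal L.R :=
  F.red_coord_eq_zero c hc _ (R.tIdx i).2 _ (by simp [elt]) l

theorem yl_mem [Module.Finite ℤ_[p] O] (hc : ∀ σ, (c.ρ σ : M2 L.R).map L.red = rbM R σ)
    (i : Fin R.S.T.card) (l : Fin 3) : F.yl c i l ∈ maximalIdeal L.R :=
  F.red_coord_eq_zero c hc _ (R.tIdx i).2 _ (by simp [elt]) l

/-- The map from the local model onto a level modulo a power of the maximal ideal of `O`. -/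
theorem exists_levelMap [Module.Finite ℤ_[p] O]
    (hc : ∀ σ, (c.ρ σ : M2 L.R).map L.red = rbM R σ) {g : ℕ}
    [FiniteDimensional (ResidueField O) ↥(tangent R L c.ρ F.g)]
    (hg : Module.finrank (ResidueField O) ↥(tangent R L c.ρ F.g) ≤ g) {m : ℕ} (hm : m ≠ 0) :
    ∃ φ : P5.Loc O R.S.T.card g →ₐ[O]
        L.R ⧸ (maximalIdeal O ^ m).map (algebraMap O L.R),
      (∀ i l, φ (P5.Xc i l) = Ideal.Quotient.mk _ (F.xl c i l)) ∧
      (∀ i l, φ (P5.Yc i l) = Ideal.Quotient.mk _ (F.yl c i l)) ∧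
      ∀ z ∈ maximalIdeal L.R, ∃ x ∈ maximalIdeal (P5.Loc O R.S.T.card g),
        φ x = Ideal.Quotient.mk _ z := by
  classical
  haveI := L.finite_R
  haveI := isNoetherianRing_level L
  set I : Ideal L.R := (maximalIdeal O ^ m).map (algebraMap O L.R)
  have hOm : (maximalIdeal O).map (algebraMap O L.R) ≤ maximalIdeal L.R := by
    rw [Ideal.map_le_iff_le_comap]
    intro a ha
    rw [Ideal.mem_comap, ← red_eq_zero_iff L.red, AlgHom.commutes]
    exact (residue_eq_zero_iff a).2 ha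
  have hIm : I ≤ maximalIdeal L.R :=
    (Ideal.map_mono (Ideal.pow_le_self hm)).trans hOm
  have hpI : (p : L.R) ^ m ∈ I := by
    rw [← map_natCast (algebraMap O L.R), ← map_pow]
    exact Ideal.mem_map_of_mem _ (Ideal.pow_mem_pow (natCast_p_mem R.e) m)
  haveI : Finite (L.R ⧸ I) := finite_quotient (O := O) hpI
  haveI : Nontrivial (L.R ⧸ I) := Ideal.Quotient.nontrivial_iff.2 fun h =>
    (maximalIdeal.isMaximal L.R).ne_top (top_le_iff.mp (h ▸ hIm))
  haveI : IsLocalRing (L.R ⧸ I) :=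
    IsLocalRing.of_surjective' (Ideal.Quotient.mk I) Ideal.Quotient.mk_surjective
  obtain ⟨v, hv, hgen⟩ := exists_generators R L c.ρ F.g (algebraMap O L.R F.h)
    (by rw [← map_ofNat (algebraMap O L.R) 2, ← map_mul, F.two_h, map_one]) (F.hbar c hc) hg
  let x : P5.LocVar R.S.T.card g → L.R ⧸ I := fun w => Ideal.Quotient.mk I <|
    match w with
    | Sum.inl (i, l) => F.xl c i l
    | Sum.inr (Sum.inl (i, l)) => F.yl c i l + P5.shift (F.xl c i) l
    | Sum.inr (Sum.inr l) => v l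
  set 𝔪 := (maximalIdeal L.R).map (Ideal.Quotient.mk I)
  have hx : ∀ w, x w ∈ 𝔪 := by
    rintro (⟨i, l⟩ | ⟨i, l⟩ | l) <;> refine Ideal.mem_map_of_mem _ ?_
    · exact F.xl_mem c hc i l
    · refine add_mem (F.yl_mem c hc i l) ?_
      fin_cases l <;> simp [P5.shift, F.xl_mem c hc i]
    · exact hv l
  obtain ⟨N, hN⟩ := IsArtinianRing.isNilpotent_jacobson_bot (R := L.R ⧸ I)
  rw [IsLocalRing.jacobson_eq_maximalIdeal ⊥ bot_ne_top] at hN
  have h𝔪 : 𝔪 ≤ maximalIdeal (L.R ⧸ I) := by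
    rw [Ideal.map_le_iff_le_comap]
    exact le_of_eq (IsLocalRing.eq_maximalIdeal (Ideal.comap_isMaximal_of_surjective
      (Ideal.Quotient.mk I) Ideal.Quotient.mk_surjective)).symm
  have hN' : 𝔪 ^ N = ⊥ := eq_bot_iff.2 ((Ideal.pow_right_mono h𝔪 N).trans hN.le)
  obtain ⟨φ, hφ⟩ := exists_evalHom (O := O) x hx hN'
  have hX : ∀ i l, φ (P5.Xc i l) = Ideal.Quotient.mk I (F.xl c i l) := fun i l =>
    hφ (Sum.inl (i, l))
  have hshift : ∀ i l, φ (P5.shift (P5.Xc i) l) =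
      Ideal.Quotient.mk I (P5.shift (F.xl c i) l) := fun i l => by
    fin_cases l <;> simp [P5.shift, hX]
  have hU : ∀ i l, φ (P5.Uc i l) = Ideal.Quotient.mk I (F.yl c i l + P5.shift (F.xl c i) l) :=
    fun i l => hφ (Sum.inr (Sum.inl (i, l)))
  have hY : ∀ i l, φ (P5.Yc i l) = Ideal.Quotient.mk I (F.yl c i l) := fun i l => by
    rw [P5.Yc, map_sub, hU, hshift, map_add, add_sub_cancel_right]
  refine ⟨φ, hX, hY, fun z hz => ?_⟩
  -- the generators span the maximal ideal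
  set s : Set (L.R ⧸ I) :=
    Set.range x ∪ (algebraMap O (L.R ⧸ I)) '' (maximalIdeal O : Set O)
  have hgen' : maximalIdeal L.R ≤ (Ideal.span s).comap (Ideal.Quotient.mk I) := by
    refine hgen _ ?_ (fun l => Ideal.subset_span (Or.inl ⟨Sum.inr (Sum.inr l), rfl⟩)) ?_
    · rw [Ideal.map_le_iff_le_comap]
      exact fun a ha => Ideal.subset_span (Or.inr ⟨a, ha, rfl⟩)
    · intro t ht y hy l
      obtain ⟨i, hi⟩ : ∃ i, R.tIdx i = ⟨t, ht⟩ :=
        ⟨R.S.T.equivFin ⟨t, ht⟩, R.S.T.equivFin.symm_apply_apply _⟩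
      have hxmem : ∀ l, Ideal.Quotient.mk I (F.xl c i l) ∈ Ideal.span s :=
        fun l => Ideal.subset_span (Or.inl ⟨Sum.inl (i, l), rfl⟩)
      have he : F.elt (R.tIdx i) = F.g t ht := by rw [hi]; rfl
      simp only [List.mem_cons, List.not_mem_nil, or_false] at hy
      rcases hy with rfl | rfl
      · have := hxmem l
        rwa [xl, he] at this
      · have h1 : Ideal.Quotient.mk I (F.yl c i l + P5.shift (F.xl c i) l) ∈ Ideal.span s :=
          Ideal.subset_span (Or.inl ⟨Sum.inr (Sum.inl (i, l)), rfl⟩)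
        have h2 : Ideal.Quotient.mk I (P5.shift (F.xl c i) l) ∈ Ideal.span s := by
          fin_cases l <;> simp [P5.shift, hxmem]
        have h3 := sub_mem h1 h2
        rw [← map_sub, add_sub_cancel_right, yl, he] at h3
        exact h3
  have hsurj : Function.Surjective φ := by
    have hs : Ideal.span s ≤ 𝔪 := Ideal.span_le.2 (by
      rintro _ (⟨w, rfl⟩ | ⟨a, ha, rfl⟩)
      · exact hx w
      · exact Ideal.mem_map_of_mem _ (hOm (Ideal.mem_map_of_mem _ ha)))
    refine surjective_of_generate φ s ?_ (fun a => ?_)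
      (eq_bot_iff.2 ((Ideal.pow_right_mono hs N).trans hN'.le))
    · rintro _ (⟨w, rfl⟩ | ⟨a, -, rfl⟩)
      · exact ⟨_, hφ w⟩
      · exact ⟨_, φ.commutes a⟩
    · obtain ⟨b, rfl⟩ := Ideal.Quotient.mk_surjective a
      obtain ⟨o, ho⟩ := residue_surjective (L.red b)
      refine ⟨o, ?_⟩
      rw [IsScalarTower.algebraMap_apply O L.R (L.R ⧸ I), Ideal.Quotient.algebraMap_eq, ← map_sub]
      exact hgen' ((red_eq_zero_iff L.red _).1 (by
        rw [map_sub, AlgHom.commutes, ← ho]; exact sub_self _))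
  obtain ⟨w, hw⟩ := hsurj (Ideal.Quotient.mk I z)
  refine ⟨w, fun hu => ?_, hw⟩
  have h1 := hu.map φ
  rw [hw] at h1
  exact (mem_maximalIdeal _).1 (h𝔪 (Ideal.mem_map_of_mem _ hz)) h1

end Frame

end FLTAgent.Lowering.P6
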