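import Fermat.Agent.Lowering.P6.LevelBuild

/-!
# Assembly of the levels
-/

set_option autoImplicit false
set_option linter.style.haveILetI false

noncomputable section

open IsLocalRing

namespace FLTAgent.Lowering.P6

local notation "LL" => AlgebraicClosure ℚ
local notation "GG" => (AlgebraicClosure ℚ ≃ₐ[ℚ] AlgebraicClosure ℚ)
local notation "M2" => Matrix (Fin 2) (Fin 2)

variable {p : ℕ} [hp : Fact p.Prime] {O : Type} [CommRing O] [IsDomain O]
  [IsDiscreteValuationRing O] [Algebra ℤ_[p] O] [Module.Finite ℤ_[p] O] [CharZero O]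
  {R : Residual p O} {out : Output R.S}

omit [Module.Finite ℤ_[p] O] [CharZero O] in
theorem res_surjective {X : Aux R.S} (hX : Geometry X) :
    Function.Surjective (out.res X hX) := by
  intro y
  have hy : y ∈ Algebra.adjoin O (Set.range fun σ => trGL (out.base.ρ σ)) :=
    out.base.generated ▸ Algebra.mem_top
  induction hy using Algebra.adjoin_induction with
  | mem z hz => obtain ⟨σ, rfl⟩ := hz; exact ⟨_, out.res_trace X hX σ⟩
  | algebraMap a => exact ⟨_, (out.res X hX).commutes a⟩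
  | add z w _ _ hz hw =>
    obtain ⟨a, rfl⟩ := hz; obtain ⟨b, rfl⟩ := hw; exact ⟨a + b, map_add _ _ _⟩
  | mul z w _ _ hz hw =>
    obtain ⟨a, rfl⟩ := hz; obtain ⟨b, rfl⟩ := hw; exact ⟨a * b, map_mul _ _ _⟩

omit [Module.Finite ℤ_[p] O] [CharZero O] in
theorem red_res {X : Aux R.S} (hX : Geometry X) (x : (out.level X hX).R) :
    out.base.red (out.res X hX x) = (out.level X hX).red x := by
  have hx : x ∈ Algebra.adjoin O (Set.range fun σ => trGL ((out.level X hX).ρ σ)) :=
    (out.level X hX).generated ▸ Algebra.mem_top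
  induction hx using Algebra.adjoin_induction with
  | mem z hz =>
    obtain ⟨σ, rfl⟩ := hz
    rw [out.res_trace, out.base.residual, (out.level X hX).residual]
  | algebraMap a => rw [AlgHom.commutes, AlgHom.commutes, AlgHom.commutes]
  | add z w _ _ hz hw => simp only [map_add, hz, hw]
  | mul z w _ _ hz hw => simp only [map_mul, hz, hw]

namespace Frame

variable (F : Frame R out)

omit [Module.Finite ℤ_[p] O] [CharZero O] in
/-- A conjugate at a level carried exactly to the representation of the base. -/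
theorem exists_conj_over {X : Aux R.S} (hX : Geometry X) :
    ∃ c : Conj (out.level X hX), (∀ σ, (c.ρ σ : M2 (out.level X hX).R).map (out.level X hX).red =
        rbM R σ) ∧
      ∀ σ i j, out.res X hX ((c.ρ σ : M2 (out.level X hX).R) i j) =
        (F.base.ρ σ : M2 out.base.R) i j := by
  classical
  set L := out.level X hX
  set res := out.res X hX
  obtain ⟨c₁, hc₁⟩ := exists_conj_lift R L
  let r₁ : GG →* M2 out.base.R :=
    res.toRingHom.mapMatrix.toMonoidHom.comp ((Units.coeHom _).comp c₁.ρ)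
  let r₂ : GG →* M2 out.base.R := (Units.coeHom _).comp F.base.ρ
  have h₁ : Deformation.SpansResidue r₁ := spansResidue_of_red R.S out.base.red r₁ fun σ => by
    ext i j
    show out.base.red (res ((c₁.ρ σ : M2 L.R) i j)) = _
    rw [red_res, ← Matrix.map_apply (f := L.red) (M := (c₁.ρ σ : M2 L.R)), hc₁]
    rfl
  obtain ⟨P, hP, hPeq⟩ := Deformation.exists_conj_of_trace_eq' r₁ r₂ h₁ fun σ => by
    show Matrix.trace ((c₁.ρ σ : M2 L.R).map res) = trGL (F.base.ρ σ)
    rw [F.base.trGL_eq, ← out.res_trace X hX σ, ← c₁.trGL_eq]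
    exact (AddMonoidHom.map_trace res.toAddMonoidHom _).symm
  choose Q hQ using fun i j => res_surjective hX (P i j)
  have hPQ : res.toRingHom.mapMatrix (Matrix.of Q) = P := by ext i j; exact hQ i j
  have hQu : IsUnit (Matrix.of Q) := by
    rw [Matrix.isUnit_iff_isUnit_det, ← IsLocalRing.notMem_maximalIdeal, ← red_eq_zero_iff L.red,
      ← red_res, red_eq_zero_iff, IsLocalRing.notMem_maximalIdeal]
    rw [show res (Matrix.of Q).det = P.det by rw [← hPQ]; exact res.toRingHom.map_det _]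
    exact (Matrix.isUnit_iff_isUnit_det P).1 hP
  let c : Conj L := ⟨(MulAut.conj hQu.unit).toMonoidHom.comp c₁.ρ, hQu.unit * c₁.P, fun σ => by
    show hQu.unit * c₁.ρ σ * hQu.unit⁻¹ = _
    rw [c₁.eq, mul_inv_rev]
    simp only [mul_assoc]⟩
  have hover : ∀ σ, (c.ρ σ : M2 L.R).map res = (F.base.ρ σ : M2 out.base.R) := fun σ => by
    show res.toRingHom.mapMatrix ((hQu.unit * c₁.ρ σ * hQu.unit⁻¹ : GL (Fin 2) L.R) : M2 L.R) = _
    rw [Units.val_mul, Units.val_mul, map_mul, map_mul, hQu.unit_spec, hPQ,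
      show res.toRingHom.mapMatrix (c₁.ρ σ : M2 L.R) = r₁ σ from rfl, hPeq, mul_assoc, ← hPQ,
      ← map_mul, hQu.mul_val_inv, map_one, mul_one]
    rfl
  refine ⟨c, fun σ => ?_, fun σ i j => congrFun (congrFun (hover σ) i) j⟩
  rw [← F.base_red σ, ← hover σ, Matrix.map_map]
  ext i j
  exact (red_res hX _).symm

/-- The level. -/
theorem nonempty_level (r : ℕ) (hr : 3 * R.S.T.card ≤ r) {n m : ℕ} (hm : m ≠ 0) (hn : m ≤ n)
    {X : Aux R.S} (hX : Geometry X) (hcard : X.Q.card = r) (hq : ∀ q ∈ X.Q, p ^ n ∣ q - 1)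
    (htan : ∀ (ρ : GG →* GL (Fin 2) (out.level X hX).R),
      (∀ σ, trGL (ρ σ) = trGL ((out.level X hX).ρ σ)) →
      (∀ σ i j, (out.level X hX).red ((ρ σ : M2 (out.level X hX).R) i j) = rbM R σ i j) →
      ∀ (g : ∀ t ∈ R.S.T, GG × GG),
        (∀ t ht, ∃ (V : ValuationSubring LL) (T : TameGen p t V),
          V.LiesOverPrime t ∧ (T.σ : GG) = (g t ht).1 ∧ (T.φ : GG) = (g t ht).2) →
        FiniteDimensional (ResidueField O) ↥(tangent R (out.level X hX) ρ g) ∧
        Module.finrank (ResidueField O) ↥(tangent R (out.level X hX) ρ g) + 3 * R.S.T.card ≤ r) :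
    Nonempty ((F.params r hr).Level m) := by
  classical
  set L := out.level X hX
  set res := out.res X hX
  obtain ⟨c, hc, hover⟩ := F.exists_conj_over hX
  obtain ⟨hfd, hdim⟩ := htan c.ρ c.trGL_eq (fun σ i j => congrFun (congrFun (hc σ) i) j) F.g
    fun t ht => by
      obtain ⟨V, T, h1, h2, h3, -⟩ := F.g_spec t ht
      exact ⟨V, T, h1, h2, h3⟩
  haveI := hfd
  set I : Ideal L.R := (maximalIdeal O ^ m).map (algebraMap O L.R)
  obtain ⟨φ, hφX, hφY, hφξ⟩ := F.exists_levelMap c hc (g := r - 3 * R.S.T.card)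
    (Nat.le_sub_of_add_le hdim) hm
  obtain ⟨bs, hcongr, hbase⟩ := exists_matHom L out.base res (out.coinv X hX false)
    (out.coinv_surjective X hX false) (out.coinv_eq_zero_iff X hX false)
    (out.coinv_act X hX false) F.b0
  let eQ : Fin r ≃ X.Q := (Fintype.equivFinOfCardEq ((Fintype.card_coe X.Q).trans hcard)).symm
  obtain ⟨cq, ψ, hψ, hψaug⟩ := exists_coefHom X R.e eQ hn hq
  set C := MvPowerSeries (Fin r) O ⧸ maximalIdeal (MvPowerSeries (Fin r) O) ^ m
  let Ψ : Bool → L.R →ₐ[O] Matrix (Fin F.d) (Fin F.d) C :=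
    fun e => ψ.mapMatrix.comp (matHom L e (bs e))
  have hkill : ∀ e, ∀ x ∈ I, Ψ e x = 0 := by
    intro e
    show I ≤ RingHom.ker (Ψ e)
    rw [Ideal.map_le_iff_le_comap]
    intro a ha
    rw [Ideal.mem_comap, RingHom.mem_ker, AlgHom.commutes, Matrix.algebraMap_eq_diagonal]
    have h0 : algebraMap O C a = 0 := by
      show Ideal.Quotient.mk _ (MvPowerSeries.C a) = 0
      rw [Ideal.Quotient.eq_zero_iff_mem]
      have h1 : (maximalIdeal O).map (MvPowerSeries.C (σ := Fin r) (R := O)) ≤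
          maximalIdeal (MvPowerSeries (Fin r) O) := by
        rw [Ideal.map_le_iff_le_comap]
        intro b hb
        rw [Ideal.mem_comap, mem_maximalIdeal, mem_nonunits_iff,
          MvPowerSeries.isUnit_iff_constantCoeff, MvPowerSeries.constantCoeff_C]
        exact (mem_maximalIdeal _).1 hb
      have h2 := Ideal.mem_map_of_mem (MvPowerSeries.C (σ := Fin r) (R := O)) ha
      rw [Ideal.map_pow] at h2
      exact Ideal.pow_right_mono h1 m h2
    ext i j
    simp [Matrix.diagonal, h0]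
  let act : Bool → P5.Loc O R.S.T.card (r - 3 * R.S.T.card) →ₐ[O]
      Matrix (Fin F.d) (Fin F.d) C :=
    fun e => (Ideal.Quotient.liftₐ I (Ψ e) (hkill e)).comp φ
  have hact : ∀ e x z, φ x = Ideal.Quotient.mk I z → act e x = Ψ e z := fun e x z h => by
    show Ideal.Quotient.liftₐ I (Ψ e) (hkill e) (φ x) = _
    rw [h]
    rfl
  -- the elements of the auxiliary inertia groups
  have hσq : ∀ j : Fin r, ∃ σ : GG, L.red (trGL (c.ρ σ) - 2) = 0 ∧ ∀ e,
      (Ψ e (trGL (c.ρ σ) - 2) - algebraMap C (Matrix (Fin F.d) (Fin F.d) C)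
        (Ideal.Quotient.mk _ (wFun r j))) ^ inertiaExp = 0 := by
    intro j
    set q := ((eQ j : X.Q) : ℕ)
    have hqQ : q ∈ X.Q := (eQ j).2
    haveI : Fact q.Prime := ⟨X.prime q hqQ⟩
    haveI : NeZero q := ⟨(X.prime q hqQ).ne_zero⟩
    haveI : NeZero ((q : ℕ) : LL) := ⟨Nat.cast_ne_zero.2 (X.prime q hqQ).ne_zero⟩
    obtain ⟨z, hz⟩ := HasEnoughRootsOfUnity.exists_primitiveRoot LL q
    obtain ⟨V, hV⟩ := Frobenius.exists_liesOverPrime q (X.prime q hqQ)
    obtain ⟨σ, hσ, hσc⟩ := exists_inertia_autToPow hV hz (cq (eQ j))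
    refine ⟨σ, ?_, fun e => ?_⟩
    · rw [map_sub, map_ofNat, c.trGL_eq, L.residual,
        R.S.rb_unramified q (X.prime q hqQ) (X.notMem q hqQ) V hV σ hσ, sub_eq_zero]
      simp [trGL]
    have h := L.inertia_Q q hqQ V hV σ hσ (cq (eQ j)) (fun x hx => by
      obtain ⟨i, -, rfl⟩ := hz.eq_pow_of_pow_eq_one hx
      rw [map_pow, ← hz.autToPow_spec ℚ σ, hσc, ← pow_mul, ← pow_mul, mul_comm]) e
    set hh : X.Coef := MonoidAlgebra.of O X.Dia (X.halfAt q hqQ (cq (eQ j))) +
      MonoidAlgebra.of O X.Dia (X.halfAt q hqQ (cq (eQ j)))⁻¹ with hhh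
    let T : Module.End X.Coef (L.M e) →+* Matrix (Fin F.d) (Fin F.d) C :=
      ψ.toRingHom.mapMatrix.comp (LinearMap.toMatrixAlgEquiv (bs e)).toRingEquiv.toRingHom
    have hT : ∀ a : X.Coef, T (a • 1) = algebraMap C (Matrix (Fin F.d) (Fin F.d) C) (ψ a) := by
      intro a
      show ψ.toRingHom.mapMatrix (LinearMap.toMatrixAlgEquiv (bs e) (a • 1)) = _
      rw [map_smul, map_one, Matrix.algebraMap_eq_diagonal]
      ext i k
      by_cases hik : i = k
      · subst hik; simp
      · simp [Matrix.one_apply_ne hik, Matrix.diagonal_apply_ne _ hik]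
    have h2 := congrArg T h
    rw [map_pow, map_sub, hT, map_zero, ← c.trGL_eq] at h2
    rw [← hψ j, map_sub, map_sub, map_ofNat, map_ofNat]
    convert h2 using 2
    show Ψ e (trGL (c.ρ σ)) - 2 - (algebraMap C _ (ψ hh) - 2) = _
    rw [sub_sub_sub_cancel_right]
    rfl
  choose σq hσred hσw using hσq
  choose ξ hξm hξ using fun j => hφξ (trGL (c.ρ (σq j)) - 2)
    ((red_eq_zero_iff L.red _).1 (hσred j))
  have hminor : ∀ i a b, φ (P5.minor i a b) =
      Ideal.Quotient.mk I (F.yl c i a * F.xl c i b - F.yl c i b * F.xl c i a) := fun i a b => by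
    rw [P5.minor, map_sub, map_mul, map_mul, hφX, hφX, hφY, hφY, map_sub, map_mul, map_mul]
  have hqfX : ∀ i, φ (P5.qf (P5.Xc i)) = Ideal.Quotient.mk I (P5.qf (F.xl c i)) := fun i => by
    simp only [P5.qf, map_add, map_mul, map_pow, hφX]; rfl
  have hqfY : ∀ i, φ (P5.qf (P5.Yc i)) = Ideal.Quotient.mk I (P5.qf (F.yl c i)) := fun i => by
    simp only [P5.qf, map_add, map_mul, map_pow, hφY]; rfl
  have hC : ∀ o : O, φ (MvPowerSeries.C o) = Ideal.Quotient.mk I (algebraMap O L.R o) :=
    fun o => φ.commutes o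
  have hdef : ∀ i, Ψ true (F.defect c i) ^ inertiaExp = 0 := fun i => by
    show ψ.mapMatrix (LinearMap.toMatrixAlgEquiv (bs true) (L.act true (F.defect c i))) ^ _ = 0
    rw [← map_pow, ← map_pow, F.defect_pow c i, map_zero, map_zero]
  have hcongr' : ∀ x i j, act false x i j - act true x i j ∈
      (maximalIdeal O).map (algebraMap O C) := fun x i j => by
    obtain ⟨z, hz⟩ := Ideal.Quotient.mk_surjective (φ x)
    rw [hact _ x z hz.symm, hact _ x z hz.symm]
    show ψ (matHom L false (bs false) z i j) - ψ (matHom L true (bs true) z i j) ∈ _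
    rw [← map_sub]
    have h := Ideal.mem_map_of_mem ψ (hcongr z i j)
    rw [← Ideal.map_coe, Ideal.map_map, AlgHom.comp_algebraMap] at h
    exact h
  have hminor' : ∀ t a b, act true (P5.minor t a b) ^ inertiaExp = 0 := fun t a b => by
    rw [hact _ _ _ (hminor t a b)]
    exact pow_four_aux (Ψ true).toRingHom (hdef t) (F.defect_dvd_minor c hc t a b)
  have hcurve' : ∀ t, act true (P5.curveRel F.delta t) ^ inertiaExp = 0 := fun t => by
    rw [hact _ _ (P5.qf (F.xl c t) - algebraMap O L.R (F.delta ^ 2))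
      (by rw [P5.curveRel, map_sub, hqfX, hC, map_sub])]
    exact pow_four_aux (Ψ true).toRingHom (hdef t) (F.defect_dvd_curve c t)
  have hplain' : ∀ t l, act false (P5.plainRel (F.cst t) t l) ^ inertiaExp = 0 := fun t l => by
    rw [hact _ _ ((P5.qf (F.yl c t) - algebraMap O L.R (F.cst t)) * F.xl c t l)
      (by rw [P5.plainRel, map_mul, map_sub, hqfY, hC, hφX, map_mul, map_sub])]
    show ψ.mapMatrix (LinearMap.toMatrixAlgEquiv (bs false)
      (L.act false ((P5.qf (F.yl c t) - algebraMap O L.R (F.cst t)) * F.xl c t l))) ^ _ = 0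
    rw [F.act_plain c hc, map_zero, map_zero, zero_pow (by decide)]
  have hξ' : ∀ e j, (act e (ξ j) - algebraMap C (Matrix (Fin F.d) (Fin F.d) C)
      (Ideal.Quotient.mk _ (wFun r j))) ^ inertiaExp = 0 := fun e j => by
    rw [hact _ _ _ (hξ j)]
    exact hσw j e
  have hbase' : ∀ x, ∃ a ∈ F.baseAlg.range, ∀ i j,
      toBase' r m (act false x i j) = Ideal.Quotient.mk _ (a i j) := fun x => by
    obtain ⟨z, hz⟩ := Ideal.Quotient.mk_surjective (φ x)
    refine ⟨F.baseAlg (res z), ⟨_, rfl⟩, fun i j => ?_⟩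
    rw [hact _ x z hz.symm]
    show toBase' r m (ψ (matHom L false (bs false) z i j)) = _
    rw [hψaug, hbase]
    rfl
  have hbaseX : ∀ t l i j, toBase' r m (act false (P5.Xc t l) i j) = Ideal.Quotient.mk _
      (F.baseAlg (coords (algebraMap O out.base.R F.h)
        (F.base.ρ (F.elt (R.tIdx t)).1 : M2 out.base.R) l) i j) := fun t l i j => by
    rw [hact _ _ _ (hφX t l)]
    show toBase' r m (ψ (matHom L false (bs false) (F.xl c t l) i j)) = _
    rw [hψaug, hbase]
    congr 1
    show LinearMap.toMatrixAlgEquiv F.b0 (actO out.base false (res (F.xl c t l))) i j =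
      F.baseAlg (coords (algebraMap O out.base.R F.h) (F.base.ρ (F.elt (R.tIdx t)).1 : M2 out.base.R) l)
        i j
    rw [show res (F.xl c t l) = coords (res (algebraMap O L.R F.h))
      ((c.ρ (F.elt (R.tIdx t)).1 : M2 L.R).map res) l from map_coords res.toRingHom _ _ l,
      AlgHom.commutes, show (c.ρ (F.elt (R.tIdx t)).1 : M2 L.R).map res = F.base.ρ (F.elt (R.tIdx t)).1
        from Matrix.ext fun i j => hover _ i j]
    rfl
  exact ⟨{
    act := act
    congr := hcongr'
    minor_rel := hminor'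
    curve_rel := hcurve'
    plain_rel := hplain'
    ξ := ξ
    ξ_mem := hξm
    ξ_rel := hξ'
    base := hbase'
    base_X := hbaseX }⟩

end Frame

end FLTAgent.Lowering.P6
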