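import Fermat.Agent.Lowering.P6.Tame
import Fermat.Agent.Lowering.P6.Inertia
import Fermat.Agent.Frobenius.Exists

/-!
# The elements chosen at the primes to be removed

At each prime of `T` a place, a tame generator and a Frobenius element, the generator having the
same twisting value at all primes.
-/

set_option autoImplicit false
set_option linter.style.haveILetI false

noncomputable section

namespace FLTAgent.Lowering.P6

local notation "LL" => AlgebraicClosure ℚ
local notation "GG" => (AlgebraicClosure ℚ ≃ₐ[ℚ] AlgebraicClosure ℚ)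

variable {p : ℕ} [hp : Fact p.Prime]

/-- A power prime to `p` of a tame generator is a tame generator. -/
def TameGen.pow {t : ℕ} {V : ValuationSubring LL} (T : TameGen p t V) (j : ℕ) (hj : ¬ p ∣ j) :
    TameGen p t V where
  σ := T.σ ^ j
  φ := T.φ
  σ_mem := pow_mem T.σ_mem j
  φ_frob := T.φ_frob
  gen := by
    intro G _ _ f hf hpf
    obtain ⟨h1, h2, h3⟩ := T.gen f hf hpf
    obtain ⟨a, ha⟩ := hpf T.σ T.σ_mem
    obtain ⟨m, hm⟩ := exists_pow_eq_self_of_coprime (x := f T.σ) (n := j) (Nat.Coprime.coprime_dvd_right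
      (orderOf_dvd_of_pow_eq_one ha) (Nat.Coprime.pow_right a
        ((hp.out.coprime_iff_not_dvd.2 hj).symm)))
    rw [map_pow]
    have hmem : f T.σ ∈ Subgroup.zpowers (f T.σ ^ j) := ⟨m, by simpa using hm⟩
    refine ⟨fun τ hτ => ?_, fun τ => ?_, ?_⟩
    · exact (Subgroup.zpowers_le (H := Subgroup.zpowers (f T.σ ^ j))).2 hmem (h1 τ hτ)
    · refine (Subgroup.closure_le _).2 ?_ (h2 τ)
      rintro x (rfl | rfl)
      · obtain ⟨z, hz⟩ := hmem
        simp only at hz
        have h4 := Subgroup.zpow_mem (Subgroup.closure {f T.σ ^ j, f T.φ}) (Subgroup.subset_closure (Set.mem_insert _ _)) z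
        rwa [hz] at h4
      · exact Subgroup.subset_closure (Set.mem_insert_of_mem _ (Set.mem_singleton _))
    · rw [← pow_mul, mul_comm j t, pow_mul, ← h3, conj_pow]

variable {O : Type} [CommRing O] [IsDomain O] [IsDiscreteValuationRing O] [Algebra ℤ_[p] O]
  (S : Setup p O)

theorem pow_half_ne_one {M : Type*} [CommGroup M] {x : M} (hx : x ^ p = 1) (h1 : x ≠ 1) {m : ℕ}
    (hm : ¬ p ∣ m) : x ^ m ≠ 1 := fun h => h1 <| by
  have := pow_gcd_eq_one.2 (And.intro hx h)
  rwa [(hp.out.coprime_iff_not_dvd.2 hm).gcd_eq_one, pow_one] at this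

/-- The local choice. -/
theorem exists_local (hT : S.T.Nonempty) :
    ∃ ζ : Oˣ, ζ ^ p = 1 ∧ ζ ≠ 1 ∧ ∃ g : ∀ t ∈ S.T, GG × GG, ∀ t ht,
      ∃ (V : ValuationSubring LL) (T : TameGen p t V), V.LiesOverPrime t ∧
        (T.σ : GG) = (g t ht).1 ∧ (T.φ : GG) = (g t ht).2 ∧
        ∃ c : (ZMod t)ˣ, (∀ x : LL, x ^ t = 1 → (T.σ : GG) x = x ^ (c : ZMod t).val) ∧
          S.χ t ht c ^ ((p + 1) / 2) = ζ := by
  classical
  have hhalf : ¬ p ∣ (p + 1) / 2 := fun h => by
    have h1 := Nat.le_of_dvd (by have := hp.out.two_le; omega) h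
    have := S.p_gt
    omega
  obtain ⟨t₀, ht₀⟩ := hT
  obtain ⟨u₀, hu₀⟩ : ∃ u, S.χ t₀ ht₀ u ≠ 1 := by
    by_contra h
    push Not at h
    exact S.χ_ne t₀ ht₀ (MonoidHom.ext h)
  refine ⟨S.χ t₀ ht₀ u₀ ^ ((p + 1) / 2), ?_, pow_half_ne_one (S.χ_pow t₀ ht₀ u₀) hu₀ hhalf, ?_⟩
  · rw [← pow_mul, mul_comm, pow_mul, S.χ_pow, one_pow]
  have key : ∀ t ht, ∃ (V : ValuationSubring LL) (T : TameGen p t V), V.LiesOverPrime t ∧
      ∃ c : (ZMod t)ˣ, (∀ x : LL, x ^ t = 1 → (T.σ : GG) x = x ^ (c : ZMod t).val) ∧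
        S.χ t ht c ^ ((p + 1) / 2) = S.χ t₀ ht₀ u₀ ^ ((p + 1) / 2) := by
    intro t ht
    obtain ⟨htp, htM, -⟩ := S.T_prime t ht
    haveI : Fact t.Prime := ⟨htp⟩
    haveI : NeZero t := ⟨htp.ne_zero⟩
    haveI := Mazur.isGalois_QQb
    have htne : t ≠ p := fun h => S.M0_not_dvd (h ▸ htM)
    obtain ⟨V, hV⟩ := Frobenius.exists_liesOverPrime t htp
    obtain ⟨φ, hφ⟩ := Frobenius.exists_isFrobeniusAt (V := V) t htp hV
    obtain ⟨T, -⟩ := targetTameGen p t hp.out htp htne V hV φ hφ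
    haveI : NeZero ((t : ℕ) : LL) := ⟨Nat.cast_ne_zero.2 htp.ne_zero⟩
    obtain ⟨z, hz⟩ := HasEnoughRootsOfUnity.exists_primitiveRoot LL t
    set χ := S.χ t ht with hχ
    have hc : χ (hz.autToPow ℚ (T.σ : GG)) ≠ 1 := by
      intro h1
      haveI : Finite χ.range := Finite.of_surjective χ.rangeRestrict χ.rangeRestrict_surjective
      let f : V.decompositionSubgroup ℚ →* χ.range :=
        χ.rangeRestrict.comp ((hz.autToPow ℚ).comp (V.decompositionSubgroup ℚ).subtype)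
      haveI : FiniteDimensional ℚ (IntermediateField.adjoin ℚ ({z} : Set LL)) :=
        IntermediateField.adjoin.finiteDimensional
          (Algebra.IsAlgebraic.isAlgebraic (R := ℚ) z).isIntegral
      obtain ⟨hg, -, -⟩ := T.gen f ⟨IntermediateField.adjoin ℚ ({z} : Set LL), inferInstance,
        fun a s hs => by
          have hfix : (s : GG) z = z := (IntermediateField.mem_fixingSubgroup_iff _ _).mp hs z
            (IntermediateField.subset_adjoin ℚ _ rfl)
          have h1 : hz.autToPow ℚ (s : GG) = 1 := Units.ext (ZMod.val_injective t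
            (hz.pow_inj (ZMod.val_lt _) (ZMod.val_lt _)
              (by rw [hz.autToPow_spec ℚ, hfix, Units.val_one, ZMod.val_one, pow_one])))
          have hfs : f s = 1 := Subtype.ext (by
            show χ (hz.autToPow ℚ (s : GG)) = 1
            rw [h1, map_one])
          rw [map_mul, hfs, mul_one]⟩
        fun τ _ => ⟨1, Subtype.ext (by rw [pow_one]; exact S.χ_pow t ht _)⟩
      have htriv : f T.σ = 1 := Subtype.ext h1
      obtain ⟨u, hu⟩ : ∃ u, χ u ≠ 1 := by
        by_contra h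
        push Not at h
        exact S.χ_ne t ht (MonoidHom.ext h)
      obtain ⟨σ, hσ, hσu⟩ := exists_inertia_autToPow hV hz u
      have h2 := hg ⟨σ, Places.inertia_le_decomposition V hσ⟩ hσ
      rw [htriv, Subgroup.zpowers_one_eq_bot, Subgroup.mem_bot] at h2
      exact hu (by rw [← hσu]; exact congrArg Subtype.val h2)
    set z1 := χ (hz.autToPow ℚ (T.σ : GG)) ^ ((p + 1) / 2) with hz1
    have hz1p : z1 ^ p = 1 := by rw [hz1, ← pow_mul, mul_comm, pow_mul, S.χ_pow, one_pow]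
    have hz1ne : z1 ≠ 1 := pow_half_ne_one (S.χ_pow t ht _) hc hhalf
    haveI : NeZero p := ⟨hp.out.ne_zero⟩
    have hprim : IsPrimitiveRoot ((z1 : Oˣ) : O) p := by
      rw [IsPrimitiveRoot.coe_units_iff, IsPrimitiveRoot.iff_orderOf]
      exact orderOf_eq_prime hz1p hz1ne
    obtain ⟨j, -, hj⟩ := hprim.eq_pow_of_pow_eq_one
      (ξ := ((S.χ t₀ ht₀ u₀ ^ ((p + 1) / 2) : Oˣ) : O))
      (by rw [← Units.val_pow_eq_pow_val, ← pow_mul, mul_comm, pow_mul, S.χ_pow, one_pow,
        Units.val_one])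
    have hjp : ¬ p ∣ j := by
      rintro ⟨k, rfl⟩
      rw [pow_mul, hprim.pow_eq_one, one_pow] at hj
      exact pow_half_ne_one (S.χ_pow t₀ ht₀ u₀) hu₀ hhalf (Units.ext hj.symm)
    refine ⟨V, T.pow j hjp, hV, hz.autToPow ℚ ((T.σ : GG) ^ j), fun x hx => ?_, ?_⟩
    · obtain ⟨i, -, rfl⟩ := hz.eq_pow_of_pow_eq_one hx
      show ((T.σ : GG) ^ j) (z ^ i) = _
      rw [map_pow ((T.σ : GG) ^ j), ← hz.autToPow_spec ℚ ((T.σ : GG) ^ j), ← pow_mul, ← pow_mul,
        mul_comm]
    · refine Units.ext ?_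
      rw [map_pow, map_pow, ← pow_mul, mul_comm, pow_mul, ← hz1, Units.val_pow_eq_pow_val, hj]
  choose V T hV c hc hcζ using key
  exact ⟨fun t ht => ((T t ht).σ, (T t ht).φ), fun t ht =>
    ⟨V t ht, T t ht, hV t ht, rfl, rfl, c t ht, hc t ht, hcζ t ht⟩⟩

end FLTAgent.Lowering.P6
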