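import Fermat.Agent.Lowering.P6.Interface
import Fermat.Agent.Deformation.MatrixLifts
import Fermat.Agent.Deformation.Burnside

/-!
# Normalised representations

The residual representation spans all matrices, so the representation of a level can be conjugated
to reduce to it exactly, and then to be carried to that of the base.
-/

set_option autoImplicit false
set_option linter.style.haveILetI false

noncomputable section

open IsLocalRing FLTAgent.Deformation

namespace FLTAgent.Lowering.P6

local notation "GG" => (AlgebraicClosure ℚ ≃ₐ[ℚ] AlgebraicClosure ℚ)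
local notation "M2" => Matrix (Fin 2) (Fin 2)

variable {p : ℕ} [Fact p.Prime] {O : Type} [CommRing O] [IsDomain O] [IsDiscreteValuationRing O]
  [Algebra ℤ_[p] O] (S : Setup p O)

/-- The residual representation as a homomorphism into matrices. -/
def rbHom : GG →* M2 (ResidueField O) := (Units.coeHom _).comp S.rb

theorem span_rbHom : Submodule.span (ResidueField O) (Set.range (rbHom S)) = ⊤ := by
  let K := AlgebraicClosure (ResidueField O)
  let ψ := algebraMap (ResidueField O) K
  let rK : GG →* M2 K := ψ.mapMatrix.toMonoidHom.comp (rbHom S)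
  refine span_eq_top_of_map_span_eq_top ψ _ ?_
  rw [← Set.range_comp]
  refine span_range_eq_top_of_movesEveryLine rK fun v hv => ?_
  by_contra h
  push Not at h
  choose c hc using fun g => h (rK g) ⟨g, rfl⟩
  have hmul : ∀ g g', c (g * g') = c g * c g' := fun g g' => by
    have h1 := hc (g * g')
    rw [map_mul, ← Matrix.mulVec_mulVec, hc g', Matrix.mulVec_smul, hc g, smul_smul] at h1
    exact (smul_left_injective K hv (h1.trans rfl)).symm.trans (mul_comm _ _)
  have hone : c 1 = 1 := smul_left_injective K hv (show c 1 • v = (1 : K) • v by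
    rw [← hc 1, map_one, Matrix.one_mulVec, one_smul])
  let cH : GG →* K := { toFun := c, map_one' := hone, map_mul' := hmul }
  obtain ⟨g, g', hgh⟩ := S.rb_big
  set k := g * g' * g⁻¹ * g'⁻¹ with hk
  have hck : c k = 1 := by
    show cH k = 1
    rw [hk, map_mul, map_mul, map_mul, mul_assoc (cH g) (cH g'), mul_comm (cH g'), ← mul_assoc,
      ← map_mul, mul_inv_cancel, map_one, one_mul, ← map_mul, mul_inv_cancel, map_one]
  have hdetk : (rK k).det = 1 := by
    let dH : GG →* Kˣ := (Units.map ψ.toMonoidHom).comp (Matrix.GeneralLinearGroup.det.comp S.rb)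
    have h1 : dH k = 1 := by
      rw [hk, map_mul, map_mul, map_mul, map_inv, map_inv, mul_comm (dH g) (dH g'),
        mul_inv_cancel_right, mul_inv_cancel]
    have h2 := congrArg (fun u : Kˣ => (u : K)) h1
    simp only [Units.val_one] at h2
    rw [← h2]
    show (ψ.mapMatrix (rbHom S k)).det = _
    rw [← RingHom.map_det]
    rfl
  have hdet1 : (rK k - 1).det = 0 := Matrix.exists_mulVec_eq_zero_iff.1
    ⟨v, hv, by rw [Matrix.sub_mulVec, hc, hck, one_smul, Matrix.one_mulVec, sub_self]⟩
  have htr : (rK k).trace = 2 := by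
    rw [Matrix.det_fin_two] at hdet1 hdetk
    simp only [Matrix.sub_apply, Matrix.one_apply_eq, Matrix.one_apply_ne (show (0 : Fin 2) ≠ 1 by decide),
      Matrix.one_apply_ne (show (1 : Fin 2) ≠ 0 by decide), sub_zero] at hdet1
    rw [Matrix.trace_fin_two]
    linear_combination -hdet1 + hdetk
  refine hgh (ψ.injective ?_)
  rw [map_ofNat, ← htr]
  show ψ (Matrix.trace (rbHom S k)) = _
  simp [rK, Matrix.trace_fin_two]

variable {R : Type} [CommRing R] [Algebra O R] [IsLocalRing R]

omit [IsLocalRing R] in
theorem red_surjective (red : R →ₐ[O] ResidueField O) : Function.Surjective red := fun x => by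
  obtain ⟨a, rfl⟩ := residue_surjective x
  exact ⟨algebraMap O R a, red.commutes a⟩

theorem red_eq_zero_iff (red : R →ₐ[O] ResidueField O) (x : R) :
    red x = 0 ↔ x ∈ maximalIdeal R := by
  have h : RingHom.ker red = maximalIdeal R :=
    IsLocalRing.eq_maximalIdeal (RingHom.ker_isMaximal_of_surjective red.toRingHom
      (red_surjective red))
  rw [← h, RingHom.mem_ker]

theorem residue_eq_of_red (red : R →ₐ[O] ResidueField O) {x y : R} (h : red x = red y) :
    residue R x = residue R y := by
  rw [← sub_eq_zero, ← map_sub, residue_eq_zero_iff, ← red_eq_zero_iff red, map_sub, h, sub_self]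

/-- A lift of the residual representation spans residually. -/
theorem spansResidue_of_red (red : R →ₐ[O] ResidueField O) (r : GG →* M2 R)
    (hr : ∀ g, (r g).map red = rbHom S g) : SpansResidue r := by
  rw [SpansResidue, eq_top_iff]
  intro y _
  choose Y hY using fun i j => residue_surjective (R := R) (y i j)
  have hspan := span_rbHom S ▸ (Submodule.mem_top (x := Matrix.of fun i j => red (Y i j)))
  rw [Finsupp.mem_span_range_iff_exists_finsupp] at hspan
  obtain ⟨c, hc⟩ := hspan
  choose C hC using fun g => red_surjective red (c g)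
  have key : y = c.sum fun g _ => residue R (C g) • (r g).map (residue R) := by
    ext i j
    rw [← hY i j, Finsupp.sum, Matrix.sum_apply]
    simp only [Matrix.smul_apply, Matrix.map_apply, smul_eq_mul, ← map_mul, ← map_sum]
    refine residue_eq_of_red red ?_
    have h1 := congrFun (congrFun hc i) j
    rw [Finsupp.sum, Matrix.sum_apply] at h1
    rw [map_sum]
    exact h1.symm.trans (Finset.sum_congr rfl fun g _ => by
      rw [map_mul, hC, Matrix.smul_apply, smul_eq_mul, ← hr g]
      rfl)
  rw [key]
  exact Submodule.sum_mem _ fun g _ =>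
    Submodule.smul_mem _ _ (Submodule.subset_span ⟨g, rfl⟩)

/-- A representation with the residual traces is conjugate to a lift of the residual one. -/
theorem exists_conj_red (red : R →ₐ[O] ResidueField O) (ρ : GG →* GL (Fin 2) R)
    (htr : ∀ σ, red (trGL (ρ σ)) = trGL (S.rb σ)) :
    ∃ P : GL (Fin 2) R, ∀ σ, ((P * ρ σ * P⁻¹ : GL (Fin 2) R) : M2 R).map red = rbHom S σ := by
  let r' : GG →* M2 (ResidueField O) :=
    red.toRingHom.mapMatrix.toMonoidHom.comp ((Units.coeHom _).comp ρ)
  have hspan : SpansResidue (rbHom S) := by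
    rw [SpansResidue, eq_top_iff]
    intro y _
    choose Y hY using fun i j => residue_surjective (R := ResidueField O) (y i j)
    have hspan := span_rbHom S ▸ (Submodule.mem_top (x := Matrix.of Y))
    rw [Finsupp.mem_span_range_iff_exists_finsupp] at hspan
    obtain ⟨c, hc⟩ := hspan
    have key : y = c.sum fun g a => residue _ a • (rbHom S g).map (residue _) := by
      ext i j
      rw [← hY i j, ← Matrix.of_apply Y i j, ← hc]
      simp [Finsupp.sum, Matrix.sum_apply, map_sum]
    rw [key]
    exact Submodule.sum_mem _ fun g _ =>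
      Submodule.smul_mem _ _ (Submodule.subset_span ⟨g, rfl⟩)
  obtain ⟨P, hP, hPeq⟩ := exists_conj_of_trace_eq' (rbHom S) r' hspan fun σ => by
    show Matrix.trace (S.rb σ : M2 (ResidueField O)) = _
    rw [show Matrix.trace (S.rb σ : M2 (ResidueField O)) = red (trGL (ρ σ)) from (htr σ).symm]
    show red (Matrix.trace (ρ σ : M2 R)) = Matrix.trace ((ρ σ : M2 R).map red)
    simp [Matrix.trace_fin_two]
  choose Q hQ using fun i j => red_surjective red (P i j)
  have hQu : IsUnit (Matrix.of Q) := by
    rw [Matrix.isUnit_iff_isUnit_det]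
    rw [← IsLocalRing.notMem_maximalIdeal, ← red_eq_zero_iff red]
    have h1 : red (Matrix.of Q).det = P.det := by
      rw [Matrix.det_fin_two, Matrix.det_fin_two]
      simp [hQ]
    rw [h1]
    exact (Matrix.isUnit_iff_isUnit_det P).1 hP |>.ne_zero
  refine ⟨hQu.unit⁻¹, fun σ => ?_⟩
  rw [inv_inv, Units.val_mul, Units.val_mul]
  show red.toRingHom.mapMatrix (((hQu.unit⁻¹ : GL (Fin 2) R) : M2 R) * (ρ σ : M2 R) * (Matrix.of Q)) = _
  have hPQ : red.toRingHom.mapMatrix (Matrix.of Q) = P := by ext i j; exact hQ i j
  rw [map_mul, map_mul, hPQ, mul_assoc, show red.toRingHom.mapMatrix (ρ σ : M2 R) = r' σ from rfl,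
    ← hPeq, ← mul_assoc]
  have h1 : red.toRingHom.mapMatrix ((hQu.unit⁻¹ : GL (Fin 2) R) : M2 R) * P = 1 := by
    rw [← hPQ, ← map_mul, hQu.val_inv_mul, map_one]
  rw [h1, one_mul]

end FLTAgent.Lowering.P6
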